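import Mathlib.Topology.Algebra.Order.Archimedean
import Mathlib.Topology.Instances.Real.Lemmas
import Mathlib.Analysis.SpecialFunctions.Log.Basic

/-!
# Closed subgroups of the group of affine maps of the line

A closed subgroup of `{(l, s) | 0 < l}` with the product `(l, s) (l', s') = (l l', s + l s')` that
is not discrete contains all translations or the stabiliser of a point.
-/

set_option autoImplicit false

noncomputable section

namespace FA.Oppenheim

open Filter
open scoped Topology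

/-- A closed subgroup of the affine group of the line. -/
structure IsAffineSubgroup (T : Set (ℝ × ℝ)) : Prop where
  one : (1, 0) ∈ T
  pos : ∀ p ∈ T, 0 < p.1
  mul : ∀ p ∈ T, ∀ q ∈ T, (p.1 * q.1, p.2 + p.1 * q.2) ∈ T
  inv : ∀ p ∈ T, (p.1⁻¹, -p.2 / p.1) ∈ T
  closed : ∀ (p : ℕ → ℝ × ℝ) (q : ℝ × ℝ), (∀ n, p n ∈ T) → Tendsto p atTop (𝓝 q) → 0 < q.1 → q ∈ T

theorem eq_univ_of_small (G : AddSubgroup ℝ) (hG : IsClosed (G : Set ℝ))
    (h : ∀ η : ℝ, 0 < η → ∃ x ∈ G, x ≠ 0 ∧ |x| < η) : ∀ x, x ∈ G := by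
  rcases G.dense_or_cyclic with hd | ⟨a, ha⟩
  · intro x
    have := hG.closure_eq ▸ hd x
    exact this
  · exfalso
    obtain ⟨x, hx, hx0, hxa⟩ := h (if a = 0 then 1 else |a|) (by
      split_ifs with h0
      · exact one_pos
      · exact abs_pos.2 h0)
    rw [ha, AddSubgroup.mem_closure_singleton] at hx
    obtain ⟨n, rfl⟩ := hx
    have hn : n ≠ 0 := fun h => hx0 (by simp [h])
    have ha0 : a ≠ 0 := fun h => hx0 (by simp [h])
    rw [if_neg ha0, zsmul_eq_mul, abs_mul] at hxa
    have h1 : (1 : ℝ) ≤ |(n : ℝ)| := by exact_mod_cast Int.one_le_abs hn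
    nlinarith [abs_pos.2 ha0]

/-- **A non-discrete closed subgroup contains a one-parameter group.** -/
theorem IsAffineSubgroup.dichotomy {T : Set (ℝ × ℝ)} (hT : IsAffineSubgroup T)
    (hacc : ∀ η : ℝ, 0 < η → ∃ p ∈ T, p ≠ (1, 0) ∧ dist p (1, 0) < η) :
    (∀ s, (1, s) ∈ T) ∨ ∃ κ : ℝ, ∀ l, 0 < l → (l, (l - 1) * κ) ∈ T := by
  by_cases htr : ∀ η : ℝ, 0 < η → ∃ s : ℝ, s ≠ 0 ∧ |s| < η ∧ (1, s) ∈ T
  · left
    let G : AddSubgroup ℝ :=
      { carrier := {s | (1, s) ∈ T}
        zero_mem' := hT.one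
        add_mem' := fun {x y} hx hy => by simpa using hT.mul _ hx _ hy
        neg_mem' := fun {x} hx => by simpa using hT.inv _ hx }
    refine eq_univ_of_small G (IsSeqClosed.isClosed fun x a hx ha => ?_) fun η hη => ?_
    · exact hT.closed (fun n => (1, x n)) (1, a) hx (tendsto_const_nhds.prodMk_nhds ha) one_pos
    · obtain ⟨s, h0, h1, h2⟩ := htr η hη
      exact ⟨s, h2, h0, h1⟩
  · right
    push Not at htr
    obtain ⟨η₀, hη₀, hno⟩ := htr
    obtain ⟨η, hη, hη2, hηη⟩ : ∃ η, 0 < η ∧ η ≤ 1 / 2 ∧ η ≤ η₀ / 4 :=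
      ⟨min (1 / 2) (η₀ / 4), lt_min (by norm_num) (by linarith), min_le_left _ _, min_le_right _ _⟩
    have hcomm : ∀ p ∈ T, ∀ q ∈ T, dist p (1, 0) < η → dist q (1, 0) < η →
        (p.1 - 1) * q.2 = (q.1 - 1) * p.2 := by
      intro p hp q hq hpd hqd
      by_contra hne
      rw [Prod.dist_eq, max_lt_iff, Real.dist_eq, Real.dist_eq, sub_zero] at hpd hqd
      have h := hT.mul _ (hT.mul _ hp _ hq) _ (hT.inv _ (hT.mul _ hq _ hp))
      have hp1 := hT.pos _ hp
      have hq1 := hT.pos _ hq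
      have e : ((p.1 * q.1 * (q.1 * p.1)⁻¹, p.2 + p.1 * q.2 + p.1 * q.1 *
          (-(q.2 + q.1 * p.2) / (q.1 * p.1))) : ℝ × ℝ) =
          (1, (p.1 - 1) * q.2 - (q.1 - 1) * p.2) := by
        ext <;> simp only
        · field_simp
        · field_simp
          ring
      rw [e] at h
      refine hno _ (sub_ne_zero.2 hne) ?_ h
      refine lt_of_le_of_lt (abs_sub _ _) ?_
      rw [abs_mul, abs_mul]
      have b1 := mul_le_mul hpd.1.le hqd.2.le (abs_nonneg _) hη.le
      have b2 := mul_le_mul hqd.1.le hpd.2.le (abs_nonneg _) hη.le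
      have b3 : η * η ≤ η := mul_le_of_le_one_left hη.le (by linarith)
      linarith
    obtain ⟨p₀, hp₀, hp₀ne, hp₀d⟩ := hacc η hη
    have hp₀1 : p₀.1 ≠ 1 := fun h => by
      rw [Prod.dist_eq, max_lt_iff, Real.dist_eq, Real.dist_eq, sub_zero] at hp₀d
      refine hno p₀.2 (fun h2 => hp₀ne (Prod.ext h h2)) (by linarith [hp₀d.2]) ?_
      rwa [← h]
    obtain ⟨κ, hκ⟩ : ∃ κ, κ = p₀.2 / (p₀.1 - 1) := ⟨_, rfl⟩
    let G : AddSubgroup ℝ :=
      { carrier := {x | (Real.exp x, (Real.exp x - 1) * κ) ∈ T}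
        zero_mem' := by simpa using hT.one
        add_mem' := fun {x y} hx hy => by
          show (_, _) ∈ T
          convert hT.mul _ hx _ hy using 2
          · exact Real.exp_add _ _
          · rw [Real.exp_add]; ring
        neg_mem' := fun {x} hx => by
          show (_, _) ∈ T
          convert hT.inv _ hx using 2
          · exact Real.exp_neg _
          · rw [Real.exp_neg]
            have := Real.exp_ne_zero x
            field_simp
            ring }
    have hG := eq_univ_of_small G (IsSeqClosed.isClosed fun x a hx ha =>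
      hT.closed (fun n => (Real.exp (x n), (Real.exp (x n) - 1) * κ))
        (Real.exp a, (Real.exp a - 1) * κ) hx (by
          exact ((show Continuous fun x : ℝ => (Real.exp x, (Real.exp x - 1) * κ) by
            fun_prop).tendsto a).comp ha) (Real.exp_pos a)) fun δ hδ => ?_
    · refine ⟨κ, fun l hl => ?_⟩
      have := hG (Real.log l)
      simpa [G, Real.exp_log hl] using this
    · obtain ⟨δ', hδ', hδη, hδδ⟩ : ∃ δ', 0 < δ' ∧ δ' ≤ η ∧ δ' ≤ δ / 4 :=
        ⟨min η (δ / 4), lt_min hη (by linarith), min_le_left _ _, min_le_right _ _⟩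
      obtain ⟨p, hp, hpne, hpd⟩ := hacc δ' hδ'
      have hc := hcomm p hp p₀ hp₀ (hpd.trans_le hδη) hp₀d
      rw [Prod.dist_eq, max_lt_iff, Real.dist_eq, Real.dist_eq, sub_zero] at hpd
      have hp1 := hT.pos _ hp
      have hp2 : p.2 = (p.1 - 1) * κ := by
        rw [hκ, ← mul_div_assoc, eq_div_iff (sub_ne_zero.2 hp₀1), hc]
        ring
      refine ⟨Real.log p.1, ?_, ?_, ?_⟩
      · show (_, _) ∈ T
        rw [Real.exp_log hp1, ← hp2]
        exact hp
      · refine Real.log_ne_zero_of_pos_of_ne_one hp1 fun h => hpne (Prod.ext h ?_)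
        rw [hp2, h, sub_self, zero_mul]
      · obtain ⟨h1, h2⟩ := abs_lt.1 hpd.1
        have hu := Real.log_le_sub_one_of_pos hp1
        have hl := Real.one_sub_inv_le_log_of_pos hp1
        have hinv : p.1⁻¹ - 1 < 2 * δ' := by
          rw [inv_eq_one_div, div_sub_one hp1.ne', div_lt_iff₀ hp1]
          nlinarith
        rw [abs_lt]
        constructor <;> linarith

end FA.Oppenheim
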