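import Mathlib.LinearAlgebra.Matrix.Notation
import Mathlib.LinearAlgebra.Matrix.Determinant.Basic
import Mathlib.Analysis.SpecialFunctions.Sqrt
import Mathlib.Topology.Instances.Matrix
import Mathlib.Tactic.LinearCombination
import Mathlib.Tactic.FinCases

/-!
# The group of the form `2 x₀ x₂ - x₁ ^ 2` and sections of its orbit maps

`unip`, `trans`, `dil` are the unipotent subgroup `U` of `SO (2, 1)`, the one-parameter group
commuting with it outside `SO (2, 1)`, and the diagonal group. Two lemmas replace the homogeneous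
spaces: if the form of `cₙ` tends to that of `1` then `hₙ cₙ → 1` for some automorphs `hₙ`, and if
also `cₙ⁻¹ e₀ → e₀` then the `hₙ` may be taken in `U`.
-/

set_option autoImplicit false

noncomputable section

namespace FA.Oppenheim

open Matrix Filter
open scoped Topology

/-- Real `3 × 3` matrices. -/
abbrev Mat : Type := Matrix (Fin 3) (Fin 3) ℝ

instance instFirstCountableTopologyMat : FirstCountableTopology Mat :=
  inferInstanceAs (FirstCountableTopology (Fin 3 → Fin 3 → ℝ))

/-- The form `2 x₀ x₂ - x₁ ^ 2`. -/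
def stdForm : Mat := !![0, 0, 1; 0, -1, 0; 1, 0, 0]

/-- The first basis vector, isotropic for `stdForm`. -/
def stdVec : Fin 3 → ℝ := ![1, 0, 0]

/-- The matrix of `stdForm ∘ a`. -/
def pull (a : Mat) : Mat := aᵀ * stdForm * a

/-- The automorphs of `stdForm`. -/
def IsAutomorph (h : Mat) : Prop := pull h = stdForm

/-- The unipotent group `U`. -/
def unip (t : ℝ) : Mat := !![1, t, t ^ 2 / 2; 0, 1, t; 0, 0, 1]

/-- The one-parameter group commuting with `U` and transversal to the automorphs. -/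
def trans (s : ℝ) : Mat := !![1, 0, s; 0, 1, 0; 0, 0, 1]

/-- The diagonal automorphs. -/
def dil (c : ℝ) : Mat := !![c, 0, 0; 0, 1, 0; 0, 0, c⁻¹]

/-- The form of `trans s`. -/
def transForm (s : ℝ) : Mat := !![0, 0, 1; 0, -1, 0; 1, 0, 2 * s]

theorem unip_zero : unip 0 = 1 := by
  ext i j; fin_cases i <;> fin_cases j <;> simp [unip]

theorem trans_zero : trans 0 = 1 := by
  ext i j; fin_cases i <;> fin_cases j <;> simp [trans]

theorem dil_one : dil 1 = 1 := by
  ext i j; fin_cases i <;> fin_cases j <;> simp [dil]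

theorem unip_mul (s t : ℝ) : unip s * unip t = unip (s + t) := by
  ext i j; fin_cases i <;> fin_cases j <;> simp [unip, Matrix.mul_apply, Fin.sum_univ_three] <;>
    ring

theorem trans_mul (s t : ℝ) : trans s * trans t = trans (s + t) := by
  ext i j; fin_cases i <;> fin_cases j <;> simp [trans, Matrix.mul_apply, Fin.sum_univ_three]
  all_goals ring

theorem dil_mul (c d : ℝ) : dil c * dil d = dil (c * d) := by
  ext i j; fin_cases i <;> fin_cases j <;> simp [dil, Matrix.mul_apply, Fin.sum_univ_three]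
  all_goals ring

theorem trans_unip (s t : ℝ) : trans s * unip t = unip t * trans s := by
  ext i j; fin_cases i <;> fin_cases j <;>
    simp [trans, unip, Matrix.mul_apply, Fin.sum_univ_three]
  all_goals ring

theorem dil_trans {c : ℝ} (hc : c ≠ 0) (s : ℝ) : dil c * trans s = trans (c ^ 2 * s) * dil c := by
  ext i j; fin_cases i <;> fin_cases j <;>
    simp [trans, dil, Matrix.mul_apply, Fin.sum_univ_three]
  all_goals field_simp

theorem dil_unip {c : ℝ} (hc : c ≠ 0) (t : ℝ) : dil c * unip t = unip (c * t) * dil c := by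
  ext i j; fin_cases i <;> fin_cases j <;>
    simp [unip, dil, Matrix.mul_apply, Fin.sum_univ_three] <;> field_simp

theorem det_unip (t : ℝ) : (unip t).det = 1 := by
  simp [unip, Matrix.det_fin_three]

theorem det_trans (s : ℝ) : (trans s).det = 1 := by
  simp [trans, Matrix.det_fin_three]

theorem det_dil {c : ℝ} (hc : c ≠ 0) : (dil c).det = 1 := by
  simp [dil, Matrix.det_fin_three, hc]

theorem det_stdForm : stdForm.det = 1 := by
  simp [stdForm, Matrix.det_fin_three]

theorem det_transForm (s : ℝ) : (transForm s).det = 1 := by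
  simp [transForm, Matrix.det_fin_three]

theorem pull_mul (a b : Mat) : pull (a * b) = bᵀ * pull a * b := by
  simp only [pull, transpose_mul, Matrix.mul_assoc]

theorem pull_one : pull 1 = stdForm := by simp [pull]

theorem pull_unip (t : ℝ) : pull (unip t) = stdForm := by
  ext i j; fin_cases i <;> fin_cases j <;>
    simp [pull, unip, stdForm, Matrix.mul_apply, Fin.sum_univ_three]
  all_goals ring

theorem pull_dil {c : ℝ} (hc : c ≠ 0) : pull (dil c) = stdForm := by
  ext i j; fin_cases i <;> fin_cases j <;>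
    simp [pull, dil, stdForm, Matrix.mul_apply, Fin.sum_univ_three, hc]

theorem pull_trans (s : ℝ) : pull (trans s) = transForm s := by
  ext i j; fin_cases i <;> fin_cases j <;>
    simp [pull, trans, stdForm, transForm, Matrix.mul_apply, Fin.sum_univ_three]
  all_goals ring

theorem pull_automorph_mul {h : Mat} (hh : IsAutomorph h) (a : Mat) : pull (h * a) = pull a := by
  rw [pull_mul, hh, pull]

theorem isAutomorph_unip (t : ℝ) : IsAutomorph (unip t) := pull_unip t

theorem isAutomorph_dil {c : ℝ} (hc : c ≠ 0) : IsAutomorph (dil c) := pull_dil hc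

theorem isAutomorph_one : IsAutomorph 1 := pull_one

theorem IsAutomorph.mul {g h : Mat} (hg : IsAutomorph g) (hh : IsAutomorph h) :
    IsAutomorph (g * h) := by
  rw [IsAutomorph, pull_automorph_mul hg, hh]

theorem IsAutomorph.abs_det {h : Mat} (hh : IsAutomorph h) : |h.det| = 1 := by
  have h' := congrArg Matrix.det hh
  rw [pull, det_mul, det_mul, det_transpose, det_stdForm, mul_one] at h'
  rcases mul_self_eq_one_iff.1 h' with h | h <;> simp [h]

theorem IsAutomorph.inv {h : Mat} (hh : IsAutomorph h) : IsAutomorph h⁻¹ := by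
  have hu : IsUnit h.det := by
    refine isUnit_iff_ne_zero.2 fun h0 => ?_
    have := hh.abs_det
    simp [h0] at this
  have h' := pull_automorph_mul hh h⁻¹
  rw [mul_nonsing_inv h hu, pull_one] at h'
  exact h'.symm

theorem stdForm_mul_self : stdForm * stdForm = 1 := by
  ext i j; fin_cases i <;> fin_cases j <;> simp [stdForm, Matrix.mul_apply, Fin.sum_univ_three]

theorem IsAutomorph.transpose {h : Mat} (hh : IsAutomorph h) : IsAutomorph hᵀ := by
  have h' : stdForm * hᵀ * stdForm * h = 1 := by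
    rw [Matrix.mul_assoc stdForm, Matrix.mul_assoc stdForm]
    exact (congrArg (stdForm * ·) hh).trans stdForm_mul_self
  have h2 : h * (stdForm * hᵀ * stdForm) = 1 := mul_eq_one_comm.1 h'
  show (hᵀ)ᵀ * stdForm * hᵀ = stdForm
  rw [transpose_transpose]
  calc h * stdForm * hᵀ = h * (stdForm * hᵀ) * (stdForm * stdForm) := by
        rw [stdForm_mul_self, Matrix.mul_one, Matrix.mul_assoc]
    _ = h * (stdForm * hᵀ * stdForm) * stdForm := by simp only [Matrix.mul_assoc]
    _ = stdForm := by rw [h2, Matrix.one_mul]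

theorem continuous_pull : Continuous pull := by
  unfold pull; fun_prop

theorem continuous_unip : Continuous unip := by
  unfold unip; fun_prop

theorem continuous_trans : Continuous trans := by
  unfold trans; fun_prop

/-- The symmetric basis in which `stdForm` is diagonal. -/
def diagBasis : Mat :=
  !![(Real.sqrt 2)⁻¹, 0, (Real.sqrt 2)⁻¹; 0, 1, 0; (Real.sqrt 2)⁻¹, 0, -(Real.sqrt 2)⁻¹]

theorem diagBasis_mul_self : diagBasis * diagBasis = 1 := by
  have h : (Real.sqrt 2)⁻¹ * (Real.sqrt 2)⁻¹ = (2 : ℝ)⁻¹ := by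
    rw [← mul_inv, Real.mul_self_sqrt (by norm_num)]
  ext i j; fin_cases i <;> fin_cases j <;>
    simp [diagBasis, Matrix.mul_apply, Fin.sum_univ_three, h] <;> norm_num

theorem transpose_diagBasis : diagBasisᵀ = diagBasis := by
  ext i j; fin_cases i <;> fin_cases j <;> simp [diagBasis]

theorem pull_diagBasis : pull diagBasis = !![1, 0, 0; 0, -1, 0; 0, 0, -1] := by
  have h : (Real.sqrt 2)⁻¹ * (Real.sqrt 2)⁻¹ = (2 : ℝ)⁻¹ := by
    rw [← mul_inv, Real.mul_self_sqrt (by norm_num)]
  ext i j; fin_cases i <;> fin_cases j <;>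
    simp [pull, diagBasis, stdForm, Matrix.mul_apply, Fin.sum_univ_three, h] <;> norm_num

/-- The upper triangular square root of a form near `diag (1, -1, -1)`. -/
def triSqrt (q : Mat) : Mat :=
  !![Real.sqrt (q 0 0), q 0 1 / Real.sqrt (q 0 0), q 0 2 / Real.sqrt (q 0 0);
    0, Real.sqrt (q 0 1 ^ 2 / q 0 0 - q 1 1),
      (q 0 1 * q 0 2 / q 0 0 - q 1 2) / Real.sqrt (q 0 1 ^ 2 / q 0 0 - q 1 1);
    0, 0, Real.sqrt (q 0 2 ^ 2 / q 0 0 - q 2 2 -
      ((q 0 1 * q 0 2 / q 0 0 - q 1 2) / Real.sqrt (q 0 1 ^ 2 / q 0 0 - q 1 1)) ^ 2)]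

theorem triSqrt_spec {q : Mat} (hq : qᵀ = q) (h0 : 0 < q 0 0)
    (h1 : 0 < q 0 1 ^ 2 / q 0 0 - q 1 1) (h2 : 0 < q 0 2 ^ 2 / q 0 0 - q 2 2 -
      ((q 0 1 * q 0 2 / q 0 0 - q 1 2) / Real.sqrt (q 0 1 ^ 2 / q 0 0 - q 1 1)) ^ 2) :
    (triSqrt q)ᵀ * !![(1 : ℝ), 0, 0; 0, -1, 0; 0, 0, -1] * triSqrt q = q := by
  have hs : ∀ i j, q i j = q j i := fun i j => congrFun (congrFun hq j) i
  obtain ⟨a, ha⟩ : ∃ a, a = Real.sqrt (q 0 0) := ⟨_, rfl⟩
  obtain ⟨b, hb⟩ : ∃ b, b = Real.sqrt (q 0 1 ^ 2 / q 0 0 - q 1 1) := ⟨_, rfl⟩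
  obtain ⟨e, he⟩ : ∃ e, e = (q 0 1 * q 0 2 / q 0 0 - q 1 2) / b := ⟨_, rfl⟩
  rw [← hb, ← he] at h2
  obtain ⟨c, hc⟩ : ∃ c, c = Real.sqrt (q 0 2 ^ 2 / q 0 0 - q 2 2 - e ^ 2) := ⟨_, rfl⟩
  rw [triSqrt, ← hb, ← he, ← hc, ← ha]
  have ha0 : a ≠ 0 := ha ▸ (Real.sqrt_pos.2 h0).ne'
  have hb0 : b ≠ 0 := hb ▸ (Real.sqrt_pos.2 h1).ne'
  have ha' : a * a = q 0 0 := by rw [ha, Real.mul_self_sqrt h0.le]
  have hb' : b * b = q 0 1 ^ 2 / q 0 0 - q 1 1 := by rw [hb, Real.mul_self_sqrt h1.le]
  have hc' : c * c = q 0 2 ^ 2 / q 0 0 - q 2 2 - e ^ 2 := by rw [hc, Real.mul_self_sqrt h2.le]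
  have he' : b * e = q 0 1 * q 0 2 / q 0 0 - q 1 2 := by rw [he]; field_simp
  have hsq : ∀ x y : ℝ, x / a * (y / a) = x * y / q 0 0 := fun x y => by
    rw [← ha']; field_simp
  have hax : ∀ x : ℝ, a * (x / a) = x := fun x => by field_simp
  have hxa : ∀ x : ℝ, x / a * a = x := fun x => by field_simp
  ext i j
  fin_cases i <;> fin_cases j <;>
    simp [Matrix.mul_apply, Fin.sum_univ_three, hs 1 0, hs 2 0, hs 2 1, ha', hax, hxa, hsq] <;>
    ring_nf at * <;> linarith

theorem exists_automorph_tendsto {c : ℕ → Mat} (hc : ∀ n, |(c n).det| = 1)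
    (h : Tendsto (fun n => pull (c n)) atTop (𝓝 stdForm)) :
    ∃ g : ℕ → Mat, (∀ᶠ n in atTop, IsAutomorph (g n)) ∧
      Tendsto (fun n => g n * c n) atTop (𝓝 1) := by
  obtain ⟨σ, hσ⟩ : ∃ σ : Mat → Mat,
      σ = fun q => diagBasis * triSqrt (diagBasis * q * diagBasis) * diagBasis := ⟨_, rfl⟩
  have hq0 : diagBasis * stdForm * diagBasis = !![(1 : ℝ), 0, 0; 0, -1, 0; 0, 0, -1] := by
    have := pull_diagBasis
    rwa [pull, transpose_diagBasis] at this
  have hcP : Continuous fun q : Mat => diagBasis * q * diagBasis := by fun_prop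
  have hlim := (hcP.tendsto _).comp h
  rw [hq0] at hlim
  have e : ∀ i j, Tendsto (fun n => (diagBasis * pull (c n) * diagBasis) i j) atTop
      (𝓝 (!![(1 : ℝ), 0, 0; 0, -1, 0; 0, 0, -1] i j)) :=
    fun i j => tendsto_pi_nhds.1 (tendsto_pi_nhds.1 hlim i) j
  have e00 := e 0 0
  have e01 := e 0 1
  have e02 := e 0 2
  have e11 := e 1 1
  have e12 := e 1 2
  have e22 := e 2 2
  simp only [Matrix.of_apply, Matrix.cons_val', Matrix.cons_val_zero, Matrix.cons_val_one,
    Matrix.cons_val_two, Matrix.cons_val_fin_one, Matrix.empty_val', Matrix.head_cons,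
    Matrix.tail_cons] at e00 e01 e02 e11 e12 e22
  have d1 := ((e01.pow 2).div e00 one_ne_zero).sub e11
  have d2 := ((e01.mul e02).div e00 one_ne_zero).sub e12
  have d3 := (d2.div d1.sqrt (by norm_num)).pow 2
  have d4 := (((e02.pow 2).div e00 one_ne_zero).sub e22).sub d3
  have hσlim : Tendsto (fun n => σ (pull (c n))) atTop (𝓝 1) := by
    have ht : Tendsto (fun n => triSqrt (diagBasis * pull (c n) * diagBasis)) atTop (𝓝 1) := by
      refine tendsto_pi_nhds.2 fun i => tendsto_pi_nhds.2 fun j => ?_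
      fin_cases i <;> fin_cases j <;> simp [triSqrt]
      · simpa using e00.sqrt
      · simpa [Pi.div_def] using e01.div e00.sqrt (by norm_num)
      · simpa [Pi.div_def] using e02.div e00.sqrt (by norm_num)
      · simpa using d1.sqrt
      · simpa [Pi.div_def] using d2.div d1.sqrt (by norm_num)
      · simpa using d4.sqrt
    have hmap : Continuous fun q : Mat => diagBasis * q * diagBasis := hcP
    have := (hmap.tendsto (1 : Mat)).comp ht
    rw [Matrix.mul_one, diagBasis_mul_self] at this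
    rw [hσ]
    exact this
  refine ⟨fun n => σ (pull (c n)) * (c n)⁻¹, ?_, ?_⟩
  · filter_upwards [e00.eventually (eventually_gt_nhds (show (0 : ℝ) < 1 by norm_num)),
      d1.eventually (eventually_gt_nhds (show (0 : ℝ) < 0 ^ 2 / 1 - -1 by norm_num)),
      d4.eventually (eventually_gt_nhds (show (0 : ℝ) < 0 ^ 2 / 1 - -1 -
        ((0 * 0 / 1 - 0) / Real.sqrt (0 ^ 2 / 1 - -1)) ^ 2 by norm_num))] with n n0 n1 n2
    have hu : IsUnit (c n).det := isUnit_iff_ne_zero.2 fun h0 => by simpa [h0] using hc n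
    have hpp : pull (σ (pull (c n))) = pull (c n) := by
      have hsymm : (diagBasis * pull (c n) * diagBasis)ᵀ = diagBasis * pull (c n) * diagBasis := by
        have hJ : stdFormᵀ = stdForm := by
          ext i j; fin_cases i <;> fin_cases j <;> simp [stdForm]
        simp only [pull, transpose_mul, transpose_transpose, hJ, transpose_diagBasis,
          Matrix.mul_assoc]
      have hsp := triSqrt_spec hsymm n0 n1 n2
      rw [hσ]
      simp only []
      rw [pull_mul, pull_mul, pull_diagBasis, hsp, transpose_diagBasis]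
      simp only [← Matrix.mul_assoc, diagBasis_mul_self, Matrix.one_mul]
      rw [Matrix.mul_assoc, diagBasis_mul_self, Matrix.mul_one]
    rw [IsAutomorph, pull_mul, hpp, pull]
    calc ((c n)⁻¹)ᵀ * ((c n)ᵀ * stdForm * c n) * (c n)⁻¹
        = (c n * (c n)⁻¹)ᵀ * stdForm * (c n * (c n)⁻¹) := by
          simp only [transpose_mul, Matrix.mul_assoc]
      _ = stdForm := by simp [mul_nonsing_inv _ hu]
  · refine hσlim.congr fun n => ?_
    have hu : IsUnit (c n).det := isUnit_iff_ne_zero.2 fun h0 => by simpa [h0] using hc n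
    rw [Matrix.mul_assoc, nonsing_inv_mul _ hu, Matrix.mul_one]

theorem automorph_mul_unip {h : Mat} (hh : IsAutomorph h) (hdet : 0 < h.det) (hx : h 0 0 ≠ 0) :
    h * unip (-(h 0 1) / h 0 0) =
      !![h 0 0, 0, 0; h 1 0, 1, 0; h 2 0, h 1 0 / h 0 0, (h 0 0)⁻¹] := by
  obtain ⟨k, hk⟩ : ∃ k, k = h * unip (-(h 0 1) / h 0 0) := ⟨_, rfl⟩
  have hkA : IsAutomorph k := hk ▸ hh.mul (isAutomorph_unip _)
  have hkd : k.det = 1 := by
    have := hh.abs_det
    rw [abs_of_pos hdet] at this
    rw [hk, det_mul, det_unip, this, mul_one]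
  have k0 : ∀ i, k i 0 = h i 0 := fun i => by
    fin_cases i <;> simp [hk, unip, Matrix.mul_apply, Fin.sum_univ_three]
  have k01 : k 0 1 = 0 := by
    simp [hk, unip, Matrix.mul_apply, Fin.sum_univ_three]
    field_simp
    ring
  have E := fun i j => congrFun (congrFun hkA i) j
  have E00 := E 0 0
  have E01 := E 0 1
  have E11 := E 1 1
  have E02 := E 0 2
  have E12 := E 1 2
  have E22 := E 2 2
  simp [pull, stdForm, Matrix.mul_apply, Fin.sum_univ_three, k0, k01] at E00 E01 E11 E02 E12 E22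
  rw [Matrix.det_fin_three] at hkd
  simp only [k0, k01] at hkd
  have k21 : k 2 1 = h 1 0 * k 1 1 / h 0 0 := by
    field_simp
    linarith
  have k11sq : k 1 1 * k 1 1 = 1 := by linarith
  have k12 : k 1 2 = h 1 0 * k 0 2 / h 0 0 := by
    rw [k21] at E12
    field_simp at E12 ⊢
    have : k 1 1 * (h 1 0 * k 0 2 - h 0 0 * k 1 2) = 0 := by linarith
    have h11 : k 1 1 ≠ 0 := fun h => by simp [h] at k11sq
    have := (mul_eq_zero.1 this).resolve_left h11
    linarith
  have k02 : k 0 2 = 0 := by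
    rw [k12] at E22 E02
    field_simp at E22 E02
    by_contra hne
    have h2 : k 0 2 * (2 * h 0 0 ^ 2 * k 2 2 - h 1 0 ^ 2 * k 0 2) = 0 := by linarith
    have h3 := (mul_eq_zero.1 h2).resolve_left hne
    have h4 : h 0 0 * (2 * h 0 0 * h 2 0 - h 1 0 ^ 2) = 0 := by
      rw [show 2 * h 0 0 * h 2 0 - h 1 0 ^ 2 = 0 by linarith, mul_zero]
    have h5 : (2 * h 0 0 * h 2 0 - h 1 0 ^ 2) * k 0 2 = 0 := by
      rw [(mul_eq_zero.1 h4).resolve_left hx, zero_mul]
    have h6 : (0 : ℝ) = 2 * h 0 0 := by linarith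
    exact hx (by linarith)
  rw [k02] at k12 E02
  simp only [mul_zero, zero_div] at k12
  have k22 : k 2 2 = (h 0 0)⁻¹ := by
    field_simp
    rw [k12] at E02
    linarith
  have k11 : k 1 1 = 1 := by
    rw [k12, k02, k21, k22] at hkd
    field_simp at hkd
    refine mul_left_cancel₀ hx ?_
    ring_nf at hkd ⊢
    linarith
  rw [k11] at k21
  rw [← hk]
  ext i j
  fin_cases i <;> fin_cases j <;> simp [k0, k01, k02, k11, k12, k21, k22]

theorem exists_unip_tendsto {c : ℕ → Mat} (hc : ∀ n, |(c n).det| = 1)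
    (h : Tendsto (fun n => pull (c n)) atTop (𝓝 stdForm))
    (hv : Tendsto (fun n => (c n)⁻¹ *ᵥ stdVec) atTop (𝓝 stdVec))
    (hpos : ∀ n, 0 < (c n).det) :
    ∃ t : ℕ → ℝ, Tendsto (fun n => unip (t n) * c n) atTop (𝓝 1) := by
  obtain ⟨g, hg, hgc⟩ := exists_automorph_tendsto hc h
  have hmv : Tendsto (fun n => (g n * c n) *ᵥ ((c n)⁻¹ *ᵥ stdVec)) atTop
      (𝓝 ((1 : Mat) *ᵥ stdVec)) :=
    ((show Continuous fun p : Mat × (Fin 3 → ℝ) => p.1 *ᵥ p.2 by fun_prop).tendsto _).comp
      (hgc.prodMk_nhds hv)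
  have hcol : ∀ i, Tendsto (fun n => g n i 0) atTop (𝓝 (stdVec i)) := by
    intro i
    have := tendsto_pi_nhds.1 hmv i
    rw [one_mulVec] at this
    refine this.congr fun n => ?_
    have hu : IsUnit (c n).det := isUnit_iff_ne_zero.2 (hpos n).ne'
    rw [mulVec_mulVec, Matrix.mul_assoc, mul_nonsing_inv _ hu, Matrix.mul_one]
    simp [stdVec, mulVec, dotProduct, Fin.sum_univ_three]
  have c0 := hcol 0
  have c1 := hcol 1
  have c2 := hcol 2
  simp [stdVec] at c0 c1 c2
  obtain ⟨k, hk⟩ : ∃ k : ℕ → Mat, k = fun n =>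
      !![g n 0 0, 0, 0; g n 1 0, 1, 0; g n 2 0, g n 1 0 / g n 0 0, (g n 0 0)⁻¹] := ⟨_, rfl⟩
  have hklim : Tendsto k atTop (𝓝 1) := by
    refine tendsto_pi_nhds.2 fun i => tendsto_pi_nhds.2 fun j => ?_
    rw [hk]
    fin_cases i <;> fin_cases j <;> simp [c0, c1, c2]
    · simpa [Pi.div_def] using c1.div c0 one_ne_zero
    · simpa using c0.inv₀ one_ne_zero
  have hdetgc : ∀ᶠ n in atTop, 0 < (g n).det := by
    have hd := ((continuous_id.matrix_det).tendsto (1 : Mat)).comp hgc
    rw [id, det_one] at hd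
    filter_upwards [hd.eventually (eventually_gt_nhds (show (0 : ℝ) < 1 by norm_num))] with n hn
    simp only [Function.comp_apply, id, det_mul] at hn
    exact (pos_iff_pos_of_mul_pos hn).2 (hpos n)
  refine ⟨fun n => g n 0 1 / g n 0 0, ?_⟩
  have hkinv : Tendsto (fun n => (k n)⁻¹ * (g n * c n)) atTop (𝓝 1) := by
    have hi : Tendsto (fun n => (k n)⁻¹) atTop (𝓝 1) := by
      have hca : ContinuousAt (fun A : Mat => A⁻¹) 1 :=
        continuousAt_matrix_inv 1 (by simp [Ring.inverse_eq_inv'])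
      simpa [Function.comp_def] using hca.tendsto.comp hklim
    simpa using hi.mul hgc
  refine hkinv.congr' ?_
  filter_upwards [hg, hdetgc, c0.eventually (eventually_gt_nhds (show (0 : ℝ) < 1 by norm_num))]
    with n hn hd h0
  have hkn : k n = g n * unip (-(g n 0 1) / g n 0 0) := by
    rw [hk]; exact (automorph_mul_unip hn hd h0.ne').symm
  have hu : IsUnit (g n).det := isUnit_iff_ne_zero.2 hd.ne'
  have hui : (unip (-(g n 0 1) / g n 0 0))⁻¹ = unip (g n 0 1 / g n 0 0) := by
    refine inv_eq_left_inv ?_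
    rw [unip_mul, ← add_div, add_neg_cancel, zero_div, unip_zero]
  rw [hkn, Matrix.mul_inv_rev, hui, Matrix.mul_assoc, ← Matrix.mul_assoc (g n)⁻¹,
    nonsing_inv_mul _ hu, Matrix.one_mul]

end FA.Oppenheim
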