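import Mathlib.Analysis.Normed.Operator.ContinuousLinearMap
import Mathlib.Analysis.Normed.Operator.Basic
import Mathlib.Analysis.Normed.Module.HahnBanach
import Mathlib.LinearAlgebra.Vandermonde
import Mathlib.Analysis.Normed.Module.FiniteDimension
import Mathlib.Topology.Order.IntermediateValue
import Mathlib.Topology.MetricSpace.Sequences

/-!
# Polynomial drift

A closed set invariant under a one-parameter group acting polynomially contains fixed points
arbitrarily near, and distinct from, each of its accumulation points that is fixed: the orbit of a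
nearby point, read at the time it has moved by `δ`, converges to a nonconstant polynomial curve of
fixed points (Margulis).
-/

set_option autoImplicit false

noncomputable section

namespace FA.Oppenheim

open Filter Finset
open scoped Topology

variable {V : Type*} [NormedAddCommGroup V] [NormedSpace ℝ V]

theorem exists_polynomial_ne_zero {m : ℕ} {v : Fin m → V} (hv : v ≠ 0) :
    ∃ τ : ℝ, 0 ≤ τ ∧ τ ≤ 1 ∧ ∑ j : Fin m, τ ^ ((j : ℕ) + 1) • v j ≠ 0 := by
  by_contra hc
  push Not at hc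
  refine hv (funext fun j => ?_)
  by_contra hj
  obtain ⟨f, -, hf'⟩ := exists_dual_vector ℝ (v j) (norm_ne_zero_iff.2 hj)
  have hf : f (v j) ≠ 0 := by rw [hf']; exact_mod_cast norm_ne_zero_iff.2 hj
  let s : Fin m → ℝ := fun i => ((i : ℕ) + 1 : ℝ)⁻¹
  have hs : Function.Injective s := fun a b h => by
    ext
    have h' := inv_injective h
    exact_mod_cast (by linarith : ((a : ℕ) : ℝ) = (b : ℕ))
  have hz : (fun k => f (v k)) = 0 := by
    refine Matrix.eq_zero_of_forall_index_sum_mul_pow_eq_zero hs fun i => ?_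
    have h0 : 0 < s i := by positivity
    have h1 : s i ≤ 1 := inv_le_one_of_one_le₀ (by simp)
    have h := congrArg f (hc (s i) h0.le h1)
    simp only [map_sum, map_smul, map_zero, smul_eq_mul] at h
    have h' : s i * ∑ k : Fin m, f (v k) * s i ^ (k : ℕ) = 0 := by
      rw [mul_sum, ← h]
      exact sum_congr rfl fun k _ => by ring
    exact (mul_eq_zero.1 h').resolve_left h0.ne'
  exact hf (congrFun hz j)

/-- **Polynomial drift.** -/
theorem exists_fixed_near [ProperSpace V] {m : ℕ} {φ : ℝ → V → V} (A : Fin m → V →L[ℝ] V)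
    (hφ : ∀ t x, φ t x = x + ∑ j : Fin m, t ^ ((j : ℕ) + 1) • A j x)
    (hadd : ∀ s t x, φ s (φ t x) = φ (s + t) x) {C : Set V} (hC : IsClosed C)
    (hinv : ∀ t, ∀ x ∈ C, φ t x ∈ C) {x₀ : V} (h₀ : ∀ t, φ t x₀ = x₀)
    (hacc : x₀ ∈ closure (C \ {x₀})) {η : ℝ} (hη : 0 < η) :
    ∃ x ∈ C, x ≠ x₀ ∧ dist x x₀ < η ∧ ∀ t, φ t x = x := by
  obtain ⟨x, hxC, hx⟩ := mem_closure_iff_seq_limit.1 hacc
  by_contra hcon
  push Not at hcon
  have hev : ∀ᶠ n in atTop, dist (x n) x₀ < η := Metric.tendsto_nhds.1 hx η hη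
  obtain ⟨n₀, hn₀⟩ := eventually_atTop.1 hev
  let y : ℕ → V := fun n => x (n + n₀) - x₀
  have hy : Tendsto y atTop (𝓝 0) := by
    have h := ((tendsto_add_atTop_iff_nat n₀).2 hx).sub_const x₀
    simpa [y] using h
  have hφy : ∀ t n, φ t (x (n + n₀)) = x₀ + y n + ∑ j : Fin m, t ^ ((j : ℕ) + 1) • A j (y n) := by
    intro t n
    have h1 := hφ t (x₀ + y n)
    have h2 := hφ t x₀
    rw [h₀] at h2
    have hz : ∑ j : Fin m, t ^ ((j : ℕ) + 1) • A j x₀ = 0 := by simpa using h2
    rw [show x (n + n₀) = x₀ + y n by simp [y]]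
    simp only [map_add, smul_add, sum_add_distrib, hz, zero_add] at h1
    exact h1
  obtain ⟨δ, hδ, hδη⟩ : ∃ δ, 0 < δ ∧ δ < η := ⟨η / 2, by linarith, by linarith⟩
  let G : ℕ → ℝ → ℝ := fun n T => ∑ j : Fin m, T ^ ((j : ℕ) + 1) * ‖A j (y n)‖
  have hnz : ∀ n, ∃ j, A j (y n) ≠ 0 := by
    intro n
    by_contra h
    push Not at h
    obtain ⟨t, ht⟩ :=
      hcon _ (hxC (n + n₀)).1 (hxC (n + n₀)).2 (hn₀ _ (Nat.le_add_left _ _))
    refine ht ?_
    rw [hφy]
    simp [h, y]
  have hT : ∀ n, ∃ T, 0 ≤ T ∧ G n T = δ := by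
    intro n
    obtain ⟨j, hj⟩ := hnz n
    have hpos : 0 < ‖A j (y n)‖ := norm_pos_iff.2 hj
    let B := max 1 (δ / ‖A j (y n)‖)
    have hB : δ ≤ G n B := by
      refine le_trans ?_ (single_le_sum (fun i _ => by positivity) (mem_univ j))
      rw [← div_le_iff₀ hpos]
      exact (le_max_right _ _).trans (le_self_pow₀ (le_max_left _ _) (Nat.succ_ne_zero _))
    have hG0 : G n 0 = 0 := by simp [G]
    obtain ⟨T, hT, hTe⟩ := intermediate_value_Icc (show (0 : ℝ) ≤ B by positivity)
      (show Continuous (G n) by fun_prop).continuousOn (show δ ∈ Set.Icc (G n 0) (G n B) from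
        ⟨hG0.trans_le hδ.le, hB⟩)
    exact ⟨T, hT.1, hTe⟩
  choose T hT0 hTe using hT
  have hTtop : Tendsto T atTop atTop := by
    refine tendsto_atTop.2 fun R => ?_
    have h : Tendsto (fun n => ∑ j : Fin m, max R 0 ^ ((j : ℕ) + 1) * ‖A j (y n)‖) atTop
        (𝓝 0) := by
      have := (show Continuous fun v => ∑ j : Fin m, max R 0 ^ ((j : ℕ) + 1) * ‖A j v‖ by
        fun_prop).tendsto' (0 : V) 0 (by simp)
      exact this.comp hy
    filter_upwards [h.eventually (eventually_lt_nhds hδ)] with n hn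
    by_contra hlt
    push Not at hlt
    have hle : G n (T n) ≤ G n (max R 0) := sum_le_sum fun j _ =>
      mul_le_mul_of_nonneg_right
        (pow_le_pow_left₀ (hT0 n) (hlt.le.trans (le_max_left _ _)) _) (norm_nonneg _)
    rw [hTe] at hle
    exact absurd (lt_of_le_of_lt hle hn) (lt_irrefl _)
  let v : ℕ → Fin m → V := fun n j => T n ^ ((j : ℕ) + 1) • A j (y n)
  have hsum : ∀ n, ∑ j, ‖v n j‖ = δ := fun n => by
    rw [← hTe n]
    exact sum_congr rfl fun j _ => by
      rw [norm_smul, Real.norm_eq_abs, abs_of_nonneg (pow_nonneg (hT0 n) _)]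
  have hball : ∀ n, v n ∈ Metric.closedBall (0 : Fin m → V) δ := fun n => by
    rw [mem_closedBall_zero_iff, pi_norm_le_iff_of_nonneg hδ.le]
    exact fun j => hsum n ▸ single_le_sum (fun i _ => norm_nonneg (v n i)) (mem_univ j)
  obtain ⟨w, -, σ, hσ, hlim⟩ := tendsto_subseq_of_bounded Metric.isBounded_closedBall hball
  have hwsum : ∑ j, ‖w j‖ = δ := by
    have h : Tendsto (fun n => ∑ j, ‖v (σ n) j‖) atTop (𝓝 (∑ j, ‖w j‖)) :=
      tendsto_finsetSum _ fun j _ => (tendsto_pi_nhds.1 hlim j).norm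
    simp only [hsum] at h
    exact tendsto_nhds_unique h tendsto_const_nhds
  have hw : w ≠ 0 := by
    intro h
    rw [h] at hwsum
    simp at hwsum
    linarith
  obtain ⟨τ, hτ0, hτ1, hP⟩ := exists_polynomial_ne_zero hw
  have hkey : ∀ h : ℝ, Tendsto (fun n => φ (T (σ n) * τ + h) (x (σ n + n₀))) atTop
      (𝓝 (x₀ + ∑ j : Fin m, τ ^ ((j : ℕ) + 1) • w j)) := by
    intro h
    have hτ' : Tendsto (fun n => τ + h / T (σ n)) atTop (𝓝 τ) := by
      simpa using ((hTtop.comp hσ.tendsto_atTop).const_div_atTop h).const_add τ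
    have h1 : Tendsto (fun n => x₀ + y (σ n) + ∑ j : Fin m,
        (τ + h / T (σ n)) ^ ((j : ℕ) + 1) • v (σ n) j) atTop
        (𝓝 (x₀ + ∑ j : Fin m, τ ^ ((j : ℕ) + 1) • w j)) := by
      refine Tendsto.add ?_ (tendsto_finsetSum _ fun j _ =>
        (hτ'.pow _).smul (tendsto_pi_nhds.1 hlim j))
      simpa using (hy.comp hσ.tendsto_atTop).const_add x₀
    refine h1.congr' ?_
    filter_upwards [(hTtop.comp hσ.tendsto_atTop).eventually (eventually_gt_atTop 0)] with n hn
    rw [hφy]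
    refine congrArg _ (sum_congr rfl fun j _ => ?_)
    rw [show v (σ n) j = T (σ n) ^ ((j : ℕ) + 1) • A j (y (σ n)) from rfl, smul_smul, ← mul_pow]
    congr 2
    simp only [Function.comp_apply] at hn
    field_simp
  have hmem : x₀ + ∑ j : Fin m, τ ^ ((j : ℕ) + 1) • w j ∈ C :=
    hC.mem_of_tendsto (hkey 0) (Eventually.of_forall fun n => hinv _ _ (hxC _).1)
  obtain ⟨t, ht⟩ := hcon _ hmem (fun h => hP (add_eq_left.1 h)) (by
    rw [dist_eq_norm, add_sub_cancel_left]
    refine lt_of_le_of_lt ((norm_sum_le _ _).trans ?_) hδη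
    refine le_trans (sum_le_sum fun j _ => ?_) hwsum.le
    rw [norm_smul, Real.norm_eq_abs, abs_of_nonneg (pow_nonneg hτ0 _)]
    exact mul_le_of_le_one_left (norm_nonneg _) (pow_le_one₀ hτ0 hτ1))
  have hcont : Continuous (φ t) := by
    rw [show φ t = fun x => x + ∑ j : Fin m, t ^ ((j : ℕ) + 1) • A j x from funext (hφ t)]
    fun_prop
  refine ht (tendsto_nhds_unique ((hcont.tendsto _).comp (hkey 0)) ((hkey t).congr fun n => ?_))
  rw [Function.comp_apply, hadd, add_zero, add_comm]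

end FA.Oppenheim
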