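import Fermat.Agent.Oppenheim.Drift
import Fermat.Agent.Oppenheim.Basic
import Mathlib.Analysis.Matrix.Normed
import Mathlib.Analysis.Normed.Module.FiniteDimension

/-!
# The drift of forms under the unipotent group

`U` acts on forms, and on pairs of a form and a vector, by polynomials of degree at most four; its
fixed points of determinant one are `transForm s`, paired with `c • e₀`. So a set of matrices
invariant on the right under `U` that accumulates at `1` transversally to the automorphs (resp. to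
`U`) comes arbitrarily close to `1` with forms (resp. pairs) of this shape.
-/

set_option autoImplicit false

noncomputable section

namespace FA.Oppenheim

open Matrix Filter Finset
open scoped Topology Matrix.Norms.Elementwise

/-- The generator of `U`. -/
def nilGen : Mat := !![0, 1, 0; 0, 0, 1; 0, 0, 0]

/-- The coefficients of the action of `U` on forms. -/
def formCoeff : Fin 4 → Mat →L[ℝ] Mat := fun j => LinearMap.toContinuousLinearMap
  (![LinearMap.mulLeft ℝ nilGenᵀ + LinearMap.mulRight ℝ nilGen,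
    (2 : ℝ)⁻¹ • LinearMap.mulLeft ℝ (nilGenᵀ * nilGenᵀ) +
      LinearMap.mulLeft ℝ nilGenᵀ ∘ₗ LinearMap.mulRight ℝ nilGen +
      (2 : ℝ)⁻¹ • LinearMap.mulRight ℝ (nilGen * nilGen),
    (2 : ℝ)⁻¹ • (LinearMap.mulLeft ℝ (nilGenᵀ * nilGenᵀ) ∘ₗ LinearMap.mulRight ℝ nilGen +
      LinearMap.mulLeft ℝ nilGenᵀ ∘ₗ LinearMap.mulRight ℝ (nilGen * nilGen)),
    (4 : ℝ)⁻¹ • (LinearMap.mulLeft ℝ (nilGenᵀ * nilGenᵀ) ∘ₗ
      LinearMap.mulRight ℝ (nilGen * nilGen))] j)

/-- The coefficients of the action of `U` on vectors. -/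
def vecCoeff : Fin 4 → (Fin 3 → ℝ) →L[ℝ] (Fin 3 → ℝ) := fun j => LinearMap.toContinuousLinearMap
  (![-(Matrix.toLin' nilGen), (2 : ℝ)⁻¹ • Matrix.toLin' (nilGen * nilGen), 0, 0] j)

theorem nilGen_cube : nilGen * nilGen * nilGen = 0 := by
  ext i j; fin_cases i <;> fin_cases j <;> simp [nilGen, Matrix.mul_apply, Fin.sum_univ_three]

theorem unip_eq (t : ℝ) : unip t = 1 + t • nilGen + (t ^ 2 / 2) • (nilGen * nilGen) := by
  ext i j; fin_cases i <;> fin_cases j <;> simp [unip, nilGen]

theorem form_action (t : ℝ) (q : Mat) :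
    (unip t)ᵀ * q * unip t = q + ∑ j : Fin 4, t ^ ((j : ℕ) + 1) • formCoeff j q := by
  simp only [Fin.sum_univ_four, formCoeff, LinearMap.coe_toContinuousLinearMap', unip_eq,
    transpose_add, transpose_one, transpose_smul, transpose_mul, Matrix.cons_val_zero,
    Matrix.cons_val_one, Matrix.cons_val, LinearMap.add_apply, LinearMap.smul_apply,
    LinearMap.comp_apply, LinearMap.mulLeft_apply, LinearMap.mulRight_apply, Fin.val_zero,
    Fin.val_one, Fin.val_two]
  simp only [Matrix.add_mul, Matrix.mul_add, Matrix.smul_mul, Matrix.mul_smul, Matrix.one_mul,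
    Matrix.mul_one, Matrix.mul_assoc, smul_add, smul_smul]
  norm_num
  module

theorem vec_action (t : ℝ) (x : Fin 3 → ℝ) :
    unip (-t) *ᵥ x = x + ∑ j : Fin 4, t ^ ((j : ℕ) + 1) • vecCoeff j x := by
  simp only [Fin.sum_univ_four, vecCoeff, LinearMap.coe_toContinuousLinearMap', unip_eq,
    Matrix.cons_val_zero, Matrix.cons_val_one, Matrix.cons_val, LinearMap.neg_apply,
    LinearMap.smul_apply, LinearMap.zero_apply, Matrix.toLin'_apply, Fin.val_zero, Fin.val_one]
  simp only [Matrix.add_mulVec, Matrix.smul_mulVec, Matrix.one_mulVec, smul_smul, smul_zero,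
    add_zero]
  module

/-- The forms of determinant one fixed by `U`. -/
theorem fixed_form {q : Mat} (hs : qᵀ = q) (hd : q.det = 1)
    (hf : ∀ t, (unip t)ᵀ * q * unip t = q) : q = transForm (q 2 2 / 2) := by
  have e : ∀ i j, q j i = q i j := fun i j => congrFun (congrFun hs i) j
  have E := fun t i j => congrFun (congrFun (hf t) i) j
  have h01 := E 1 0 1
  have h11 := E 1 1 1
  have h12 := E 1 1 2
  have h22 := E 1 2 2
  have h22' := E (-1) 2 2
  simp [unip, Matrix.mul_apply, Fin.sum_univ_three, e 0 1, e 0 2, e 1 2]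
    at h01 h11 h12 h22 h22'
  have q00 : q 0 0 = 0 := by linarith
  have q01 : q 0 1 = 0 := by linarith
  have q11 : q 1 1 = -q 0 2 := by rw [q00, q01] at h12; linarith
  have q12 : q 1 2 = 0 := by linarith
  rw [Matrix.det_fin_three, q00, q01, e 0 1, q01, e 0 2, e 1 2, q12, q11] at hd
  have h3 : q 0 2 ^ 3 = 1 := by linarith
  have q02 : q 0 2 = 1 := by
    nlinarith [sq_nonneg (q 0 2 - 1), sq_nonneg (q 0 2 + 1), sq_nonneg (q 0 2)]
  rw [q02] at q11
  ext i j
  fin_cases i <;> fin_cases j <;>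
    simp [transForm, q00, q01, q02, q11, q12, e 0 1, e 0 2, e 1 2]
  all_goals ring

/-- The vectors fixed by `U`. -/
theorem fixed_vec {x : Fin 3 → ℝ} (hf : ∀ t, unip (-t) *ᵥ x = x) : x = ![x 0, 0, 0] := by
  have h1 := congrFun (hf 1) 1
  have h0 := congrFun (hf 1) 0
  simp [unip, mulVec, dotProduct, Fin.sum_univ_three] at h1 h0
  have x2 : x 2 = 0 := by linarith
  rw [x2] at h0
  ext i
  fin_cases i <;> simp [x2]
  linarith

theorem transpose_pull (a : Mat) : (pull a)ᵀ = pull a := by
  have hJ : stdFormᵀ = stdForm := by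
    ext i j; fin_cases i <;> fin_cases j <;> simp [stdForm]
  simp only [pull, transpose_mul, transpose_transpose, hJ, Matrix.mul_assoc]

theorem det_pull {a : Mat} (ha : |a.det| = 1) : (pull a).det = 1 := by
  rw [pull, det_mul, det_mul, det_transpose, det_stdForm, mul_one]
  nlinarith [sq_abs a.det, ha]

theorem tendsto_pull_one {a : ℕ → Mat} (ha : Tendsto a atTop (𝓝 1)) :
    Tendsto (fun n => pull (a n)) atTop (𝓝 stdForm) := by
  have h := (continuous_pull.tendsto (1 : Mat)).comp ha
  rwa [pull_one] at h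

/-- **Drift transversal to the automorphs.** -/
theorem exists_transForm_near {M : Set Mat} (hdet : ∀ a ∈ M, |a.det| = 1)
    (hU : ∀ a ∈ M, ∀ t, a * unip t ∈ M) {a : ℕ → Mat} (ha : ∀ n, a n ∈ M)
    (hne : ∀ n, ¬IsAutomorph (a n)) (hlim : Tendsto a atTop (𝓝 1)) {η : ℝ} (hη : 0 < η) :
    ∃ s : ℝ, s ≠ 0 ∧ |s| < η ∧ transForm s ∈ closure (pull '' M) := by
  obtain ⟨q, hq, hqne, hdist, hfix⟩ := exists_fixed_near (V := Mat)
    (φ := fun t q => (unip t)ᵀ * q * unip t) formCoeff form_action
    (fun s t q => by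
      rw [add_comm s t, ← unip_mul, transpose_mul]
      simp only [Matrix.mul_assoc]) (C := closure (pull '' M)) isClosed_closure
    (fun t q hq => map_mem_closure (f := fun q => (unip t)ᵀ * q * unip t) (by fun_prop) hq (by
      rintro _ ⟨b, hb, rfl⟩
      exact ⟨b * unip t, hU b hb t, pull_mul _ _⟩))
    (x₀ := stdForm) (fun t => pull_unip t)
    (mem_closure_of_tendsto (tendsto_pull_one hlim)
      (Eventually.of_forall fun n => ⟨subset_closure ⟨_, ha n, rfl⟩, hne n⟩)) (η := η) hη
  have hs : qᵀ = q := by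
    refine closure_minimal ?_ (isClosed_eq continuous_id.matrix_transpose continuous_id) hq
    rintro _ ⟨b, -, rfl⟩
    exact transpose_pull b
  have hd : q.det = 1 := by
    refine closure_minimal ?_ (isClosed_eq continuous_id.matrix_det continuous_const) hq
    rintro _ ⟨b, hb, rfl⟩
    exact det_pull (hdet b hb)
  have hqs := fixed_form hs hd hfix
  refine ⟨q 2 2 / 2, fun h => hqne ?_, ?_, hqs ▸ hq⟩
  · rw [hqs, h]
    ext i j; fin_cases i <;> fin_cases j <;> simp [transForm, stdForm]
  · have h1 := (norm_entry_le_entrywise_sup_norm (q - stdForm) (i := 2) (j := 2)).trans_lt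
      (by rwa [← dist_eq_norm])
    simp [stdForm] at h1
    rw [abs_div]
    have := abs_nonneg (q 2 2)
    norm_num
    linarith

/-- **Drift transversal to `U`.** -/
theorem exists_pair_near {M : Set Mat} (hdet : ∀ a ∈ M, |a.det| = 1)
    (hU : ∀ a ∈ M, ∀ t, a * unip t ∈ M) {a : ℕ → Mat} (ha : ∀ n, a n ∈ M)
    (hne : ∀ n, pull (a n) ≠ stdForm ∨ (a n)⁻¹ *ᵥ stdVec ≠ stdVec)
    (hlim : Tendsto a atTop (𝓝 1)) {η : ℝ} (hη : 0 < η) :
    ∃ s c : ℝ, (s ≠ 0 ∨ c ≠ 1) ∧ |s| < η ∧ |c - 1| < η ∧
      (transForm s, ![c, 0, 0]) ∈ closure ((fun b => (pull b, b⁻¹ *ᵥ stdVec)) '' M) := by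
  have hinv : Tendsto (fun n => (a n)⁻¹ *ᵥ stdVec) atTop (𝓝 stdVec) := by
    have h := ((continuousAt_matrix_inv (1 : Mat) (by
      rw [Ring.inverse_eq_inv']; exact continuousAt_inv₀ (by simp))).tendsto.comp hlim)
    rw [inv_one] at h
    have h2 := ((show Continuous fun b : Mat => b *ᵥ stdVec by fun_prop).tendsto (1 : Mat)).comp h
    rwa [one_mulVec] at h2
  obtain ⟨⟨q, x⟩, hq, hqne, hdist, hfix⟩ := exists_fixed_near (V := Mat × (Fin 3 → ℝ))
    (φ := fun t p => ((unip t)ᵀ * p.1 * unip t, unip (-t) *ᵥ p.2))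
    (fun j => (formCoeff j).prodMap (vecCoeff j))
    (fun t p => by
      ext1 <;> simp [Prod.fst_sum, Prod.snd_sum, form_action, vec_action] <;> rfl)
    (fun s t p => by
      refine Prod.ext ?_ ?_
      · simp only []
        rw [add_comm s t, ← unip_mul, transpose_mul]
        simp only [Matrix.mul_assoc]
      · simp only []
        rw [mulVec_mulVec, unip_mul, neg_add])
    (C := closure ((fun b => (pull b, b⁻¹ *ᵥ stdVec)) '' M)) isClosed_closure
    (fun t p hp => map_mem_closure
      (f := fun p : Mat × (Fin 3 → ℝ) => ((unip t)ᵀ * p.1 * unip t, unip (-t) *ᵥ p.2))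
      (by fun_prop) hp (by
      rintro _ ⟨b, hb, rfl⟩
      refine ⟨b * unip t, hU b hb t, Prod.ext (pull_mul _ _) ?_⟩
      have hi : (unip t)⁻¹ = unip (-t) :=
        Matrix.inv_eq_left_inv (by rw [unip_mul, neg_add_cancel, unip_zero])
      simp only []
      rw [Matrix.mul_inv_rev, hi, mulVec_mulVec]))
    (x₀ := (stdForm, stdVec)) (fun t => Prod.ext (pull_unip t) (by
      ext i; fin_cases i <;> simp [unip, stdVec, mulVec, dotProduct, Fin.sum_univ_three]))
    (mem_closure_of_tendsto ((tendsto_pull_one hlim).prodMk_nhds hinv)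
      (Eventually.of_forall fun n => ⟨subset_closure ⟨_, ha n, rfl⟩, fun h => by
        have h' := Prod.ext_iff.1 (Set.mem_singleton_iff.1 h)
        exact (hne n).elim (fun h1 => h1 h'.1) fun h2 => h2 h'.2⟩)) (η := η) hη
  have hs : qᵀ = q := by
    refine closure_minimal (t := {p : Mat × (Fin 3 → ℝ) | p.1ᵀ = p.1}) ?_
      (isClosed_eq continuous_fst.matrix_transpose continuous_fst) hq
    rintro _ ⟨b, -, rfl⟩
    exact transpose_pull b
  have hd : q.det = 1 := by
    refine closure_minimal (t := {p : Mat × (Fin 3 → ℝ) | p.1.det = 1}) ?_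
      (isClosed_eq continuous_fst.matrix_det continuous_const) hq
    rintro _ ⟨b, hb, rfl⟩
    exact det_pull (hdet b hb)
  have hqs := fixed_form hs hd fun t => (Prod.ext_iff.1 (hfix t)).1
  have hxs : x = ![x 0, 0, 0] := fixed_vec fun t => (Prod.ext_iff.1 (hfix t)).2
  rw [dist_eq_norm, Prod.mk_sub_mk, Prod.norm_mk, max_lt_iff] at hdist
  refine ⟨q 2 2 / 2, x 0, ?_, ?_, ?_, hxs ▸ hqs ▸ hq⟩
  · by_contra hc
    push Not at hc
    refine hqne (Prod.ext ?_ ?_)
    · show q = stdForm
      rw [hqs, hc.1]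
      ext i j; fin_cases i <;> fin_cases j <;> simp [transForm, stdForm]
    · show x = stdVec
      rw [hxs, hc.2]
      rfl
  · have h1 := (norm_entry_le_entrywise_sup_norm (q - stdForm) (i := 2) (j := 2)).trans_lt hdist.1
    simp [stdForm] at h1
    rw [abs_div]
    have := abs_nonneg (q 2 2)
    norm_num
    linarith
  · have h1 := (norm_le_pi_norm (x - stdVec) 0).trans_lt hdist.2
    simpa [stdVec] using h1

end FA.Oppenheim
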