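import Fermat.Agent.Oppenheim.Basic
import Fermat.Agent.OrthogonalUnits.Generators
import Fermat.Agent.Root.SummaryOrthogonalUnits
import Mathlib.Order.Zorn
import Mathlib.Topology.Sequences

/-!
# Sets of lattices on which the form stays away from zero

A lattice is a matrix of determinant `±1` up to right multiplication by `GL 3 ℤ`; a set of lattices
is a right invariant set of matrices. Those on which `|2 x₀ x₂ - x₁ ^ 2| ≥ ε` at every nonzero
vector form a closed set, compact modulo `GL 3 ℤ` (Mahler), so its closed invariant subsets have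
minimal ones, and a minimal `U`-invariant one is never a single orbit of `U`.
-/

set_option autoImplicit false

noncomputable section

namespace FA.Oppenheim

open Matrix Filter Finset
open scoped Topology

/-- The value of `2 x₀ x₂ - x₁ ^ 2` at a vector. -/
def formVal (x : Fin 3 → ℝ) : ℝ := 2 * x 0 * x 2 - x 1 ^ 2

/-- The real matrix of an integral one. -/
abbrev intMat (U : GL (Fin 3) ℤ) : Mat := OrthogonalUnits.rep U

/-- The lattices on which the form is at least `ε` in absolute value. -/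
def Avoiding (ε : ℝ) : Set Mat :=
  {g | |g.det| = 1 ∧ ∀ v : Fin 3 → ℤ, v ≠ 0 → ε ≤ |formVal (g *ᵥ fun k => (v k : ℝ))|}

/-- A closed set of lattices invariant under the left action of `P`. -/
structure IsInvariant (P : Set Mat) (S : Set Mat) : Prop where
  isClosed : IsClosed S
  right : ∀ g ∈ S, ∀ U : GL (Fin 3) ℤ, g * intMat U ∈ S
  left : ∀ a ∈ P, ∀ g ∈ S, a * g ∈ S

theorem continuous_formVal : Continuous formVal := by
  unfold formVal; fun_prop

theorem formVal_eq_pull (a : Mat) (x : Fin 3 → ℝ) : formVal (a *ᵥ x) = x ⬝ᵥ (pull a *ᵥ x) := by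
  rw [pull, Matrix.mul_assoc, ← mulVec_mulVec, dotProduct_mulVec, ← mulVec_transpose,
    transpose_transpose, ← mulVec_mulVec]
  generalize a *ᵥ x = y
  simp [formVal, stdForm, dotProduct, mulVec, Fin.sum_univ_three]
  ring

theorem formVal_automorph {h : Mat} (hh : IsAutomorph h) (x : Fin 3 → ℝ) :
    formVal (h *ᵥ x) = formVal x := by
  rw [formVal_eq_pull, hh]
  conv_rhs => rw [← one_mulVec x, formVal_eq_pull, pull_one]

theorem intMat_inv_mul (U : GL (Fin 3) ℤ) : intMat U⁻¹ * intMat U = 1 := by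
  rw [intMat, intMat, ← OrthogonalUnits.rep_mul, inv_mul_cancel, OrthogonalUnits.rep_one]

theorem intMat_mul_inv (U : GL (Fin 3) ℤ) : intMat U * intMat U⁻¹ = 1 := by
  rw [intMat, intMat, ← OrthogonalUnits.rep_mul, mul_inv_cancel, OrthogonalUnits.rep_one]

theorem abs_det_intMat (U : GL (Fin 3) ℤ) : |(intMat U).det| = 1 :=
  OrthogonalUnits.abs_det_toReal ((Matrix.isUnit_iff_isUnit_det _).1 U.isUnit)

theorem isInvariant_avoiding (ε : ℝ) : IsInvariant {h | IsAutomorph h} (Avoiding ε) where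
  isClosed := by
    have h1 : IsClosed {g : Mat | |g.det| = 1} :=
      isClosed_eq continuous_id.matrix_det.abs continuous_const
    have h2 : IsClosed {g : Mat | ∀ v : Fin 3 → ℤ, v ≠ 0 →
        ε ≤ |formVal (g *ᵥ fun k => (v k : ℝ))|} := by
      simp only [Set.ofPred_forall]
      exact isClosed_iInter fun v => isClosed_iInter fun _ =>
        isClosed_le continuous_const (continuous_formVal.comp (by fun_prop)).abs
    exact h1.inter h2
  right g hg U := by
    refine ⟨by rw [det_mul, abs_mul, hg.1, abs_det_intMat, mul_one], fun v hv => ?_⟩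
    have hw : (U : Matrix (Fin 3) (Fin 3) ℤ) *ᵥ v ≠ 0 := fun h => hv (by
      rw [← Matrix.one_mulVec v, ← show ((U⁻¹ : GL (Fin 3) ℤ) : Matrix (Fin 3) (Fin 3) ℤ) *
        (U : Matrix (Fin 3) (Fin 3) ℤ) = 1 by simp, ← mulVec_mulVec, h, mulVec_zero])
    have h := hg.2 _ hw
    rwa [OrthogonalUnits.toReal_mulVec, mulVec_mulVec] at h
  left a ha g hg := by
    refine ⟨by rw [det_mul, abs_mul, ha.abs_det, hg.1, one_mul], fun v hv => ?_⟩
    rw [← mulVec_mulVec, formVal_automorph ha]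
    exact hg.2 v hv

theorem isUnit_det_of_abs {g : Mat} (hg : |g.det| = 1) : IsUnit g.det :=
  isUnit_iff_ne_zero.2 fun h => by simp [h] at hg

/-- **Mahler's criterion.** -/
theorem exists_compact_avoiding {ε : ℝ} (hε : 0 < ε) : ∃ K : Set Mat, IsCompact K ∧
    ∀ g ∈ Avoiding ε, ∃ U : GL (Fin 3) ℤ, g * intMat U ∈ K := by
  obtain ⟨K, hK, -, h⟩ := FA.Summary.mahler_compactness 3 hε
  refine ⟨K, hK, fun g hg => h g hg.1 fun v hv => (hg.2 v hv).trans ?_⟩
  generalize g *ᵥ (fun k => (v k : ℝ)) = x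
  rw [Fin.sum_univ_three, formVal, abs_le]
  constructor <;> nlinarith [sq_nonneg (x 0 + x 2), sq_nonneg (x 0 - x 2), sq_nonneg (x 1)]

/-- **Compactness modulo `GL 3 ℤ`.** -/
theorem exists_subseq_lattice {ε : ℝ} (hε : 0 < ε) {P S : Set Mat} (hS : IsInvariant P S)
    (hSε : S ⊆ Avoiding ε) {g : ℕ → Mat} (hg : ∀ n, g n ∈ S) :
    ∃ σ : ℕ → ℕ, StrictMono σ ∧ ∃ (U : ℕ → GL (Fin 3) ℤ) (k : Mat), k ∈ S ∧
      Tendsto (fun n => g (σ n) * intMat (U n)) atTop (𝓝 k) := by
  obtain ⟨K, hK, h⟩ := exists_compact_avoiding hε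
  choose U hU using fun n => h (g n) (hSε (hg n))
  obtain ⟨k, -, σ, hσ, hlim⟩ := hK.tendsto_subseq hU
  exact ⟨σ, hσ, fun n => U (σ n), k,
    hS.isClosed.mem_of_tendsto hlim (Eventually.of_forall fun n => hS.right _ (hg _) _), hlim⟩

/-- The lattices `g` of `Y` with `a g ∈ S` persist in the limit. -/
theorem exists_mem_limit {ε : ℝ} (hε : 0 < ε) {P Q Y S : Set Mat} (hY : IsInvariant P Y)
    (hYε : Y ⊆ Avoiding ε) (hS : IsInvariant Q S) {a : ℕ → Mat} {b : Mat}
    (hab : Tendsto a atTop (𝓝 b)) (h : ∀ n, ∃ g ∈ Y, a n * g ∈ S) : ∃ g ∈ Y, b * g ∈ S := by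
  choose g hgY hgS using h
  obtain ⟨σ, hσ, U, k, hk, hlim⟩ := exists_subseq_lattice hε hY hYε hgY
  refine ⟨k, hk, hS.isClosed.mem_of_tendsto ((hab.comp hσ.tendsto_atTop).mul hlim)
    (Eventually.of_forall fun n => ?_)⟩
  rw [Function.comp_apply, ← Matrix.mul_assoc]
  exact hS.right _ (hgS _) _

/-- **Minimal invariant sets.** -/
theorem exists_minimal_invariant {ε : ℝ} (hε : 0 < ε) {P S : Set Mat} (hS : IsInvariant P S)
    (hSε : S ⊆ Avoiding ε) (hne : S.Nonempty) :
    ∃ Y ⊆ S, IsInvariant P Y ∧ Y.Nonempty ∧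
      ∀ Y' ⊆ Y, IsInvariant P Y' → Y'.Nonempty → Y' = Y := by
  obtain ⟨K, hK, hmeet⟩ := exists_compact_avoiding hε
  obtain ⟨Y, hYS, hY⟩ := zorn_superset_nonempty {T | IsInvariant P T ∧ T.Nonempty ∧ T ⊆ S} (by
    intro c hc hchain hcne
    refine ⟨⋂₀ c, ⟨⟨isClosed_sInter fun T hT => (hc hT).1.isClosed,
      fun g hg U T hT => (hc hT).1.right g (hg T hT) U,
      fun a ha g hg T hT => (hc hT).1.left a ha g (hg T hT)⟩, ?_, ?_⟩,
      fun T hT => Set.sInter_subset_of_mem hT⟩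
    · have : Nonempty ((· ∩ K) '' c) := (hcne.image _).to_subtype
      obtain ⟨g, hg⟩ := IsCompact.nonempty_sInter_of_directed_nonempty_isCompact_isClosed
        (S := (· ∩ K) '' c) (by
          rintro _ ⟨A, hA, rfl⟩ _ ⟨B, hB, rfl⟩
          rcases hchain.total hA hB with h | h
          · exact ⟨_, ⟨A, hA, rfl⟩, subset_rfl, Set.inter_subset_inter_left _ h⟩
          · exact ⟨_, ⟨B, hB, rfl⟩, Set.inter_subset_inter_left _ h, subset_rfl⟩) (by
          rintro _ ⟨A, hA, rfl⟩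
          obtain ⟨g, hg⟩ := (hc hA).2.1
          obtain ⟨U, hU⟩ := hmeet g (hSε ((hc hA).2.2 hg))
          exact ⟨_, (hc hA).1.right g hg U, hU⟩) (by
          rintro _ ⟨A, hA, rfl⟩
          exact hK.inter_left (hc hA).1.isClosed) (by
          rintro _ ⟨A, hA, rfl⟩
          exact (hc hA).1.isClosed.inter hK.isClosed)
      exact ⟨g, fun T hT => (hg (T ∩ K) ⟨T, hT, rfl⟩).1⟩
    · obtain ⟨T, hT⟩ := hcne
      exact (Set.sInter_subset_of_mem hT).trans (hc hT).2.2) S ⟨hS, hne, subset_rfl⟩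
  exact ⟨Y, hYS, hY.prop.1, hY.prop.2.1, fun Y' h h1 h2 =>
    subset_antisymm h (hY.2 ⟨h1, h2, h.trans hY.prop.2.2⟩ h)⟩

/-- An integral matrix tending to `1` is eventually `1`. -/
theorem eventually_intMat_eq_one {U : ℕ → GL (Fin 3) ℤ}
    (h : Tendsto (fun n => intMat (U n)) atTop (𝓝 1)) : ∀ᶠ n in atTop, intMat (U n) = 1 := by
  have e : ∀ i j, ∀ᶠ n in atTop, intMat (U n) i j = (1 : Mat) i j := by
    intro i j
    filter_upwards [Metric.tendsto_nhds.1 (tendsto_pi_nhds.1 (tendsto_pi_nhds.1 h i) j) 1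
      one_pos] with n hn
    obtain ⟨z, hz⟩ : ∃ z : ℤ, intMat (U n) i j = z := ⟨_, rfl⟩
    obtain ⟨w, hw⟩ : ∃ w : ℤ, (1 : Mat) i j = w := by
      rw [Matrix.one_apply]; split_ifs
      · exact ⟨1, by simp⟩
      · exact ⟨0, by simp⟩
    rw [hz, hw, Real.dist_eq] at hn
    rw [hz, hw]
    have hn' : |z - w| < 1 := by exact_mod_cast hn
    rw [abs_lt] at hn'
    exact_mod_cast (show z = w by omega)
  filter_upwards [eventually_all.2 fun i => eventually_all.2 (e i)] with n hn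
  exact Matrix.ext hn

/-- No orbit of `U` is periodic in the lattices of `Avoiding ε`. -/
theorem unip_not_periodic {ε : ℝ} (hε : 0 < ε) {y : Mat} (hy : y ∈ Avoiding ε) {T : ℝ}
    (hT : T ≠ 0) (W : GL (Fin 3) ℤ) : unip T * y ≠ y * intMat W := by
  intro heq
  obtain ⟨l, hl⟩ : ∃ l : ℕ → ℝ, l = fun n : ℕ => ((n : ℝ) + 1)⁻¹ := ⟨_, rfl⟩
  have hl0 : ∀ n, l n ≠ 0 := fun n => by
    rw [hl]; exact inv_ne_zero (Nat.cast_add_one_ne_zero n)
  have hlim0 : Tendsto l atTop (𝓝 0) := by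
    rw [hl]; simpa [one_div] using tendsto_one_div_add_atTop_nhds_zero_nat (𝕜 := ℝ)
  obtain ⟨σ, hσ, U, k, hk, hlim⟩ := exists_subseq_lattice hε (isInvariant_avoiding ε) subset_rfl
    (g := fun n => dil (l n) * y)
    fun n => (isInvariant_avoiding ε).left _ (isAutomorph_dil (hl0 n)) y hy
  obtain ⟨G, hG⟩ : ∃ G : ℕ → Mat, G = fun n => dil (l (σ n)) * y * intMat (U n) := ⟨_, rfl⟩
  rw [← hG] at hlim
  obtain ⟨V, hV⟩ : ∃ V : ℕ → GL (Fin 3) ℤ, V = fun n => (U n)⁻¹ * W * U n := ⟨_, rfl⟩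
  have hconj : ∀ n, unip (l (σ n) * T) * G n = G n * intMat (V n) := fun n => by
    rw [hG, hV]
    simp only [intMat, OrthogonalUnits.rep_mul]
    calc unip (l (σ n) * T) * (dil (l (σ n)) * y * OrthogonalUnits.rep (U n))
        = unip (l (σ n) * T) * dil (l (σ n)) * y * OrthogonalUnits.rep (U n) := by
          simp only [Matrix.mul_assoc]
      _ = dil (l (σ n)) * (unip T * y) * OrthogonalUnits.rep (U n) := by
          rw [← dil_unip (hl0 _)]; simp only [Matrix.mul_assoc]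
      _ = dil (l (σ n)) * y * (intMat (U n) * intMat (U n)⁻¹) * intMat W *
            OrthogonalUnits.rep (U n) := by
          rw [heq, intMat_mul_inv, Matrix.mul_one]; simp only [Matrix.mul_assoc]
      _ = _ := by simp only [intMat, Matrix.mul_assoc]
  have hku : IsUnit k.det := isUnit_det_of_abs hk.1
  have hW : Tendsto (fun n => intMat (V n)) atTop (𝓝 1) := by
    have hinv : Tendsto (fun n => (G n)⁻¹) atTop (𝓝 k⁻¹) :=
      (continuousAt_matrix_inv k (by
        rw [Ring.inverse_eq_inv']; exact continuousAt_inv₀ hku.ne_zero)).tendsto.comp hlim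
    have hu : Tendsto (fun n => unip (l (σ n) * T)) atTop (𝓝 1) := by
      have h := (continuous_unip.tendsto (0 * T)).comp
        ((hlim0.comp hσ.tendsto_atTop).mul_const T)
      rwa [zero_mul, unip_zero] at h
    have h := hinv.mul (hu.mul hlim)
    rw [Matrix.one_mul, nonsing_inv_mul k hku] at h
    refine h.congr fun n => ?_
    have hGu : IsUnit (G n).det := by
      refine isUnit_det_of_abs ?_
      rw [hG, det_mul, det_mul, abs_mul, abs_mul, det_dil (hl0 _), abs_det_intMat, hy.1]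
      simp
    rw [hconj, ← Matrix.mul_assoc, nonsing_inv_mul _ hGu, Matrix.one_mul]
  obtain ⟨n, hn⟩ := (eventually_intMat_eq_one hW).exists
  have h := hconj n
  rw [hn, Matrix.mul_one] at h
  have hGu : IsUnit (G n).det := by
    refine isUnit_det_of_abs ?_
    rw [hG, det_mul, det_mul, abs_mul, abs_mul, det_dil (hl0 _), abs_det_intMat, hy.1]
    simp
  have h1 : unip (l (σ n) * T) = 1 := by
    have := congrArg (· * (G n)⁻¹) h
    simpa [Matrix.mul_assoc, mul_nonsing_inv _ hGu] using this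
  have h01 := congrFun (congrFun h1 0) 1
  simp [unip, hl0, hT] at h01

/-- **A minimal `U`-invariant set is not a single orbit.** -/
theorem exists_return {ε : ℝ} (hε : 0 < ε) {Y : Set Mat}
    (hY : IsInvariant (Set.range unip) Y) (hYε : Y ⊆ Avoiding ε)
    (hmin : ∀ Y' ⊆ Y, IsInvariant (Set.range unip) Y' → Y'.Nonempty → Y' = Y) {y : Mat}
    (hy : y ∈ Y) :
    ∃ a : ℕ → Mat, Tendsto a atTop (𝓝 1) ∧ ∀ n, a n * y ∈ Y ∧ a n ∉ Set.range unip := by
  by_contra hcon
  have hiso : ∀ᶠ a in 𝓝 (1 : Mat), a * y ∈ Y → a ∈ Set.range unip := by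
    by_contra h
    obtain ⟨a, ha, ha'⟩ := exists_seq_forall_of_frequently (not_eventually.1 h)
    exact hcon ⟨a, ha, fun n => Classical.not_imp.1 (ha' n)⟩
  obtain ⟨O, hO⟩ : ∃ O : Set Mat,
      O = {g | ∃ (t : ℝ) (U : GL (Fin 3) ℤ), g = unip t * y * intMat U} := ⟨_, rfl⟩
  have hyu : IsUnit y.det := isUnit_det_of_abs (hYε hy).1
  have hrec : ∀ z ∈ O, ∀ᶠ g in 𝓝 z, g ∈ Y → g ∈ O := by
    rw [hO]
    rintro z ⟨t, U, rfl⟩
    have hc : Tendsto (fun g : Mat => unip (-t) * g * intMat U⁻¹ * y⁻¹)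
        (𝓝 (unip t * y * intMat U)) (𝓝 1) := by
      have hcont : Continuous fun g : Mat => unip (-t) * g * intMat U⁻¹ * y⁻¹ := by fun_prop
      refine hcont.tendsto' _ _ ?_
      calc unip (-t) * (unip t * y * intMat U) * intMat U⁻¹ * y⁻¹
          = unip (-t) * unip t * y * (intMat U * intMat U⁻¹) * y⁻¹ := by
            simp only [Matrix.mul_assoc]
        _ = 1 := by
            rw [intMat_mul_inv, unip_mul, neg_add_cancel, unip_zero, Matrix.one_mul,
              Matrix.mul_one, mul_nonsing_inv y hyu]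
    filter_upwards [hc.eventually hiso] with g hg hgY
    have hmem : unip (-t) * g * intMat U⁻¹ * y⁻¹ * y = unip (-t) * g * intMat U⁻¹ := by
      rw [Matrix.mul_assoc _ y⁻¹, nonsing_inv_mul y hyu, Matrix.mul_one]
    obtain ⟨s, hs⟩ := hg (by
      rw [hmem]; exact hY.right _ (hY.left _ ⟨-t, rfl⟩ g hgY) _)
    refine ⟨t + s, U, ?_⟩
    rw [← unip_mul, hs, Matrix.mul_assoc (unip t), hmem]
    calc g = unip (t + -t) * g * (intMat U⁻¹ * intMat U) := by
          rw [add_neg_cancel, unip_zero, Matrix.one_mul, intMat_inv_mul, Matrix.mul_one]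
      _ = _ := by rw [← unip_mul]; simp only [Matrix.mul_assoc]
  have hOmul : ∀ g ∈ O, ∀ (t : ℝ) (U : GL (Fin 3) ℤ), unip t * g * intMat U ∈ O := by
    rw [hO]
    rintro g ⟨s, V, rfl⟩ t U
    exact ⟨t + s, V * U, by
      simp only [intMat, OrthogonalUnits.rep_mul, ← unip_mul, Matrix.mul_assoc]⟩
  have hempty : Y \ O = ∅ := by
    by_contra hne
    have hinv : IsInvariant (Set.range unip) (Y \ O) := by
      refine ⟨?_, fun g hg U => ⟨hY.right g hg.1 U, fun h => hg.2 ?_⟩, ?_⟩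
      · refine isClosed_iff_clusterPt.2 fun z hz => ?_
        refine ⟨(isClosed_iff_clusterPt.1 hY.isClosed) z
          (hz.mono (principal_mono.2 Set.sdiff_subset)),
          fun hzO => ?_⟩
        obtain ⟨g, hg, hgYO⟩ := clusterPt_principal_iff.1 hz _ (hrec z hzO)
        exact hgYO.2 (hg hgYO.1)
      · have := hOmul _ h 0 U⁻¹
        rwa [unip_zero, Matrix.one_mul, Matrix.mul_assoc, intMat_mul_inv, Matrix.mul_one] at this
      · rintro _ ⟨t, rfl⟩ g hg
        refine ⟨hY.left _ ⟨t, rfl⟩ g hg.1, fun h => hg.2 ?_⟩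
        have := hOmul _ h (-t) 1
        rwa [← Matrix.mul_assoc, unip_mul, neg_add_cancel, unip_zero, Matrix.one_mul, intMat,
          OrthogonalUnits.rep_one, Matrix.mul_one] at this
    have h := hmin _ Set.sdiff_subset hinv (Set.nonempty_iff_ne_empty.2 hne)
    have hyO : y ∈ O := hO ▸ ⟨0, 1, by simp [unip_zero, intMat, OrthogonalUnits.rep_one]⟩
    exact (h.symm ▸ hy : y ∈ Y \ O).2 hyO
  obtain ⟨σ, hσ, U, z, hz, hlim⟩ := exists_subseq_lattice hε hY hYε
    (g := fun n : ℕ => unip n * y) fun n => hY.left _ ⟨_, rfl⟩ y hy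
  obtain ⟨t, V, hzV⟩ : ∃ (t : ℝ) (V : GL (Fin 3) ℤ), z = unip t * y * intMat V := by
    have : z ∈ O := by
      by_contra h
      exact (Set.eq_empty_iff_forall_notMem.1 hempty) z ⟨hz, h⟩
    rwa [hO] at this
  obtain ⟨a, ha⟩ : ∃ a : ℕ → Mat,
      a = fun n => unip (-t) * (unip (σ n) * y * intMat (U n)) * intMat V⁻¹ * y⁻¹ := ⟨_, rfl⟩
  have halim : Tendsto a atTop (𝓝 1) := by
    have hcont : Continuous fun g : Mat => unip (-t) * g * intMat V⁻¹ * y⁻¹ := by fun_prop
    rw [ha]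
    refine (hcont.tendsto' z 1 ?_).comp hlim
    rw [hzV]
    calc unip (-t) * (unip t * y * intMat V) * intMat V⁻¹ * y⁻¹
        = unip (-t) * unip t * y * (intMat V * intMat V⁻¹) * y⁻¹ := by simp only [Matrix.mul_assoc]
      _ = 1 := by
          rw [intMat_mul_inv, unip_mul, neg_add_cancel, unip_zero, Matrix.one_mul,
            Matrix.mul_one, mul_nonsing_inv y hyu]
  have hmem : ∀ n, a n * y = unip ((σ n : ℝ) - t) * y * intMat (U n * V⁻¹) := fun n => by
    rw [ha]
    simp only [intMat, OrthogonalUnits.rep_mul, sub_eq_neg_add, ← unip_mul]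
    rw [Matrix.mul_assoc _ y⁻¹, nonsing_inv_mul y hyu, Matrix.mul_one]
    simp only [Matrix.mul_assoc]
  have h01 : Tendsto (fun n => a n 0 1) atTop (𝓝 ((1 : Mat) 0 1)) :=
    tendsto_pi_nhds.1 (tendsto_pi_nhds.1 halim 0) 1
  have hbig : ∀ᶠ n in atTop, (t + 1 : ℝ) < (σ n : ℝ) :=
    (tendsto_natCast_atTop_atTop.comp hσ.tendsto_atTop).eventually (eventually_gt_atTop _)
  obtain ⟨n, hn1, hn2, hn3⟩ := ((halim.eventually hiso).and (hbig.and
    (Metric.tendsto_nhds.1 h01 1 one_pos))).exists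
  obtain ⟨r, hr⟩ := hn1 (by
    rw [hmem]; exact hY.right _ (hY.left _ ⟨_, rfl⟩ y hy) _)
  rw [← hr] at hn3
  simp [unip] at hn3
  refine unip_not_periodic hε (hYε hy) (T := r - ((σ n : ℝ) - t)) ?_ (U n * V⁻¹) ?_
  · intro h
    rw [abs_lt] at hn3
    linarith [hn3.2]
  · have h := congrArg (unip (-((σ n : ℝ) - t)) * ·) (hmem n)
    simp only [← hr, ← Matrix.mul_assoc, unip_mul, neg_add_cancel, unip_zero, Matrix.one_mul] at h
    rw [← h, sub_eq_neg_add r]

end FA.Oppenheim
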