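import Fermat.Agent.Oppenheim.Affine
import Fermat.Agent.Oppenheim.Flow
import Fermat.Agent.Oppenheim.Lattices

/-!
# Margulis's argument

Let `Y` be a minimal `U`-invariant closed set of lattices on which the form avoids `(-ε, ε)`. The
stabiliser of `Y` among the affine group `trans s * dil c` is not discrete, so it contains all of
`trans` or a conjugate of the diagonal group; if some `y ∈ Y` had arbitrarily close neighbours in
`Avoiding ε` off its orbit, `trans s` would map `Y` into `Avoiding ε` for a half line of `s`, and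
the form would vanish at a nonzero vector of a lattice `trans s * y`.
-/

set_option autoImplicit false

noncomputable section

namespace FA.Oppenheim

open Matrix Filter Finset
open scoped Topology

variable {ε : ℝ} {Y : Set Mat}

/-- The affine group, normalising `U`. -/
def aff (p : ℝ × ℝ) : Mat := trans p.2 * dil (Real.sqrt p.1)

/-- `Y` is a minimal `U`-invariant closed set of lattices of `Avoiding ε`. -/
structure IsUnipMinimal (ε : ℝ) (Y : Set Mat) : Prop where
  inv : IsInvariant (Set.range unip) Y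
  subset : Y ⊆ Avoiding ε
  nonempty : Y.Nonempty
  eq_of_subset : ∀ Y' ⊆ Y, IsInvariant (Set.range unip) Y' → Y'.Nonempty → Y' = Y

theorem aff_mul {p q : ℝ × ℝ} (hp : 0 < p.1) :
    aff (p.1 * q.1, p.2 + p.1 * q.2) = aff p * aff q := by
  simp only [aff]
  rw [Matrix.mul_assoc (trans p.2), ← Matrix.mul_assoc (dil _), dil_trans (Real.sqrt_pos.2 hp).ne',
    Matrix.mul_assoc (trans _) (dil _), dil_mul, ← Matrix.mul_assoc, trans_mul,
    Real.sq_sqrt hp.le, Real.sqrt_mul hp.le]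

theorem aff_one : aff (1, 0) = 1 := by simp [aff, trans_zero, dil_one]

theorem aff_trans (s : ℝ) : aff (1, s) = trans s := by simp [aff, dil_one]

theorem continuousAt_aff {p : ℝ × ℝ} (hp : 0 < p.1) : ContinuousAt aff p := by
  have h : ∀ i j, ContinuousAt (fun q : ℝ × ℝ => aff q i j) p := by
    intro i j
    have hs : ContinuousAt (fun q : ℝ × ℝ => Real.sqrt q.1) p := by fun_prop
    have hi := hs.inv₀ (Real.sqrt_pos.2 hp).ne'
    fin_cases i <;> fin_cases j <;>
      simp [aff, trans, dil, Matrix.mul_apply, Fin.sum_univ_three] <;>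
      first | fun_prop | exact hi | exact continuousAt_snd.mul hi
  exact continuousAt_pi.2 fun i => continuousAt_pi.2 fun j => h i j

theorem isUnit_det_aff {p : ℝ × ℝ} (hp : 0 < p.1) : IsUnit (aff p).det := by
  rw [aff, det_mul, det_trans, det_dil (Real.sqrt_pos.2 hp).ne', one_mul]
  exact isUnit_one

theorem aff_unip {p : ℝ × ℝ} (hp : 0 < p.1) (t : ℝ) :
    aff p * unip t = unip (Real.sqrt p.1 * t) * aff p := by
  rw [aff, Matrix.mul_assoc, dil_unip (Real.sqrt_pos.2 hp).ne', ← Matrix.mul_assoc, trans_unip,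
    Matrix.mul_assoc]

theorem inv_aff {p : ℝ × ℝ} (hp : 0 < p.1) : (aff p)⁻¹ = aff (p.1⁻¹, -p.2 / p.1) := by
  refine inv_eq_left_inv ?_
  rw [← aff_mul (inv_pos.2 hp)]
  convert aff_one using 2
  ext <;> simp only
  · exact inv_mul_cancel₀ hp.ne'
  · field_simp; ring

/-- The lattices of `Y` sent into `S` by an element normalising `U` are all or none. -/
theorem IsUnipMinimal.mul_mem_of_exists (hY : IsUnipMinimal ε Y) {P S : Set Mat}
    (hS : IsInvariant P S) (hP : Set.range unip ⊆ P) {b : Mat} {μ : ℝ}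
    (hb : ∀ t, b * unip t = unip (μ * t) * b) (h : ∃ g ∈ Y, b * g ∈ S) :
    ∀ g ∈ Y, b * g ∈ S := by
  obtain ⟨g₀, hg₀, hg₀S⟩ := h
  have hinv : IsInvariant (Set.range unip) {g | g ∈ Y ∧ b * g ∈ S} := by
    refine ⟨hY.inv.isClosed.inter (hS.isClosed.preimage (by fun_prop)), fun g hg U =>
      ⟨hY.inv.right g hg.1 U, by rw [← Matrix.mul_assoc]; exact hS.right _ hg.2 U⟩, ?_⟩
    rintro _ ⟨t, rfl⟩ g hg
    refine ⟨hY.inv.left _ ⟨t, rfl⟩ g hg.1, ?_⟩
    rw [← Matrix.mul_assoc, hb, Matrix.mul_assoc]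
    exact hS.left _ (hP ⟨_, rfl⟩) _ hg.2
  have heq := hY.eq_of_subset _ (fun g hg => hg.1) hinv ⟨g₀, hg₀, hg₀S⟩
  intro g hg
  rw [← heq] at hg
  exact hg.2

/-- An element of the affine group mapping a point of `Y` into `Y` stabilises it. -/
theorem IsUnipMinimal.stab (hY : IsUnipMinimal ε Y) {p : ℝ × ℝ} (hp : 0 < p.1)
    (h : ∃ g ∈ Y, aff p * g ∈ Y) (g : Mat) : g ∈ Y ↔ aff p * g ∈ Y := by
  refine ⟨hY.mul_mem_of_exists hY.inv subset_rfl (aff_unip hp) h g, fun hg => ?_⟩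
  have hu := isUnit_det_aff hp
  have hp' : 0 < (p.1⁻¹, -p.2 / p.1).1 := inv_pos.2 hp
  have h' : ∃ g ∈ Y, aff (p.1⁻¹, -p.2 / p.1) * g ∈ Y := by
    obtain ⟨g₀, h0, h1⟩ := h
    refine ⟨_, h1, ?_⟩
    rwa [← inv_aff hp, ← Matrix.mul_assoc, nonsing_inv_mul _ hu, Matrix.one_mul]
  have := hY.mul_mem_of_exists hY.inv subset_rfl (aff_unip hp') h' _ hg
  rwa [← inv_aff hp, ← Matrix.mul_assoc, nonsing_inv_mul _ hu, Matrix.one_mul] at this

/-- The stabiliser of `Y` in the affine group. -/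
def stabSet (Y : Set Mat) : Set (ℝ × ℝ) := {p | 0 < p.1 ∧ ∀ g, g ∈ Y ↔ aff p * g ∈ Y}

theorem IsUnipMinimal.isAffineSubgroup (hε : 0 < ε) (hY : IsUnipMinimal ε Y) :
    IsAffineSubgroup (stabSet Y) where
  one := ⟨one_pos, fun g => by rw [aff_one, Matrix.one_mul]⟩
  pos p hp := hp.1
  mul p hp q hq := ⟨mul_pos hp.1 hq.1, fun g => by
    rw [aff_mul hp.1, Matrix.mul_assoc, ← hp.2, ← hq.2]⟩
  inv p hp := ⟨inv_pos.2 hp.1, fun g => by
    rw [← inv_aff hp.1, hp.2 ((aff p)⁻¹ * g), ← Matrix.mul_assoc,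
      mul_nonsing_inv _ (isUnit_det_aff hp.1), Matrix.one_mul]⟩
  closed p q hp hpq hq := by
    obtain ⟨g, hg⟩ := hY.nonempty
    exact ⟨hq, hY.stab hq (exists_mem_limit hε hY.inv hY.subset hY.inv
      ((continuousAt_aff hq).tendsto.comp hpq) fun n => ⟨g, hg, ((hp n).2 g).1 hg⟩)⟩

theorem pull_mul_dil_trans {c : ℝ} (hc : c ≠ 0) (s : ℝ) :
    pull (dil c * trans s) = transForm s := by
  rw [pull_automorph_mul (isAutomorph_dil hc), pull_trans]

theorem transForm_conj (s : ℝ) : (trans (-s))ᵀ * transForm s * trans (-s) = stdForm := by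
  rw [← pull_trans, ← pull_mul, trans_mul, add_neg_cancel, trans_zero, pull_one]

theorem det_eq_one_of_pull {a : Mat} (ha : |a.det| = 1) (h : 0 < a.det) : a.det = 1 := by
  rwa [abs_of_pos h] at ha

/-- The stabiliser of `Y` in the affine group is not discrete. -/
theorem IsUnipMinimal.exists_stab_near (hε : 0 < ε) (hY : IsUnipMinimal ε Y) {η : ℝ} (hη : 0 < η) :
    ∃ p ∈ stabSet Y, p ≠ (1, 0) ∧ dist p (1, 0) < η := by
  obtain ⟨y, hy⟩ := hY.nonempty
  obtain ⟨a, ha, hay⟩ := exists_return hε hY.inv hY.subset hY.eq_of_subset hy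
  obtain ⟨n₀, hn₀⟩ := eventually_atTop.1
    ((((continuous_id.matrix_det.tendsto (1 : Mat)).comp ha).eventually
      (eventually_gt_nhds (show (0 : ℝ) < (1 : Mat).det by simp))))
  obtain ⟨M, hM⟩ : ∃ M : Set Mat, M = {b | b.det = 1 ∧ ∃ g ∈ Y, b * g ∈ Y} := ⟨_, rfl⟩
  have hMdet : ∀ b ∈ M, |b.det| = 1 := by
    rw [hM]; rintro b ⟨h, -⟩; rw [h, abs_one]
  have hMU : ∀ b ∈ M, ∀ t, b * unip t ∈ M := by
    rw [hM]
    rintro b ⟨h, g, hg, hbg⟩ t
    refine ⟨by rw [det_mul, h, det_unip, one_mul], unip (-t) * g,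
      hY.inv.left _ ⟨_, rfl⟩ g hg, ?_⟩
    rwa [Matrix.mul_assoc, ← Matrix.mul_assoc (unip t), unip_mul, add_neg_cancel, unip_zero,
      Matrix.one_mul]
  have hamem : ∀ n, a (n + n₀) ∈ M := fun n => by
    rw [hM]
    refine ⟨det_eq_one_of_pull ?_ (hn₀ _ (Nat.le_add_left _ _)), y, hy, (hay _).1⟩
    have h1 := (hY.subset (hay (n + n₀)).1).1
    rwa [det_mul, abs_mul, (hY.subset hy).1, mul_one] at h1
  have hne : ∀ n, pull (a (n + n₀)) ≠ stdForm ∨ (a (n + n₀))⁻¹ *ᵥ stdVec ≠ stdVec := by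
    intro n
    by_contra hc
    push Not at hc
    obtain ⟨hp, hv⟩ := hc
    have hau : 0 < (a (n + n₀)).det := hn₀ _ (Nat.le_add_left _ _)
    have hu : IsUnit (a (n + n₀)).det := isUnit_iff_ne_zero.2 hau.ne'
    have hcol : ∀ i, a (n + n₀) i 0 = stdVec i := fun i => by
      have h := congrFun (congrArg (a (n + n₀) *ᵥ ·) hv) i
      simp only [mulVec_mulVec, mul_nonsing_inv _ hu, one_mulVec] at h
      rw [h]
      simp [stdVec, mulVec, dotProduct, Fin.sum_univ_three]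
    have h00 : a (n + n₀) 0 0 = 1 := by rw [hcol]; rfl
    have h := automorph_mul_unip hp hau (by rw [h00]; exact one_ne_zero)
    refine (hay (n + n₀)).2 ⟨a (n + n₀) 0 1, ?_⟩
    have hk : a (n + n₀) * unip (-a (n + n₀) 0 1 / a (n + n₀) 0 0) = 1 := by
      rw [h]
      ext i j; fin_cases i <;> fin_cases j <;> simp [hcol, stdVec]
    calc unip (a (n + n₀) 0 1) = a (n + n₀) * unip (-a (n + n₀) 0 1 / a (n + n₀) 0 0) *
          unip (a (n + n₀) 0 1) := by rw [hk, Matrix.one_mul]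
      _ = _ := by rw [Matrix.mul_assoc, unip_mul, h00, div_one, neg_add_cancel, unip_zero,
          Matrix.mul_one]
  obtain ⟨η', hη', hη'1, hη'η⟩ : ∃ η', 0 < η' ∧ η' ≤ 1 / 2 ∧ η' ≤ η / 16 :=
    ⟨min (1 / 2) (η / 16), lt_min (by norm_num) (by linarith), min_le_left _ _, min_le_right _ _⟩
  obtain ⟨s, c, hsc, hs, hc, hcl⟩ := exists_pair_near hMdet hMU hamem hne
    (ha.comp (tendsto_add_atTop_nat n₀)) hη'
  obtain ⟨hc1, hc2⟩ := abs_lt.1 hc
  have hc0 : 0 < c := by linarith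
  obtain ⟨x, hx, hxlim⟩ := mem_closure_iff_seq_limit.1 hcl
  choose b hbM hbx using hx
  obtain rfl : x = fun n => (pull (b n), (b n)⁻¹ *ᵥ stdVec) := funext fun n => (hbx n).symm
  obtain ⟨B, hB⟩ : ∃ B : Mat, B = dil c⁻¹ * trans s := ⟨_, rfl⟩
  obtain ⟨B', hB'⟩ : ∃ B' : Mat, B' = trans (-s) * dil c := ⟨_, rfl⟩
  have hBB : B' * B = 1 := by
    rw [hB, hB', Matrix.mul_assoc, ← Matrix.mul_assoc (dil c), dil_mul, mul_inv_cancel₀ hc0.ne',
      dil_one, Matrix.one_mul, trans_mul, neg_add_cancel, trans_zero]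
  have hBp : B'ᵀ * transForm s * B' = stdForm := by
    rw [← pull_mul_dil_trans (inv_ne_zero hc0.ne') s, ← hB, ← pull_mul, mul_eq_one_comm.1 hBB,
      pull_one]
  have hBinv : B'⁻¹ = B := inv_eq_left_inv (mul_eq_one_comm.1 hBB)
  have hbdet : ∀ n, (b n * B').det = 1 := fun n => by
    have := hbM n
    rw [hM] at this
    rw [det_mul, this.1, hB', det_mul, det_trans, det_dil hc0.ne', one_mul, one_mul]
  obtain ⟨t, ht⟩ := exists_unip_tendsto (c := fun n => b n * B')
    (fun n => by rw [hbdet, abs_one])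
    (by
      have h := ((show Continuous fun q : Mat => B'ᵀ * q * B' by fun_prop).tendsto
        (transForm s)).comp
        ((continuous_fst.tendsto (transForm s, ![c, 0, 0])).comp hxlim)
      rw [hBp] at h
      exact h.congr fun n => (pull_mul _ _).symm)
    (by
      have h := ((show Continuous fun v : Fin 3 → ℝ => B *ᵥ v by fun_prop).tendsto ![c, 0, 0]).comp
        ((continuous_snd.tendsto (transForm s, ![c, 0, 0])).comp hxlim)
      rw [show B *ᵥ ![c, 0, 0] = stdVec by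
        ext i; fin_cases i <;>
          simp [hB, dil, trans, stdVec, mulVec, dotProduct, Fin.sum_univ_three,
            hc0.ne']] at h
      refine h.congr fun n => ?_
      simp only [Function.comp_apply]
      rw [Matrix.mul_inv_rev, hBinv, mulVec_mulVec])
    (fun n => by rw [hbdet]; exact one_pos)
  have hlim : Tendsto (fun n => unip (t n) * b n) atTop (𝓝 B) := by
    have h := ht.mul_const B
    rw [Matrix.one_mul] at h
    refine h.congr fun n => ?_
    rw [Matrix.mul_assoc, Matrix.mul_assoc, hBB, Matrix.mul_one]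
  have hmem := exists_mem_limit hε hY.inv hY.subset hY.inv hlim fun n => by
    have := hbM n
    rw [hM] at this
    obtain ⟨-, g, hg, hbg⟩ := this
    exact ⟨g, hg, by rw [Matrix.mul_assoc]; exact hY.inv.left _ ⟨_, rfl⟩ _ hbg⟩
  have hl : (0 : ℝ) < c⁻¹ ^ 2 := by positivity
  have hBaff : B = aff (c⁻¹ ^ 2, c⁻¹ ^ 2 * s) := by
    rw [hB, aff, dil_trans (inv_ne_zero hc0.ne'), Real.sqrt_sq (inv_nonneg.2 hc0.le)]
  rw [hBaff] at hmem
  refine ⟨_, ⟨hl, hY.stab hl hmem⟩, ?_, ?_⟩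
  · intro h
    simp only [Prod.mk.injEq] at h
    obtain ⟨h1, h2⟩ := h
    rw [h1, one_mul] at h2
    refine hsc.elim (fun hs => hs h2) fun hc' => hc' ?_
    have := (pow_eq_one_iff_of_nonneg (inv_nonneg.2 hc0.le) two_ne_zero).1 h1
    exact inv_eq_one.1 this
  · have hi : |c⁻¹ - 1| ≤ 2 * η' := by
      rw [inv_eq_one_div, div_sub_one hc0.ne', abs_div, abs_of_pos hc0, abs_sub_comm,
        div_le_iff₀ hc0]
      nlinarith
    have hi' := abs_le.1 hi
    have hcinv : c⁻¹ ≤ 2 := by linarith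
    have h4 : c⁻¹ ^ 2 ≤ 4 := by nlinarith [inv_pos.2 hc0]
    rw [Prod.dist_eq, max_lt_iff, Real.dist_eq, Real.dist_eq, sub_zero]
    constructor
    · rw [show c⁻¹ ^ 2 - 1 = (c⁻¹ - 1) * (c⁻¹ + 1) by ring, abs_mul,
        abs_of_pos (show 0 < c⁻¹ + 1 by linarith [inv_pos.2 hc0])]
      nlinarith [abs_nonneg (c⁻¹ - 1)]
    · rw [abs_mul, abs_of_nonneg (sq_nonneg _)]
      nlinarith [abs_nonneg s]

/-- A lattice has vectors in the open cones where the form has a given sign. -/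
theorem exists_vector_sign {y : Mat} (hy : IsUnit y.det) {σ : ℝ} (hσ : σ ≠ 0) :
    ∃ v : Fin 3 → ℤ, v ≠ 0 ∧ 0 < σ * formVal (y *ᵥ fun k => (v k : ℝ)) ∧
      (y *ᵥ fun k => (v k : ℝ)) 2 ≠ 0 := by
  obtain ⟨x, hx, hx2⟩ : ∃ x : Fin 3 → ℝ, 0 < σ * formVal x ∧ x 2 ≠ 0 := by
    rcases lt_or_gt_of_ne hσ with h | h
    · refine ⟨![-1, 0, 1], ?_, by simp⟩
      simp [formVal]; linarith
    · refine ⟨![1, 0, 1], ?_, by simp⟩
      simp [formVal]; linarith
  obtain ⟨z, hz⟩ : ∃ z, z = y⁻¹ *ᵥ x := ⟨_, rfl⟩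
  have hyz : y *ᵥ z = x := by rw [hz, mulVec_mulVec, mul_nonsing_inv y hy, one_mulVec]
  have happrox : Tendsto (fun N : ℕ => fun k => (⌊(N : ℝ) * z k⌋ : ℝ) / N) atTop (𝓝 z) :=
    tendsto_pi_nhds.2 fun k => by
      refine tendsto_of_tendsto_of_tendsto_of_le_of_le'
        (g := fun N : ℕ => z k - 1 / (N : ℝ)) ?_ (tendsto_const_nhds (x := z k)) ?_ ?_
      · simpa using (tendsto_one_div_atTop_nhds_zero_nat (𝕜 := ℝ)).const_sub (z k)
      · filter_upwards [eventually_gt_atTop 0] with N hN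
        have hN' : (0 : ℝ) < N := Nat.cast_pos.2 hN
        rw [le_div_iff₀ hN', sub_mul, div_mul_cancel₀ _ hN'.ne']
        have := Int.sub_one_lt_floor ((N : ℝ) * z k)
        linarith
      · filter_upwards [eventually_gt_atTop 0] with N hN
        have hN' : (0 : ℝ) < N := Nat.cast_pos.2 hN
        rw [div_le_iff₀ hN', mul_comm (z k)]
        exact Int.floor_le _
  have hcont : Continuous fun w : Fin 3 → ℝ => (σ * formVal (y *ᵥ w), (y *ᵥ w) 2) :=
    Continuous.prodMk ((continuous_formVal.comp (by fun_prop)).const_smul σ) (by fun_prop)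
  have hev := ((hcont.tendsto z).comp happrox).eventually
    (((isOpen_Ioi (a := (0 : ℝ))).prod (isOpen_ne (x := (0 : ℝ)))).mem_nhds
      (show (σ * formVal (y *ᵥ z), (y *ᵥ z) 2) ∈ _ from by rw [hyz]; exact ⟨hx, hx2⟩))
  obtain ⟨N, ⟨h1, h2⟩, hN⟩ := (hev.and (eventually_gt_atTop 0)).exists
  have hN' : (0 : ℝ) < N := Nat.cast_pos.2 hN
  simp only [Function.comp_apply] at h1 h2
  obtain ⟨v, hv⟩ : ∃ v : Fin 3 → ℤ, v = fun k => ⌊(N : ℝ) * z k⌋ := ⟨_, rfl⟩
  have hsm : (fun k => (v k : ℝ)) = (N : ℝ) • fun k => (⌊(N : ℝ) * z k⌋ : ℝ) / N := by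
    funext k
    rw [hv, Pi.smul_apply, smul_eq_mul, mul_div_cancel₀ _ hN'.ne']
  refine ⟨v, fun h => h2 ?_, ?_, ?_⟩
  · have h0 : (fun k => (⌊(N : ℝ) * z k⌋ : ℝ) / N) = 0 := by
      funext k
      have : v k = 0 := congrFun h k
      rw [hv] at this
      simp [this]
    simp [h0]
  · rw [hsm, mulVec_smul]
    simp only [formVal, Pi.smul_apply, smul_eq_mul, Set.mem_Ioi] at h1 ⊢
    exact (mul_pos (sq_pos_of_pos hN') h1).trans_eq (by ring)
  · rw [hsm, mulVec_smul, Pi.smul_apply, smul_eq_mul]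
    exact mul_ne_zero hN'.ne' h2

/-- `trans s` does not keep a lattice in `Avoiding ε` for a half line of `s`. -/
theorem not_halfline (hε : 0 < ε) {y : Mat} (hy : y ∈ Avoiding ε) {σ : ℝ} (hσ : σ ≠ 0)
    (h : ∀ s, 0 ≤ σ * s → trans s * y ∈ Avoiding ε) : False := by
  obtain ⟨v, hv, hsign, h2⟩ := exists_vector_sign (isUnit_det_of_abs hy.1) (neg_ne_zero.2 hσ)
  obtain ⟨w, hw⟩ : ∃ w, w = y *ᵥ fun k => (v k : ℝ) := ⟨_, rfl⟩
  rw [← hw] at hsign h2
  obtain ⟨s, hs⟩ : ∃ s, s = -formVal w / (2 * w 2 ^ 2) := ⟨_, rfl⟩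
  have hpos : 0 < 2 * w 2 ^ 2 := by positivity
  have hsσ : 0 ≤ σ * s := by
    rw [hs, mul_div_assoc']
    exact div_nonneg (by linarith) hpos.le
  have h' := (h s hsσ).2 v hv
  rw [← mulVec_mulVec, ← hw] at h'
  have hzero : formVal (trans s *ᵥ w) = 0 := by
    have : formVal (trans s *ᵥ w) = formVal w + 2 * w 2 ^ 2 * s := by
      simp [formVal, trans, mulVec, dotProduct, Fin.sum_univ_three]
      ring
    rw [this, hs, mul_div_cancel₀ _ hpos.ne', add_neg_cancel]
  rw [hzero, abs_zero] at h'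
  linarith

/-- **Points of minimal sets have isolated orbits in `Avoiding ε`.** -/
theorem IsUnipMinimal.isolated (hε : 0 < ε) (hY : IsUnipMinimal ε Y) {y : Mat} (hy : y ∈ Y) :
    ∀ᶠ a in 𝓝 (1 : Mat), a * y ∈ Avoiding ε → IsAutomorph a := by
  by_contra hcon
  obtain ⟨a, ha, ha'⟩ := exists_seq_forall_of_frequently (not_eventually.1 hcon)
  have ha1 : ∀ n, a n * y ∈ Avoiding ε := fun n => (Classical.not_imp.1 (ha' n)).1
  have ha2 : ∀ n, ¬IsAutomorph (a n) := fun n => (Classical.not_imp.1 (ha' n)).2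
  have hG := isInvariant_avoiding ε
  have hUH : Set.range unip ⊆ {h : Mat | IsAutomorph h} := by
    rintro _ ⟨t, rfl⟩
    exact isAutomorph_unip t
  -- the set of `s` with `trans s` mapping `Y` into the lattices avoiding zero
  obtain ⟨S, hS⟩ : ∃ S : Set ℝ, S = {s | ∀ g ∈ Y, trans s * g ∈ Avoiding ε} := ⟨_, rfl⟩
  have hS0 : (0 : ℝ) ∈ S := by
    rw [hS]; intro g hg; rw [trans_zero, Matrix.one_mul]; exact hY.subset hg
  have hstep : ∀ p ∈ stabSet Y, ∀ s ∈ S, (s + p.2) / p.1 ∈ S := by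
    rintro p ⟨hp, hst⟩ s hs
    rw [hS] at hs ⊢
    intro g hg
    have hq : Real.sqrt p.1 ≠ 0 := (Real.sqrt_pos.2 hp).ne'
    have h1 := hG.left _ (isAutomorph_dil (inv_ne_zero hq)) _ (hs _ ((hst g).1 hg))
    rwa [aff, ← Matrix.mul_assoc (trans s), ← Matrix.mul_assoc (trans s), trans_mul,
      Matrix.mul_assoc (trans (s + p.2)), ← Matrix.mul_assoc (dil _), dil_trans (inv_ne_zero hq),
      Matrix.mul_assoc, ← Matrix.mul_assoc (dil _), dil_mul, inv_mul_cancel₀ hq, dil_one,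
      Matrix.one_mul, inv_pow, Real.sq_sqrt hp.le, ← div_eq_inv_mul] at h1
  obtain ⟨s₀, hs₀, hs₀S⟩ : ∃ s, s ≠ 0 ∧ s ∈ S := by
    obtain ⟨M, hM⟩ : ∃ M : Set Mat,
        M = {b | |b.det| = 1 ∧ ∃ g ∈ Y, b * g ∈ Avoiding ε} := ⟨_, rfl⟩
    have hMU : ∀ b ∈ M, ∀ t, b * unip t ∈ M := by
      rw [hM]
      rintro b ⟨h, g, hg, hbg⟩ t
      refine ⟨by rw [det_mul, abs_mul, h, det_unip, abs_one, one_mul], unip (-t) * g,
        hY.inv.left _ ⟨_, rfl⟩ g hg, ?_⟩
      rwa [Matrix.mul_assoc, ← Matrix.mul_assoc (unip t), unip_mul, add_neg_cancel, unip_zero,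
        Matrix.one_mul]
    have hamem : ∀ n, a n ∈ M := fun n => by
      rw [hM]
      refine ⟨?_, y, hy, ha1 n⟩
      have h1 := (ha1 n).1
      rwa [det_mul, abs_mul, (hY.subset hy).1, mul_one] at h1
    obtain ⟨s, hs, -, hcl⟩ := exists_transForm_near (fun b hb => by rw [hM] at hb; exact hb.1)
      hMU hamem ha2 ha one_pos
    obtain ⟨x, hx, hxlim⟩ := mem_closure_iff_seq_limit.1 hcl
    choose b hbM hbx using hx
    obtain rfl : x = fun n => pull (b n) := funext fun n => (hbx n).symm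
    rw [hM] at hbM
    obtain ⟨g, hg, hgc⟩ := exists_automorph_tendsto (c := fun n => b n * trans (-s))
      (fun n => by rw [det_mul, abs_mul, (hbM n).1, det_trans, abs_one, one_mul])
      (by
        have h := ((show Continuous fun q : Mat => (trans (-s))ᵀ * q * trans (-s) by
          fun_prop).tendsto (transForm s)).comp hxlim
        rw [transForm_conj] at h
        exact h.congr fun n => (pull_mul _ _).symm)
    obtain ⟨n₀, hn₀⟩ := eventually_atTop.1 hg
    have hlim : Tendsto (fun n => g (n + n₀) * b (n + n₀)) atTop (𝓝 (trans s)) := by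
      have h := ((hgc.mul_const (trans s)).comp (tendsto_add_atTop_nat n₀))
      rw [Matrix.one_mul] at h
      refine h.congr fun n => ?_
      simp only [Function.comp_apply]
      rw [Matrix.mul_assoc, Matrix.mul_assoc, trans_mul, neg_add_cancel, trans_zero,
        Matrix.mul_one]
    have hmem := exists_mem_limit hε hY.inv hY.subset hG hlim fun n => by
      obtain ⟨-, z, hz, hbz⟩ := hbM (n + n₀)
      exact ⟨z, hz, by
        rw [Matrix.mul_assoc]; exact hG.left _ (hn₀ _ (Nat.le_add_left _ _)) _ hbz⟩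
    refine ⟨s, hs, hS ▸ hY.mul_mem_of_exists hG hUH (μ := 1) (fun t => ?_) hmem⟩
    rw [one_mul, trans_unip]
  have hyS : ∀ s ∈ S, trans s * y ∈ Avoiding ε := fun s hs => by rw [hS] at hs; exact hs y hy
  rcases (hY.isAffineSubgroup hε).dichotomy (fun η hη => hY.exists_stab_near hε hη) with h | ⟨κ, h⟩
  · refine not_halfline hε (hY.subset hy) one_ne_zero fun s _ => hyS s ?_
    simpa using hstep _ (h s) 0 hS0
  · rcases lt_trichotomy κ 0 with hκ | rfl | hκ
    · refine not_halfline hε (hY.subset hy) one_ne_zero fun s hs => hyS s ?_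
      rw [one_mul] at hs
      rcases hs.eq_or_lt with rfl | hs
      · exact hS0
      · have hl : 0 < 1 - s / κ := by linarith [div_neg_of_pos_of_neg hs hκ]
        have := hstep _ (h (1 - s / κ)⁻¹ (inv_pos.2 hl)) 0 hS0
        convert this using 1
        show s = (0 + ((1 - s / κ)⁻¹ - 1) * κ) / (1 - s / κ)⁻¹
        rw [zero_add, div_inv_eq_mul, mul_right_comm, sub_mul, inv_mul_cancel₀ hl.ne', one_mul,
          sub_sub_cancel, div_mul_cancel₀ _ hκ.ne]
    · obtain ⟨σ, hσ⟩ : ∃ σ : ℝ, σ = s₀ := ⟨_, rfl⟩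
      refine not_halfline hε (hY.subset hy) hs₀ fun s hs => hyS s ?_
      rcases hs.eq_or_lt with h' | h'
      · rcases mul_eq_zero.1 h'.symm with h'' | h''
        · exact absurd h'' hs₀
        · exact h'' ▸ hS0
      · have hl : 0 < s₀ / s := by
          rcases mul_pos_iff.1 h' with ⟨a, b⟩ | ⟨a, b⟩
          · exact div_pos a b
          · exact div_pos_of_neg_of_neg a b
        have := hstep _ (h _ hl) s₀ hs₀S
        simpa [div_div_eq_mul_div, mul_div_assoc, hs₀] using this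
    · refine not_halfline hε (hY.subset hy) (neg_ne_zero.2 one_ne_zero) fun s hs => hyS s ?_
      rcases eq_or_ne s 0 with rfl | hs'
      · exact hS0
      · have hs'' : s < 0 := lt_of_le_of_ne (by linarith) hs'
        have hl : 0 < 1 - s / κ := by linarith [div_neg_of_neg_of_pos hs'' hκ]
        have := hstep _ (h (1 - s / κ)⁻¹ (inv_pos.2 hl)) 0 hS0
        convert this using 1
        show s = (0 + ((1 - s / κ)⁻¹ - 1) * κ) / (1 - s / κ)⁻¹
        rw [zero_add, div_inv_eq_mul, mul_right_comm, sub_mul, inv_mul_cancel₀ hl.ne', one_mul,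
          sub_sub_cancel, div_mul_cancel₀ _ hκ.ne']

end FA.Oppenheim
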