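import Fermat.Agent.Oppenheim.Dynamics
import Mathlib.Analysis.Polynomial.Basic
import Mathlib.LinearAlgebra.Basis.VectorSpace

/-!
# Margulis's orbit theorem

A lattice on which `2 x₀ x₂ - x₁ ^ 2` avoids an interval about zero carries a form proportional to
an integral one: its orbit under the automorphs is compact, so the forms invariant under its
stabiliser are bounded along each unipotent group, hence fixed by it.
-/

set_option autoImplicit false

noncomputable section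

namespace FA.Oppenheim

open Matrix Filter Finset
open scoped Topology

variable {ε : ℝ}

/-- The lattices of the orbit of `y` under the automorphs. -/
def orbitSet (y : Mat) : Set Mat :=
  {g | ∃ h : Mat, IsAutomorph h ∧ ∃ U : GL (Fin 3) ℤ, g = h * y * intMat U}

/-- The integral stabiliser of `y` in the automorphs. -/
def stabiliser (y : Mat) : Set Mat :=
  {h | IsAutomorph h ∧ ∃ U : GL (Fin 3) ℤ, h * y = y * intMat U}

theorem IsAutomorph.isUnit_det {h : Mat} (hh : IsAutomorph h) : IsUnit h.det :=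
  isUnit_det_of_abs hh.abs_det

theorem isAutomorph_stdForm : IsAutomorph stdForm := by
  ext i j; fin_cases i <;> fin_cases j <;>
    simp [pull, stdForm, Matrix.mul_apply, Fin.sum_univ_three]

theorem mem_orbitSet_self (y : Mat) : y ∈ orbitSet y :=
  ⟨1, isAutomorph_one, 1, by simp [intMat, OrthogonalUnits.rep_one]⟩

theorem orbitSet_symm {y z : Mat} (hz : z ∈ orbitSet y) : y ∈ orbitSet z := by
  obtain ⟨h, hh, U, rfl⟩ := hz
  refine ⟨h⁻¹, hh.inv, U⁻¹, ?_⟩
  calc y = (h⁻¹ * h) * y * (intMat U * intMat U⁻¹) := by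
        rw [nonsing_inv_mul h hh.isUnit_det, intMat_mul_inv, Matrix.one_mul, Matrix.mul_one]
    _ = _ := by simp only [Matrix.mul_assoc]

theorem orbitSet_trans {y z w : Mat} (hz : z ∈ orbitSet y) (hw : w ∈ orbitSet z) :
    w ∈ orbitSet y := by
  obtain ⟨h, hh, U, rfl⟩ := hz
  obtain ⟨k, hk, V, rfl⟩ := hw
  exact ⟨k * h, hk.mul hh, U * V, by
    simp only [intMat, OrthogonalUnits.rep_mul, Matrix.mul_assoc]⟩

/-- Isolation spreads along the orbit. -/
theorem isolated_orbit {y z : Mat} (hy : y ∈ Avoiding ε) (hz : z ∈ orbitSet y)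
    (h : ∀ᶠ a in 𝓝 (1 : Mat), a * y ∈ Avoiding ε → IsAutomorph a) :
    ∀ᶠ g in 𝓝 z, g ∈ Avoiding ε → g ∈ orbitSet y := by
  obtain ⟨k, hk, U, rfl⟩ := hz
  have hyu := isUnit_det_of_abs hy.1
  have hc : Tendsto (fun g : Mat => k⁻¹ * g * intMat U⁻¹ * y⁻¹) (𝓝 (k * y * intMat U)) (𝓝 1) := by
    have hcont : Continuous fun g : Mat => k⁻¹ * g * intMat U⁻¹ * y⁻¹ := by fun_prop
    refine hcont.tendsto' _ _ ?_
    calc k⁻¹ * (k * y * intMat U) * intMat U⁻¹ * y⁻¹
        = k⁻¹ * k * y * (intMat U * intMat U⁻¹) * y⁻¹ := by simp only [Matrix.mul_assoc]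
      _ = 1 := by
          rw [intMat_mul_inv, nonsing_inv_mul k hk.isUnit_det, Matrix.one_mul, Matrix.mul_one,
            mul_nonsing_inv y hyu]
  filter_upwards [hc.eventually h] with g hg hgG
  have hmem : k⁻¹ * g * intMat U⁻¹ * y⁻¹ * y = k⁻¹ * g * intMat U⁻¹ := by
    rw [Matrix.mul_assoc _ y⁻¹, nonsing_inv_mul y hyu, Matrix.mul_one]
  have hG := isInvariant_avoiding ε
  have ha := hg (by rw [hmem]; exact hG.right _ (hG.left _ hk.inv g hgG) _)
  refine ⟨k * (k⁻¹ * g * intMat U⁻¹ * y⁻¹), hk.mul ha, U, ?_⟩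
  rw [Matrix.mul_assoc k, hmem]
  calc g = k * k⁻¹ * g * (intMat U⁻¹ * intMat U) := by
        rw [mul_nonsing_inv k hk.isUnit_det, intMat_inv_mul, Matrix.one_mul, Matrix.mul_one]
    _ = _ := by simp only [Matrix.mul_assoc]

/-- A compact orbit: closed invariant, and isolated among the lattices avoiding zero. -/
structure IsCompactOrbit (ε : ℝ) (y : Mat) : Prop where
  mem : y ∈ Avoiding ε
  isolated : ∀ᶠ a in 𝓝 (1 : Mat), a * y ∈ Avoiding ε → IsAutomorph a
  closed : IsClosed (orbitSet y)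

theorem orbitSet_subset {y : Mat}
    (h : y ∈ Avoiding ε) : orbitSet y ⊆ Avoiding ε := by
  rintro _ ⟨k, hk, U, rfl⟩
  have hG := isInvariant_avoiding ε
  exact hG.right _ (hG.left _ hk _ h) _

theorem IsCompactOrbit.translate {y h : Mat} (hy : IsCompactOrbit ε y) (hh : IsAutomorph h) :
    IsCompactOrbit ε (h * y) := by
  have hG := isInvariant_avoiding ε
  have horb : h * y ∈ orbitSet y :=
    ⟨h, hh, 1, by simp [intMat, OrthogonalUnits.rep_one]⟩
  have heq : orbitSet (h * y) = orbitSet y :=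
    Set.Subset.antisymm (fun g hg => orbitSet_trans horb hg)
      (fun g hg => orbitSet_trans (orbitSet_symm horb) hg)
  refine ⟨hG.left _ hh _ hy.mem, ?_, heq ▸ hy.closed⟩
  have hc : Tendsto (fun a : Mat => h⁻¹ * a * h) (𝓝 1) (𝓝 1) := by
    have hcont : Continuous fun a : Mat => h⁻¹ * a * h := by fun_prop
    exact hcont.tendsto' _ _ (by rw [Matrix.mul_one, nonsing_inv_mul h hh.isUnit_det])
  filter_upwards [hc.eventually hy.isolated] with a ha hamem
  have h1 := ha (by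
    rw [Matrix.mul_assoc, Matrix.mul_assoc]
    exact hG.left _ hh.inv _ hamem)
  have h2 := (hh.mul h1).mul hh.inv
  rwa [← Matrix.mul_assoc h, ← Matrix.mul_assoc h, mul_nonsing_inv h hh.isUnit_det,
    Matrix.one_mul, Matrix.mul_assoc, mul_nonsing_inv h hh.isUnit_det, Matrix.mul_one] at h2

/-- **The orbit of a lattice avoiding zero is compact.** -/
theorem exists_compactOrbit (hε : 0 < ε) {x : Mat} (hx : x ∈ Avoiding ε) :
    ∃ y, IsCompactOrbit ε y ∧ x ∈ orbitSet y := by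
  have hG := isInvariant_avoiding ε
  obtain ⟨C, hC⟩ : ∃ C : Set Mat, C = closure (orbitSet x) := ⟨_, rfl⟩
  have hCG : C ⊆ Avoiding ε :=
    hC ▸ closure_minimal (orbitSet_subset hx) hG.isClosed
  have hCinv : IsInvariant {h | IsAutomorph h} C := by
    rw [hC]
    refine ⟨isClosed_closure, fun g hg U => map_mem_closure (f := (· * intMat U)) (by fun_prop)
      hg ?_, fun h hh g hg => map_mem_closure (f := (h * ·)) (by fun_prop) hg ?_⟩
    · rintro _ ⟨k, hk, V, rfl⟩
      exact orbitSet_trans ⟨k, hk, V, rfl⟩ ⟨1, isAutomorph_one, U, by rw [Matrix.one_mul]⟩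
    · rintro _ ⟨k, hk, V, rfl⟩
      exact orbitSet_trans ⟨k, hk, V, rfl⟩ ⟨h, hh, 1, by simp [intMat, OrthogonalUnits.rep_one]⟩
  obtain ⟨Z, hZC, hZinv, hZne, hZmin⟩ :=
    exists_minimal_invariant hε hCinv hCG ⟨x, hC ▸ subset_closure (mem_orbitSet_self x)⟩
  have hUH : ∀ t : ℝ, unip t ∈ {h : Mat | IsAutomorph h} := fun t => isAutomorph_unip t
  obtain ⟨Y, hYZ, hYinv, hYne, hYmin⟩ := exists_minimal_invariant hε
    (P := Set.range unip) ⟨hZinv.isClosed, hZinv.right, fun a ha g hg => by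
      obtain ⟨t, rfl⟩ := ha
      exact hZinv.left _ (hUH t) g hg⟩ (hZC.trans hCG) hZne
  have hY : IsUnipMinimal ε Y := ⟨hYinv, (hYZ.trans hZC).trans hCG, hYne, hYmin⟩
  obtain ⟨y, hy⟩ := hYne
  have hyG : y ∈ Avoiding ε := hY.subset hy
  have hiso := hY.isolated hε hy
  have hxy : x ∈ orbitSet y := by
    have hyC : y ∈ closure (orbitSet x) := hC ▸ hZC (hYZ hy)
    obtain ⟨g, hg, hgx⟩ := mem_closure_iff_nhds.1 hyC _
      (isolated_orbit hyG (mem_orbitSet_self y) hiso)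
    exact orbitSet_trans (hg (orbitSet_subset hx hgx)) (orbitSet_symm hgx)
  refine ⟨y, ⟨hyG, hiso, ?_⟩, hxy⟩
  have horb : orbitSet y ⊆ Z := by
    rintro _ ⟨k, hk, U, rfl⟩
    exact hZinv.right _ (hZinv.left _ hk _ (hYZ hy)) _
  have hinv : IsInvariant {h | IsAutomorph h} (Z \ orbitSet y) := by
    refine ⟨?_, fun g hg U => ⟨hZinv.right g hg.1 U, fun h => hg.2 (orbitSet_trans h ?_)⟩,
      fun k hk g hg => ⟨hZinv.left k hk g hg.1, fun h => hg.2 (orbitSet_trans h ?_)⟩⟩
    · refine isClosed_iff_clusterPt.2 fun z hz => ?_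
      refine ⟨(isClosed_iff_clusterPt.1 hZinv.isClosed) z
        (hz.mono (principal_mono.2 Set.sdiff_subset)), fun hzO => ?_⟩
      obtain ⟨g, hg, hgZO⟩ := clusterPt_principal_iff.1 hz _ (isolated_orbit hyG hzO hiso)
      exact hgZO.2 (hg (hCG (hZC hgZO.1)))
    · exact orbitSet_symm ⟨1, isAutomorph_one, U, by rw [Matrix.one_mul]⟩
    · exact orbitSet_symm ⟨k, hk, 1, by simp [intMat, OrthogonalUnits.rep_one]⟩
  have hempty : Z \ orbitSet y = ∅ := by
    by_contra hne
    have h := hZmin _ Set.sdiff_subset hinv (Set.nonempty_iff_ne_empty.2 hne)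
    exact (h.symm ▸ hYZ hy : y ∈ Z \ orbitSet y).2 (mem_orbitSet_self y)
  rw [Set.Subset.antisymm horb (Set.sdiff_eq_empty.1 hempty)]
  exact hZinv.isClosed

/-- A polynomial bounded along a subsequence of every sequence is constant. -/
theorem coeff_eq_zero_of_bounded {c : Fin 4 → ℝ}
    (h : ∀ t : ℕ → ℝ, ∃ σ : ℕ → ℕ, StrictMono σ ∧ ∃ l : ℝ,
      Tendsto (fun n => ∑ j : Fin 4, t (σ n) ^ ((j : ℕ) + 1) * c j) atTop (𝓝 l)) : c = 0 := by
  obtain ⟨P, hP⟩ : ∃ P : Polynomial ℝ,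
      P = ∑ j : Fin 4, Polynomial.C (c j) * Polynomial.X ^ ((j : ℕ) + 1) := ⟨_, rfl⟩
  have hev : ∀ t, P.eval t = ∑ j : Fin 4, t ^ ((j : ℕ) + 1) * c j := fun t => by
    rw [hP, Polynomial.eval_finsetSum]
    exact sum_congr rfl fun j _ => by
      rw [Polynomial.eval_mul, Polynomial.eval_C, Polynomial.eval_pow, Polynomial.eval_X, mul_comm]
  by_contra hc
  obtain ⟨j, hj⟩ := Function.ne_iff.1 hc
  have hdeg : 0 < P.degree := by
    refine lt_of_lt_of_le ?_ (Polynomial.le_degree_of_ne_zero (n := (j : ℕ) + 1) ?_)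
    · exact_mod_cast Nat.succ_pos (j : ℕ)
    · rw [hP, Polynomial.finsetSum_coeff, Finset.sum_eq_single j]
      · rw [Polynomial.coeff_C_mul_X_pow, if_pos rfl]; exact hj
      · intro i _ hij
        rw [Polynomial.coeff_C_mul_X_pow, if_neg fun h => hij (Fin.ext (by omega))]
      · simp
  obtain ⟨σ, hσ, l, hl⟩ := h fun n => (n : ℝ)
  have h1 := (Polynomial.abs_tendsto_atTop P hdeg).comp
    (tendsto_natCast_atTop_atTop.comp hσ.tendsto_atTop)
  refine not_tendsto_nhds_of_tendsto_atTop h1 |l| (hl.abs.congr fun n => ?_)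
  simp [Function.comp_apply, hev]

/-- **Forms invariant under the stabiliser of a compact orbit are fixed by `U`.** -/
theorem IsCompactOrbit.form_fixed (hε : 0 < ε) {y : Mat} (hy : IsCompactOrbit ε y) {q : Mat}
    (hq : ∀ h ∈ stabiliser y, hᵀ * q * h = q) (t : ℝ) : (unip t)ᵀ * q * unip t = q := by
  have hG := isInvariant_avoiding ε
  have hsub : orbitSet y ⊆ Avoiding ε := orbitSet_subset hy.mem
  have hO : IsInvariant {h | IsAutomorph h} (orbitSet y) := by
    refine ⟨hy.closed, fun g hg U => orbitSet_trans hg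
      ⟨1, isAutomorph_one, U, by rw [Matrix.one_mul]⟩, fun h hh g hg => orbitSet_trans hg
      ⟨h, hh, 1, by simp [intMat, OrthogonalUnits.rep_one]⟩⟩
  have hyu := isUnit_det_of_abs hy.mem.1
  have hzero : ∀ i k, (fun j => formCoeff j q i k) = 0 := by
    intro i k
    refine coeff_eq_zero_of_bounded fun t => ?_
    obtain ⟨σ, hσ, U, z, ⟨h₀, hh₀, U₀, hz⟩, hlim⟩ := exists_subseq_lattice hε hO hsub
      (g := fun n => unip (-(t n)) * y)
      fun n => hO.left _ (isAutomorph_unip _) y (mem_orbitSet_self y)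
    obtain ⟨a, ha⟩ : ∃ a : ℕ → Mat,
        a = fun n => h₀⁻¹ * (unip (-(t (σ n))) * y * intMat (U n)) * intMat U₀⁻¹ * y⁻¹ :=
      ⟨_, rfl⟩
    have hcont : Continuous fun g : Mat => h₀⁻¹ * g * intMat U₀⁻¹ * y⁻¹ := by fun_prop
    have halim : Tendsto a atTop (𝓝 1) := by
      rw [ha]
      refine (hcont.tendsto' z 1 ?_).comp hlim
      rw [hz]
      calc h₀⁻¹ * (h₀ * y * intMat U₀) * intMat U₀⁻¹ * y⁻¹
          = h₀⁻¹ * h₀ * y * (intMat U₀ * intMat U₀⁻¹) * y⁻¹ := by simp only [Matrix.mul_assoc]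
        _ = 1 := by
            rw [intMat_mul_inv, nonsing_inv_mul h₀ hh₀.isUnit_det, Matrix.one_mul, Matrix.mul_one,
              mul_nonsing_inv y hyu]
    obtain ⟨n₀, hn₀⟩ := eventually_atTop.1 (halim.eventually hy.isolated)
    have hay : ∀ n, a n * y = h₀⁻¹ * (unip (-(t (σ n))) * y * intMat (U n)) * intMat U₀⁻¹ :=
      fun n => by rw [ha, Matrix.mul_assoc _ y⁻¹, nonsing_inv_mul y hyu, Matrix.mul_one]
    have haut : ∀ n, IsAutomorph (a (n + n₀)) := fun n => hn₀ _ (Nat.le_add_left _ _) (by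
      rw [hay]
      exact hG.right _ (hG.left _ hh₀.inv _ (hG.right _
        (hG.left _ (isAutomorph_unip _) _ hy.mem) _)) _)
    have hkey : ∀ n, (unip (t (σ (n + n₀))))ᵀ * q * unip (t (σ (n + n₀))) =
        ((h₀ * a (n + n₀))⁻¹)ᵀ * q * (h₀ * a (n + n₀))⁻¹ := by
      intro n
      obtain ⟨m, hm⟩ : ∃ m, m = n + n₀ := ⟨_, rfl⟩
      rw [← hm]
      have hm' : IsAutomorph (h₀ * a m) := hh₀.mul (hm ▸ haut n)
      have hmem : unip (t (σ m)) * (h₀ * a m) ∈ stabiliser y := by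
        refine ⟨(isAutomorph_unip _).mul hm', U m * U₀⁻¹, ?_⟩
        rw [Matrix.mul_assoc, Matrix.mul_assoc, hay]
        calc unip (t (σ m)) *
              (h₀ * (h₀⁻¹ * (unip (-(t (σ m))) * y * intMat (U m)) * intMat U₀⁻¹))
            = unip (t (σ m)) * (h₀ * h₀⁻¹) * unip (-(t (σ m))) * y *
                (intMat (U m) * intMat U₀⁻¹) := by simp only [Matrix.mul_assoc]
          _ = _ := by
              rw [mul_nonsing_inv h₀ hh₀.isUnit_det, Matrix.mul_one, unip_mul, add_neg_cancel,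
                unip_zero, Matrix.one_mul]
              simp only [intMat, OrthogonalUnits.rep_mul]
      have h := congrArg (fun M => ((h₀ * a m)⁻¹)ᵀ * M * (h₀ * a m)⁻¹) (hq _ hmem)
      simp only [transpose_mul] at h
      rw [← h]
      calc (unip (t (σ m)))ᵀ * q * unip (t (σ m))
          = ((h₀ * a m) * (h₀ * a m)⁻¹)ᵀ * ((unip (t (σ m)))ᵀ * q * unip (t (σ m))) *
              ((h₀ * a m) * (h₀ * a m)⁻¹) := by
            rw [mul_nonsing_inv _ hm'.isUnit_det, transpose_one, Matrix.one_mul, Matrix.mul_one]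
        _ = _ := by simp only [transpose_mul, Matrix.mul_assoc]
    refine ⟨fun n => σ (n + n₀), fun m n h => hσ (by omega), ((h₀⁻¹)ᵀ * q * h₀⁻¹) i k - q i k, ?_⟩
    have hl : Tendsto (fun n => ((h₀ * a (n + n₀))⁻¹)ᵀ * q * (h₀ * a (n + n₀))⁻¹) atTop
        (𝓝 ((h₀⁻¹)ᵀ * q * h₀⁻¹)) := by
      have h1 := (halim.comp (tendsto_add_atTop_nat n₀)).const_mul h₀
      rw [Matrix.mul_one] at h1
      have h2 := (continuousAt_matrix_inv h₀ (by
        rw [Ring.inverse_eq_inv']
        exact continuousAt_inv₀ hh₀.isUnit_det.ne_zero)).tendsto.comp h1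
      exact ((show Continuous fun M : Mat => Mᵀ * q * M by fun_prop).tendsto _).comp h2
    refine ((tendsto_pi_nhds.1 (tendsto_pi_nhds.1 hl i) k).sub_const (q i k)).congr fun n => ?_
    rw [← hkey, form_action, Matrix.add_apply, add_sub_cancel_left, Matrix.sum_apply]
    exact sum_congr rfl fun j _ => by rw [Matrix.smul_apply, smul_eq_mul]
  rw [form_action]
  convert add_zero q using 2
  refine sum_eq_zero fun j _ => ?_
  ext i k
  rw [Matrix.smul_apply, show formCoeff j q i k = 0 from congrFun (hzero i k) j]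
  simp

/-- The symmetric forms invariant under the stabiliser of a compact orbit. -/
theorem IsCompactOrbit.form_eq_smul (hε : 0 < ε) {y : Mat} (hy : IsCompactOrbit ε y) {q : Mat}
    (hs : qᵀ = q) (hq : ∀ h ∈ stabiliser y, hᵀ * q * h = q) : q = q 0 2 • stdForm := by
  have hJ : IsAutomorph stdForm := isAutomorph_stdForm
  have hJT : stdFormᵀ = stdForm := by
    ext i j; fin_cases i <;> fin_cases j <;> simp [stdForm]
  have h1 := hy.form_fixed hε hq
  have h2 := (hy.translate hJ).form_fixed hε (q := stdForm * q * stdForm) (by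
    rintro h ⟨hh, U, hU⟩
    have hmem : stdForm * h * stdForm ∈ stabiliser y := by
      refine ⟨(hJ.mul hh).mul hJ, U, ?_⟩
      rw [Matrix.mul_assoc, Matrix.mul_assoc, hU, ← Matrix.mul_assoc, ← Matrix.mul_assoc,
        stdForm_mul_self, Matrix.one_mul]
    calc hᵀ * (stdForm * q * stdForm) * h
        = (stdForm * stdForm) * (hᵀ * (stdForm * q * stdForm) * h) * (stdForm * stdForm) := by
          rw [stdForm_mul_self, Matrix.one_mul, Matrix.mul_one]
      _ = stdForm * ((stdForm * h * stdForm)ᵀ * q * (stdForm * h * stdForm)) * stdForm := by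
          simp only [transpose_mul, hJT, Matrix.mul_assoc]
      _ = stdForm * q * stdForm := by rw [hq _ hmem])
  have e : ∀ i j, q j i = q i j := fun i j => congrFun (congrFun hs i) j
  have E := fun t i j => congrFun (congrFun (h1 t) i) j
  have h01 := E 1 0 1
  have h11 := E 1 1 1
  have h12 := E 1 1 2
  have h22 := E 1 2 2
  have h22' := E (-1) 2 2
  simp [unip, Matrix.mul_apply, Fin.sum_univ_three, e 0 1, e 0 2, e 1 2]
    at h01 h11 h12 h22 h22'
  have q00 : q 0 0 = 0 := by linarith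
  have q01 : q 0 1 = 0 := by linarith
  have q11 : q 1 1 = -q 0 2 := by rw [q00, q01] at h12; linarith
  have q12 : q 1 2 = 0 := by linarith
  have hp := congrFun (congrFun (h2 1) 0) 1
  simp [unip, stdForm, Matrix.mul_apply, Matrix.vecMul, dotProduct, Fin.sum_univ_three, q12, e 1 2]
    at hp
  ext i j
  fin_cases i <;> fin_cases j <;>
    simp [stdForm, q00, q01, q11, q12, e 0 1, e 0 2, e 1 2, hp]

theorem exists_clear_denominators (f : Fin 3 → Fin 3 → ℚ) :
    ∃ (D : ℕ) (B : Matrix (Fin 3) (Fin 3) ℤ), 0 < D ∧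
      B.map (fun z : ℤ => (z : ℝ)) = (D : ℝ) • Matrix.of fun a b => (f a b : ℝ) := by
  obtain ⟨g, hg⟩ : ∃ g : Fin 3 × Fin 3 → ℕ, g = fun p => (f p.1 p.2).den := ⟨_, rfl⟩
  refine ⟨∏ p, g p, Matrix.of fun a b => (f a b).num * ((∏ p, g p) / g (a, b) : ℕ),
    prod_pos fun p _ => hg ▸ Rat.den_pos _, ?_⟩
  ext a b
  have hdvd : g (a, b) ∣ ∏ p, g p := dvd_prod_of_mem g (mem_univ _)
  have hgab : g (a, b) = (f a b).den := by rw [hg]
  rw [hgab] at hdvd
  simp only [Matrix.map_apply, Matrix.smul_apply, Matrix.of_apply, smul_eq_mul, hgab]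
  rw [Int.cast_mul, Int.cast_natCast, Nat.cast_div hdvd (Nat.cast_ne_zero.2 (f a b).den_ne_zero),
    Rat.cast_def]
  ring

/-- **Margulis's orbit theorem.** -/
theorem exists_integral_of_avoiding (hε : 0 < ε) {x : Mat} (hx : x ∈ Avoiding ε) :
    ∃ (c : ℝ) (B : Matrix (Fin 3) (Fin 3) ℤ), pull x = c • B.map (fun z : ℤ => (z : ℝ)) := by
  obtain ⟨y, hy, h, hh, V, rfl⟩ := exists_compactOrbit hε hx
  have hyu := isUnit_det_of_abs hy.mem.1
  obtain ⟨i, j, hij⟩ : ∃ i j, pull y i j ≠ 0 := by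
    by_contra hc
    push Not at hc
    have h := det_pull hy.mem.1
    rw [show pull y = 0 from Matrix.ext hc, det_zero] at h
    exact zero_ne_one h
  obtain ⟨φ, hφ⟩ : ∃ φ : ℝ →ₗ[ℚ] ℚ, φ (pull y i j) = 1 := by
    obtain ⟨φ, hφ⟩ := Module.Projective.exists_dual_ne_zero ℚ hij
    exact ⟨(φ (pull y i j))⁻¹ • φ, by simp [inv_mul_cancel₀ hφ]⟩
  obtain ⟨R, hR⟩ : ∃ R : Mat, R = (pull y).map fun r => (φ r : ℝ) := ⟨_, rfl⟩
  have hφmul : ∀ (z : ℤ) (r : ℝ), (φ ((z : ℝ) * r) : ℝ) = z * φ r := fun z r => by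
    rw [← zsmul_eq_mul, map_zsmul, zsmul_eq_mul]
    push_cast
    rfl
  have hmap : ∀ (A B : Matrix (Fin 3) (Fin 3) ℤ) (P : Mat),
      (A.map (fun z : ℤ => (z : ℝ)) * P * B.map fun z : ℤ => (z : ℝ)).map
          (fun r => (φ r : ℝ)) =
        A.map (fun z : ℤ => (z : ℝ)) * P.map (fun r => (φ r : ℝ)) *
          B.map fun z : ℤ => (z : ℝ) := by
    intro A B P
    ext a b
    simp only [Matrix.map_apply, Matrix.mul_apply, Finset.sum_mul, map_sum, Rat.cast_sum]
    refine sum_congr rfl fun k _ => sum_congr rfl fun l _ => ?_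
    rw [show (A a l : ℝ) * P l k * (B k b : ℝ) = ((A a l * B k b : ℤ) : ℝ) * P l k by
      push_cast; ring, hφmul]
    push_cast
    ring
  have hq := hy.form_eq_smul hε (q := (y⁻¹)ᵀ * R * y⁻¹) (by
    have hRs : Rᵀ = R := by rw [hR, ← transpose_map, transpose_pull]
    simp only [transpose_mul, transpose_transpose, hRs, Matrix.mul_assoc]) (by
    rintro k ⟨hk, U, hU⟩
    have hinvk : y⁻¹ * k = intMat U * y⁻¹ := by
      calc y⁻¹ * k = y⁻¹ * (k * y) * y⁻¹ := by
            rw [← Matrix.mul_assoc, Matrix.mul_assoc _ y, mul_nonsing_inv y hyu, Matrix.mul_one]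
        _ = _ := by rw [hU, ← Matrix.mul_assoc, nonsing_inv_mul y hyu, Matrix.one_mul]
    have hP : (intMat U)ᵀ * pull y * intMat U = pull y := by
      rw [← pull_mul, ← hU, pull_automorph_mul hk]
    have hRU : (intMat U)ᵀ * R * intMat U = R := by
      rw [hR]
      conv_rhs => rw [← hP]
      rw [intMat, OrthogonalUnits.rep, OrthogonalUnits.toReal, ← transpose_map, hmap]
    calc kᵀ * ((y⁻¹)ᵀ * R * y⁻¹) * k = (y⁻¹ * k)ᵀ * R * (y⁻¹ * k) := by
          simp only [transpose_mul, Matrix.mul_assoc]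
      _ = (y⁻¹)ᵀ * ((intMat U)ᵀ * R * intMat U) * y⁻¹ := by
          rw [hinvk]; simp only [transpose_mul, Matrix.mul_assoc]
      _ = _ := by rw [hRU])
  obtain ⟨c, hc⟩ : ∃ c, c = ((y⁻¹)ᵀ * R * y⁻¹) 0 2 := ⟨_, rfl⟩
  rw [← hc] at hq
  have hRy : R = c • pull y := by
    have h := congrArg (fun M => yᵀ * M * y) hq
    simp only [Matrix.mul_smul, Matrix.smul_mul] at h
    rw [pull, ← h]
    calc R = (y⁻¹ * y)ᵀ * R * (y⁻¹ * y) := by
          rw [nonsing_inv_mul y hyu, transpose_one, Matrix.one_mul, Matrix.mul_one]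
      _ = _ := by simp only [transpose_mul, Matrix.mul_assoc]
  have hc0 : c ≠ 0 := fun h0 => by
    have := congrFun (congrFun hRy i) j
    simp [hR, h0, hφ] at this
  obtain ⟨D, B, hD0, hB⟩ := exists_clear_denominators fun a b => φ (pull y a b)
  have hBR : B.map (fun z : ℤ => (z : ℝ)) = (D : ℝ) • R := by rw [hB, hR]; rfl
  refine ⟨((D : ℝ) * c)⁻¹,
    (V : Matrix (Fin 3) (Fin 3) ℤ)ᵀ * B * (V : Matrix (Fin 3) (Fin 3) ℤ), ?_⟩
  rw [Matrix.mul_assoc, pull_automorph_mul hh, pull_mul]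
  have hVm : ((V : Matrix (Fin 3) (Fin 3) ℤ)ᵀ * B * (V : Matrix (Fin 3) (Fin 3) ℤ)).map
      (fun z : ℤ => (z : ℝ)) = (intMat V)ᵀ * B.map (fun z : ℤ => (z : ℝ)) * intMat V := by
    rw [intMat, OrthogonalUnits.rep, OrthogonalUnits.toReal, ← transpose_map]
    show (Int.castRingHom ℝ).mapMatrix _ = _
    rw [map_mul, map_mul]
    rfl
  rw [hVm, hBR, hRy, Matrix.mul_smul, Matrix.mul_smul, Matrix.smul_mul, Matrix.smul_mul,
    smul_smul, smul_smul, mul_assoc ((D : ℝ) * c)⁻¹,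
    inv_mul_cancel₀ (mul_ne_zero (Nat.cast_ne_zero.2 hD0.ne') hc0),
    one_smul]

end FA.Oppenheim
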