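import Fermat.Agent.Oppenheim.Orbit
import Mathlib.Analysis.Matrix.Spectrum
import Mathlib.Analysis.SpecialFunctions.Pow.Real

/-!
# From `n` variables to three

A symmetric ternary matrix of signature `(2, 1)` or `(1, 2)` is a multiple of the form of a
unimodular lattice, so by Margulis's orbit theorem it is proportional to an integral one as soon
as its values at nonzero integer vectors avoid an interval about zero. A form in `n ≥ 3` variables
with this property has only such ternary sections, which makes it proportional to an integral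
form.
-/

set_option autoImplicit false

noncomputable section

namespace FA.Oppenheim

open Matrix Filter Finset
open scoped Topology

variable {n : ℕ}

/-- The value of the form with matrix `A`. -/
def matVal {m : Type*} [Fintype m] (A : Matrix m m ℝ) (x : m → ℝ) : ℝ := x ⬝ᵥ (A *ᵥ x)

/-- Real numbers in a fixed line over `ℚ`. -/
theorem exists_integral_of_ratio (A : Matrix (Fin n) (Fin n) ℝ) {a : ℝ}
    (h : ∀ i j, ∃ r : ℚ, A i j = (r : ℝ) * a) :
    ∃ (c : ℝ) (B : Matrix (Fin n) (Fin n) ℤ), A = c • B.map (fun z : ℤ => (z : ℝ)) := by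
  choose f hf using h
  obtain ⟨g, hg⟩ : ∃ g : Fin n × Fin n → ℕ, g = fun p => (f p.1 p.2).den := ⟨_, rfl⟩
  refine ⟨a / (∏ p, g p : ℕ), Matrix.of fun i j => (f i j).num * ((∏ p, g p) / g (i, j) : ℕ), ?_⟩
  have hP : 0 < ∏ p, g p := prod_pos fun p _ => hg ▸ Rat.den_pos _
  ext i j
  have hdvd : g (i, j) ∣ ∏ p, g p := dvd_prod_of_mem g (mem_univ _)
  have hgij : g (i, j) = (f i j).den := by rw [hg]
  rw [hgij] at hdvd
  simp only [Matrix.map_apply, Matrix.smul_apply, Matrix.of_apply, smul_eq_mul, hgij]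
  rw [Int.cast_mul, Int.cast_natCast, Nat.cast_div hdvd (Nat.cast_ne_zero.2 (f i j).den_ne_zero),
    hf, Rat.cast_def]
  have h1 : ((∏ p, g p : ℕ) : ℝ) ≠ 0 := Nat.cast_ne_zero.2 hP.ne'
  field_simp

/-- A real symmetric matrix in an orthogonal basis of eigenvectors. -/
theorem exists_diagonalising {A : Matrix (Fin n) (Fin n) ℝ} (hs : A.IsSymm) :
    ∃ (U : Matrix (Fin n) (Fin n) ℝ) (e : Fin n → ℝ),
      Uᵀ * A * U = diagonal e ∧ Uᵀ * U = 1 := by
  have hA : A.IsHermitian := by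
    rwa [Matrix.IsHermitian, conjTranspose_eq_transpose_of_trivial]
  refine ⟨hA.eigenvectorUnitary.1, hA.eigenvalues, ?_, ?_⟩
  · have h := hA.conjStarAlgAut_star_eigenvectorUnitary
    simpa [Unitary.conjStarAlgAut_apply, star_eq_conjTranspose,
      conjTranspose_eq_transpose_of_trivial] using h
  · have h := Unitary.star_mul_self_of_mem hA.eigenvectorUnitary.2
    simpa [star_eq_conjTranspose, conjTranspose_eq_transpose_of_trivial] using h

theorem matVal_diagonal (e : Fin n → ℝ) (x : Fin n → ℝ) :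
    matVal (diagonal e) x = ∑ i, e i * x i ^ 2 := by
  simp only [matVal, dotProduct, mulVec_diagonal]
  exact sum_congr rfl fun i _ => by ring

theorem matVal_mulVec {m : Type*} [Fintype m] (A : Matrix (Fin n) (Fin n) ℝ)
    (W : Matrix (Fin n) m ℝ) (x : m → ℝ) : matVal A (W *ᵥ x) = matVal (Wᵀ * A * W) x := by
  rw [matVal, matVal, Matrix.mul_assoc, ← mulVec_mulVec x Wᵀ, ← mulVec_mulVec, dotProduct_mulVec x,
    vecMul_transpose]

theorem eigen_signs {A U : Matrix (Fin n) (Fin n) ℝ} {e : Fin n → ℝ}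
    (hU : Uᵀ * A * U = diagonal e) (hO : Uᵀ * U = 1) (hd : A.det ≠ 0)
    (hpos : ∃ x, 0 < matVal A x) (hneg : ∃ x, matVal A x < 0) :
    (∀ i, e i ≠ 0) ∧ (∃ a, 0 < e a) ∧ ∃ b, e b < 0 := by
  have hO' : U * Uᵀ = 1 := mul_eq_one_comm.1 hO
  have hdetU : Uᵀ.det * U.det = 1 := by rw [← det_mul, hO, det_one]
  refine ⟨fun i hi => hd ?_, ?_, ?_⟩
  · have h := congrArg Matrix.det hU
    rw [det_mul, det_mul, det_diagonal, prod_eq_zero (mem_univ i) hi] at h
    calc A.det = Uᵀ.det * A.det * U.det := by rw [mul_right_comm, hdetU, one_mul]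
      _ = 0 := h
  · obtain ⟨x, hx⟩ := hpos
    rw [← one_mulVec x, ← hO', ← mulVec_mulVec, matVal_mulVec, hU, matVal_diagonal] at hx
    by_contra hc
    push Not at hc
    exact absurd hx (not_lt.2 (sum_nonpos fun i _ =>
      mul_nonpos_of_nonpos_of_nonneg (hc i) (sq_nonneg _)))
  · obtain ⟨x, hx⟩ := hneg
    rw [← one_mulVec x, ← hO', ← mulVec_mulVec, matVal_mulVec, hU, matVal_diagonal] at hx
    by_contra hc
    push Not at hc
    exact absurd hx (not_lt.2 (sum_nonneg fun i _ => mul_nonneg (hc i) (sq_nonneg _)))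

theorem exists_perm_signs {e : Fin 3 → ℝ} (h0 : ∀ i, e i ≠ 0) (hp : ∃ a, 0 < e a)
    (hn : ∃ b, e b < 0) : ∃ (σ : ℝ) (π : Equiv.Perm (Fin 3)), (σ = 1 ∨ σ = -1) ∧
      0 < σ * e (π 0) ∧ σ * e (π 1) < 0 ∧ σ * e (π 2) < 0 := by
  rcases lt_or_gt_of_ne (h0 0) with a | a <;> rcases lt_or_gt_of_ne (h0 1) with b | b <;>
    rcases lt_or_gt_of_ne (h0 2) with c | c
  · obtain ⟨i, hi⟩ := hp
    fin_cases i <;> simp_all <;> linarith
  · exact ⟨1, Equiv.swap 0 2, Or.inl rfl, by simp [c], by simp [Equiv.swap_apply_def, b],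
      by simp [a]⟩
  · exact ⟨1, Equiv.swap 0 1, Or.inl rfl, by simp [b], by simp [a],
      by simp [Equiv.swap_apply_def, c]⟩
  · exact ⟨-1, 1, Or.inr rfl, by simp [a], by simp [b], by simp [c]⟩
  · exact ⟨1, 1, Or.inl rfl, by simp [a], by simp [b], by simp [c]⟩
  · exact ⟨-1, Equiv.swap 0 1, Or.inr rfl, by simp [b], by simp [a],
      by simp [Equiv.swap_apply_def, c]⟩
  · exact ⟨-1, Equiv.swap 0 2, Or.inr rfl, by simp [c], by simp [Equiv.swap_apply_def, b],
      by simp [a]⟩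
  · obtain ⟨i, hi⟩ := hn
    fin_cases i <;> simp_all <;> linarith

/-- An indefinite ternary form is a multiple of the form of a unimodular lattice. -/
theorem exists_unimodular_pull {A : Mat} (hs : A.IsSymm) (hd : A.det ≠ 0)
    (hpos : ∃ x, 0 < matVal A x) (hneg : ∃ x, matVal A x < 0) :
    ∃ (c : ℝ) (g : Mat), c ≠ 0 ∧ |g.det| = 1 ∧ A = c • pull g := by
  obtain ⟨U, e, hU, hO⟩ := exists_diagonalising hs
  obtain ⟨h0, hp, hn⟩ := eigen_signs hU hO hd hpos hneg
  obtain ⟨σ, π, hσ, hq0, hq1, hq2⟩ := exists_perm_signs h0 hp hn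
  have hσσ : σ * σ = 1 := by rcases hσ with rfl | rfl <;> norm_num
  obtain ⟨d, hdd⟩ : ∃ d : Fin 3 → ℝ, d = fun i => (Real.sqrt |e (π i)|)⁻¹ := ⟨_, rfl⟩
  obtain ⟨W, hW⟩ : ∃ W : Mat, W = U.submatrix id π * diagonal d := ⟨_, rfl⟩
  have hWA : Wᵀ * A * W = σ • !![(1 : ℝ), 0, 0; 0, -1, 0; 0, 0, -1] := by
    have hsub : (U.submatrix id π)ᵀ * A * U.submatrix id π = diagonal (e ∘ π) := by
      rw [transpose_submatrix, ← submatrix_id_id A, ← submatrix_mul _ _ _ _ _ Function.bijective_id,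
        ← submatrix_mul _ _ _ _ _ Function.bijective_id, hU,
        submatrix_diagonal _ _ π.injective]
    have h1 : ∀ i : Fin 3, d i * (e (π i) * d i) = e (π i) / |e (π i)| := fun i => by
      rw [hdd]
      have := Real.mul_self_sqrt (abs_nonneg (e (π i)))
      have hs0 : Real.sqrt |e (π i)| ≠ 0 := (Real.sqrt_pos.2 (abs_pos.2 (h0 _))).ne'
      calc (Real.sqrt |e (π i)|)⁻¹ * (e (π i) * (Real.sqrt |e (π i)|)⁻¹)
          = e (π i) / (Real.sqrt |e (π i)| * Real.sqrt |e (π i)|) := by field_simp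
        _ = _ := by rw [this]
    calc Wᵀ * A * W = diagonal d * ((U.submatrix id π)ᵀ * A * U.submatrix id π) * diagonal d := by
          rw [hW, transpose_mul, diagonal_transpose]; simp only [Matrix.mul_assoc]
      _ = diagonal fun i => e (π i) / |e (π i)| := by
          rw [hsub, diagonal_mul_diagonal, diagonal_mul_diagonal]
          exact congrArg _ (funext fun i => by rw [Function.comp_apply, mul_assoc, h1])
      _ = _ := by
          have s0 : e (π 0) / |e (π 0)| = σ := by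
            rcases hσ with rfl | rfl
            · rw [abs_of_pos (by linarith), div_self (h0 _)]
            · rw [abs_of_neg (by linarith), div_neg, div_self (h0 _)]
          have s : ∀ i, σ * e i < 0 → e i / |e i| = -σ := fun i hi => by
            rcases hσ with rfl | rfl
            · rw [abs_of_neg (by linarith), div_neg, div_self (h0 _)]
            · rw [abs_of_pos (by linarith), div_self (h0 _), neg_neg]
          ext i j
          fin_cases i <;> fin_cases j <;> simp [diagonal, s0, s _ hq1, s _ hq2]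
  have hWu : IsUnit W.det := by
    refine isUnit_iff_ne_zero.2 fun h => ?_
    have := congrArg Matrix.det hWA
    rw [det_mul, det_mul, det_transpose, h] at this
    rcases hσ with rfl | rfl <;> simp [Matrix.det_fin_three] at this
  obtain ⟨g, hg⟩ : ∃ g : Mat, g = diagBasis * W⁻¹ := ⟨_, rfl⟩
  have hA : A = σ • pull g := by
    rw [hg, pull_mul, pull_diagBasis]
    calc A = (W * W⁻¹)ᵀ * A * (W * W⁻¹) := by
          rw [mul_nonsing_inv W hWu, transpose_one, Matrix.one_mul, Matrix.mul_one]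
      _ = (W⁻¹)ᵀ * (Wᵀ * A * W) * W⁻¹ := by simp only [transpose_mul, Matrix.mul_assoc]
      _ = _ := by rw [hWA, Matrix.mul_smul, Matrix.smul_mul]
  have hg0 : g.det ≠ 0 := fun h => by
    refine hd ?_
    rw [hA, det_smul, pull, det_mul, det_mul, h, mul_zero, mul_zero]
  obtain ⟨r, hr⟩ : ∃ r : ℝ, r = |g.det| ^ (-(1 / 3) : ℝ) := ⟨_, rfl⟩
  have hr0 : 0 < r := hr ▸ Real.rpow_pos_of_pos (abs_pos.2 hg0) _
  refine ⟨σ / r ^ 2, r • g, div_ne_zero ?_ (pow_ne_zero _ hr0.ne'), ?_, ?_⟩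
  · rcases hσ with rfl | rfl <;> norm_num
  · rw [det_smul, Fintype.card_fin, abs_mul, abs_pow, abs_of_pos hr0, hr, ← Real.rpow_natCast,
      ← Real.rpow_mul (abs_nonneg _)]
    norm_num [Real.rpow_neg_one, inv_mul_cancel₀ (abs_ne_zero.2 hg0)]
  · rw [hA, pull, pull, transpose_smul, Matrix.smul_mul, Matrix.smul_mul, Matrix.mul_smul,
      smul_smul, smul_smul]
    congr 1
    field_simp

/-- **The ternary case.** -/
theorem integral_ternary {A : Mat} (hs : A.IsSymm) (hd : A.det ≠ 0)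
    (hpos : ∃ x, 0 < matVal A x) (hneg : ∃ x, matVal A x < 0) {ε : ℝ} (hε : 0 < ε)
    (h : ∀ v : Fin 3 → ℤ, v ≠ 0 → ε ≤ |matVal A fun k => (v k : ℝ)|) :
    ∃ (c : ℝ) (B : Matrix (Fin 3) (Fin 3) ℤ), A = c • B.map (fun z : ℤ => (z : ℝ)) := by
  obtain ⟨c, g, hc, hg, hA⟩ := exists_unimodular_pull hs hd hpos hneg
  have hx : g ∈ Avoiding (ε / |c|) := by
    refine ⟨hg, fun v hv => ?_⟩
    have h' := h v hv
    rw [hA, matVal, smul_mulVec, dotProduct_smul, smul_eq_mul, abs_mul, ← formVal_eq_pull] at h'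
    rw [div_le_iff₀ (abs_pos.2 hc)]
    linarith
  obtain ⟨c', B, hB⟩ := exists_integral_of_avoiding (div_pos hε (abs_pos.2 hc)) hx
  exact ⟨c * c', B, by rw [hA, hB, smul_smul]⟩

theorem tendsto_floor_div (r : ℝ) (d : ℤ) :
    Tendsto (fun N : ℕ => ((⌊(N : ℝ) * r⌋ + d : ℤ) : ℝ) / N) atTop (𝓝 r) := by
  have h1 : Tendsto (fun N : ℕ => (⌊(N : ℝ) * r⌋ : ℝ) / N) atTop (𝓝 r) := by
    refine tendsto_of_tendsto_of_tendsto_of_le_of_le' (g := fun N : ℕ => r - 1 / (N : ℝ)) ?_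
      (tendsto_const_nhds (x := r)) ?_ ?_
    · simpa using (tendsto_one_div_atTop_nhds_zero_nat (𝕜 := ℝ)).const_sub r
    · filter_upwards [eventually_gt_atTop 0] with N hN
      have hN' : (0 : ℝ) < N := Nat.cast_pos.2 hN
      rw [le_div_iff₀ hN', sub_mul, div_mul_cancel₀ _ hN'.ne']
      have := Int.sub_one_lt_floor ((N : ℝ) * r)
      linarith
    · filter_upwards [eventually_gt_atTop 0] with N hN
      have hN' : (0 : ℝ) < N := Nat.cast_pos.2 hN
      rw [div_le_iff₀ hN', mul_comm r]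
      exact Int.floor_le _
  have h := h1.add (tendsto_natCast_atTop_atTop.const_div_atTop (d : ℝ))
  rw [add_zero] at h
  refine h.congr fun N => ?_
  push_cast
  ring

/-- A ternary section is fit for the ternary case. -/
def GoodSection (A : Matrix (Fin n) (Fin n) ℝ) (W : Matrix (Fin n) (Fin 3) ℝ) : Prop :=
  (Wᵀ * A * W).det ≠ 0 ∧ 0 < (Wᵀ * A * W) 0 0 ∧ (Wᵀ * A * W) 1 1 < 0

theorem GoodSection.smul {A : Matrix (Fin n) (Fin n) ℝ} {W : Matrix (Fin n) (Fin 3) ℝ}
    (h : GoodSection A W) {c : ℝ} (hc : c ≠ 0) : GoodSection A (c • W) := by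
  have e : (c • W)ᵀ * A * (c • W) = c ^ 2 • (Wᵀ * A * W) := by
    rw [transpose_smul, Matrix.smul_mul, Matrix.smul_mul, Matrix.mul_smul, smul_smul, ← sq]
  obtain ⟨h1, h2, h3⟩ := h
  refine ⟨?_, ?_, ?_⟩ <;> rw [e]
  · rw [det_smul]
    exact mul_ne_zero (pow_ne_zero _ (pow_ne_zero _ hc)) h1
  · rw [Matrix.smul_apply, smul_eq_mul]
    positivity
  · rw [Matrix.smul_apply, smul_eq_mul]
    exact mul_neg_of_pos_of_neg (by positivity) h3

theorem exists_good_section {A : Matrix (Fin n) (Fin n) ℝ} (hn : 3 ≤ n) (hs : A.IsSymm)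
    (hd : A.det ≠ 0) (hpos : ∃ x, 0 < matVal A x) (hneg : ∃ x, matVal A x < 0) :
    ∃ R : Matrix (Fin n) (Fin 3) ℝ, GoodSection A R := by
  obtain ⟨U, e, hU, hO⟩ := exists_diagonalising hs
  obtain ⟨h0, ⟨a, ha⟩, b, hb⟩ := eigen_signs hU hO hd hpos hneg
  have hab : a ≠ b := fun h => by rw [h] at ha; linarith
  obtain ⟨k, hk⟩ : ∃ k, k ∉ ({a, b} : Finset (Fin n)) := by
    by_contra hc
    push Not at hc
    have := card_le_card (fun k _ => hc k : (univ : Finset (Fin n)) ⊆ {a, b})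
    rw [card_univ, Fintype.card_fin, card_pair hab] at this
    omega
  simp only [mem_insert, mem_singleton, not_or] at hk
  obtain ⟨f, hf⟩ : ∃ f : Fin 3 → Fin n, f = ![a, b, k] := ⟨_, rfl⟩
  have hfi : Function.Injective f := by
    intro i j hij
    fin_cases i <;> fin_cases j <;>
      simp [hf, hab, hab.symm, hk.1, hk.2, Ne.symm hk.1, Ne.symm hk.2] at hij ⊢
  have e1 : (U.submatrix id f)ᵀ * A * U.submatrix id f = diagonal (e ∘ f) := by
    rw [transpose_submatrix, ← submatrix_id_id A, ← submatrix_mul _ _ _ _ _ Function.bijective_id,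
      ← submatrix_mul _ _ _ _ _ Function.bijective_id, hU, submatrix_diagonal _ _ hfi]
  refine ⟨U.submatrix id f, ?_, ?_, ?_⟩ <;> rw [e1]
  · rw [det_diagonal]
    exact prod_ne_zero_iff.2 fun i _ => h0 _
  · simpa [hf] using ha
  · simpa [hf] using hb

theorem isOpen_goodSection (A : Matrix (Fin n) (Fin n) ℝ) : IsOpen {W | GoodSection A W} := by
  have hc : Continuous fun W : Matrix (Fin n) (Fin 3) ℝ => Wᵀ * A * W := by fun_prop
  exact (isOpen_ne_fun (continuous_id.matrix_det.comp hc) continuous_const).inter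
    ((isOpen_lt continuous_const (hc.matrix_elem 0 0)).inter
      (isOpen_lt (hc.matrix_elem 1 1) continuous_const))

/-- **A form not proportional to an integral one has such a ternary section.** -/
theorem exists_irrational_section {A : Matrix (Fin n) (Fin n) ℝ} (hn : 3 ≤ n) (hs : A.IsSymm)
    (hd : A.det ≠ 0) (hpos : ∃ x, 0 < matVal A x) (hneg : ∃ x, matVal A x < 0)
    (hirr : ∀ (c : ℝ) (B : Matrix (Fin n) (Fin n) ℤ), A ≠ c • B.map (fun z : ℤ => (z : ℝ))) :
    ∃ W : Matrix (Fin n) (Fin 3) ℤ, GoodSection A (W.map fun z : ℤ => (z : ℝ)) ∧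
      ∀ (c : ℝ) (B : Matrix (Fin 3) (Fin 3) ℤ),
        (W.map fun z : ℤ => (z : ℝ))ᵀ * A * (W.map fun z : ℤ => (z : ℝ)) ≠
          c • B.map (fun z : ℤ => (z : ℝ)) := by
  by_contra hcon
  push Not at hcon
  suffices hA : ∃ (c : ℝ) (B : Matrix (Fin n) (Fin n) ℤ), A = c • B.map (fun z : ℤ => (z : ℝ)) by
    obtain ⟨c, B, hB⟩ := hA
    exact hirr c B hB
  obtain ⟨R, hR⟩ := exists_good_section hn hs hd hpos hneg
  obtain ⟨W, hW⟩ : ∃ W : ℕ → (Fin n → ℤ) → Matrix (Fin n) (Fin 3) ℤ,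
      W = fun (N : ℕ) (δ : Fin n → ℤ) =>
      Matrix.of fun i j => ⌊(N : ℝ) * R i j⌋ + if j = 2 then δ i else 0 := ⟨_, rfl⟩
  have hev : ∀ δ, ∀ᶠ N in atTop, GoodSection A ((W N δ).map fun z : ℤ => (z : ℝ)) := by
    intro δ
    have hlim : Tendsto (fun N : ℕ => (N : ℝ)⁻¹ • (W N δ).map fun z : ℤ => (z : ℝ)) atTop
        (𝓝 R) := by
      refine tendsto_pi_nhds.2 fun i => tendsto_pi_nhds.2 fun j => ?_
      refine (tendsto_floor_div (R i j) (if j = 2 then δ i else 0)).congr fun N => ?_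
      simp [hW, div_eq_inv_mul]
    filter_upwards [hlim.eventually ((isOpen_goodSection A).mem_nhds hR), eventually_gt_atTop 0]
      with N hN hN0
    have hN' : (N : ℝ) ≠ 0 := Nat.cast_ne_zero.2 hN0.ne'
    have := GoodSection.smul hN hN'
    rwa [smul_smul, mul_inv_cancel₀ hN', one_smul] at this
  obtain ⟨N, hN⟩ := (((hev 0).and (eventually_all.2 fun i =>
    hev (Pi.single i 1))).and (eventually_all.2 fun p : Fin n × Fin n =>
      hev (Pi.single p.1 1 + Pi.single p.2 1))).exists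
  obtain ⟨⟨hN0, hN1⟩, hN2⟩ := hN
  obtain ⟨w, hw⟩ : ∃ w : Fin n → ℤ, w = fun i => ⌊(N : ℝ) * R i 2⌋ := ⟨_, rfl⟩
  obtain ⟨v₁, hv₁⟩ : ∃ v₁ : Fin n → ℝ, v₁ = fun i => (⌊(N : ℝ) * R i 0⌋ : ℝ) := ⟨_, rfl⟩
  have hrat : ∀ δ, GoodSection A ((W N δ).map fun z : ℤ => (z : ℝ)) →
      ∃ r : ℚ, matVal A (fun i => ((w i + δ i : ℤ) : ℝ)) = (r : ℝ) * matVal A v₁ := by
    intro δ hgood
    obtain ⟨V, hV⟩ : ∃ V, V = (W N δ).map fun z : ℤ => (z : ℝ) := ⟨_, rfl⟩
    obtain ⟨T, hT⟩ : ∃ T : Mat, T = Vᵀ * A * V := ⟨_, rfl⟩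
    have hT2 : 0 < T 0 0 := by rw [hT, hV]; exact hgood.2.1
    have hval : ∀ i : Fin 3, matVal A (fun k => V k i) = T i i := fun i => by
      rw [show (fun k => V k i) = V *ᵥ Pi.single i 1 by
        funext k; simp, matVal_mulVec, ← hT]
      simp [matVal]
    obtain ⟨c, B, hB⟩ := hcon (W N δ) hgood
    rw [← hV, ← hT] at hB
    have hB00 : c * (B 0 0 : ℝ) ≠ 0 := by
      have : T 0 0 = c * (B 0 0 : ℝ) := by rw [hB]; simp
      exact this ▸ hT2.ne'
    refine ⟨(B 2 2 : ℚ) / B 0 0, ?_⟩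
    have h00 := hval 0
    have h22 := hval 2
    rw [hB] at h00 h22
    simp only [Matrix.smul_apply, Matrix.map_apply, smul_eq_mul, hV, hW, Matrix.of_apply] at h00 h22
    simp at h00 h22
    rw [hv₁, hw]
    simp only [Int.cast_add]
    rw [h00, h22]
    push_cast
    field_simp [(mul_ne_zero_iff.1 hB00).2]
  refine exists_integral_of_ratio A (a := matVal A v₁) fun i j => ?_
  obtain ⟨r0, e0⟩ := hrat 0 hN0
  obtain ⟨r1, e1⟩ := hrat _ (hN1 i)
  obtain ⟨r2, e2⟩ := hrat _ (hN1 j)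
  obtain ⟨r3, e3⟩ := hrat _ (hN2 (i, j))
  refine ⟨(r3 - r1 - r2 + r0) / 2, ?_⟩
  obtain ⟨x, hx⟩ : ∃ x : Fin n → ℝ, x = fun k => (w k : ℝ) := ⟨_, rfl⟩
  have cast1 : ∀ l : Fin n, (fun k => ((w k + (Pi.single l 1 : Fin n → ℤ) k : ℤ) : ℝ)) =
      x + Pi.single l 1 := fun l => by
    funext k
    simp only [hx, Pi.add_apply, Pi.single_apply]
    split_ifs <;> simp
  have cast2 : (fun k => ((w k + (Pi.single i 1 + Pi.single j 1 : Fin n → ℤ) k : ℤ) : ℝ)) =
      x + Pi.single i 1 + Pi.single j 1 := by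
    funext k
    simp only [hx, Pi.add_apply, Pi.single_apply]
    split_ifs <;> simp
    all_goals ring
  simp only [Pi.zero_apply, add_zero, ← hx] at e0
  rw [cast1] at e1 e2
  rw [cast2] at e3
  simp only [matVal, mulVec_add, dotProduct_add, add_dotProduct] at e0 e1 e2 e3
  have hij : (Pi.single i 1 : Fin n → ℝ) ⬝ᵥ (A *ᵥ Pi.single j 1) = A i j := by simp
  have hji : (Pi.single j 1 : Fin n → ℝ) ⬝ᵥ (A *ᵥ Pi.single i 1) = A i j := by
    simp [hs.apply i j]
  rw [hij, hji] at e3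
  push_cast
  simp only [matVal]
  linarith

theorem mulVec_ne_zero_of_section {A : Matrix (Fin n) (Fin n) ℝ} {W : Matrix (Fin n) (Fin 3) ℤ}
    (hW : GoodSection A (W.map fun z : ℤ => (z : ℝ))) {k : Fin 3 → ℤ} (hk : k ≠ 0) :
    W *ᵥ k ≠ 0 := by
  intro h0
  refine hk ?_
  have hmap : (W.map fun z : ℤ => (z : ℝ)) *ᵥ (fun j => (k j : ℝ)) = 0 := by
    funext i
    have h := congrArg (Int.cast (R := ℝ)) (congrFun h0 i)
    simpa [mulVec, dotProduct] using h
  have h1 : ((W.map fun z : ℤ => (z : ℝ))ᵀ * A * W.map fun z : ℤ => (z : ℝ)) *ᵥ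
      (fun j => (k j : ℝ)) = 0 := by
    rw [← mulVec_mulVec, hmap, mulVec_zero]
  funext j
  simpa using congrFun (eq_zero_of_mulVec_eq_zero hW.1 h1) j

theorem matVal_section (A : Matrix (Fin n) (Fin n) ℝ) (W : Matrix (Fin n) (Fin 3) ℤ)
    (k : Fin 3 → ℤ) : (matVal A fun i => ((W *ᵥ k) i : ℝ)) =
      matVal ((W.map fun z : ℤ => (z : ℝ))ᵀ * A * W.map fun z : ℤ => (z : ℝ))
        fun j => (k j : ℝ) := by
  rw [← matVal_mulVec]
  refine congrArg _ (funext fun i => ?_)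
  simp [mulVec, dotProduct]

theorem isSymm_section {A : Matrix (Fin n) (Fin n) ℝ} (hs : A.IsSymm)
    (V : Matrix (Fin n) (Fin 3) ℝ) : (Vᵀ * A * V).IsSymm := by
  rw [Matrix.IsSymm, transpose_mul, transpose_mul, transpose_transpose, hs.eq, Matrix.mul_assoc]

/-- **All sections rational makes the form rational.** -/
theorem integral_of_avoiding {A : Matrix (Fin n) (Fin n) ℝ} (hn : 3 ≤ n) (hs : A.IsSymm)
    (hd : A.det ≠ 0) (hpos : ∃ x, 0 < matVal A x) (hneg : ∃ x, matVal A x < 0) {ε : ℝ}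
    (hε : 0 < ε) (h : ∀ v : Fin n → ℤ, v ≠ 0 → ε ≤ |matVal A fun k => (v k : ℝ)|) :
    ∃ (c : ℝ) (B : Matrix (Fin n) (Fin n) ℤ), A = c • B.map (fun z : ℤ => (z : ℝ)) := by
  by_contra hcon
  push Not at hcon
  obtain ⟨W, hW, hirr⟩ := exists_irrational_section hn hs hd hpos hneg hcon
  obtain ⟨c, B, hB⟩ := integral_ternary (isSymm_section hs _) hW.1
    ⟨Pi.single 0 1, by simpa [matVal] using hW.2.1⟩ ⟨Pi.single 1 1, by simpa [matVal] using hW.2.2⟩
    hε fun k hk => matVal_section A W k ▸ h _ (mulVec_ne_zero_of_section hW hk)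
  exact hirr c B hB

end FA.Oppenheim
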