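import Fermat.Agent.Oppenheim.Reduction
import Fermat.Agent.Reduction.Hermite

/-!
# Small values of both signs

A binary form of determinant `d ≠ 0` that is somewhere negative takes a value in `[-3 √|d|, 0)` at
an integer vector. Hence an anisotropic ternary form with small positive values has small negative
values: split off the small value and steer the square against the binary quotient. So the
values of an irrational indefinite form without rational zeros are dense.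
-/

set_option autoImplicit false

noncomputable section

namespace FA.Oppenheim

open Matrix Filter Finset
open scoped Topology
open FA.Reduction (quad bord quad_bord quad_congr)

variable {n : ℕ}

theorem matVal_eq_quad (A : Matrix (Fin n) (Fin n) ℝ) (x : Fin n → ℝ) : matVal A x = quad A x := rfl

theorem matVal_neg (A : Matrix (Fin n) (Fin n) ℝ) (x : Fin n → ℝ) :
    matVal (-A) x = -matVal A x := by
  simp [matVal, neg_mulVec]

theorem matVal_smul (A : Matrix (Fin n) (Fin n) ℝ) (c : ℝ) (x : Fin n → ℝ) :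
    matVal A (c • x) = c ^ 2 * matVal A x := by
  simp only [matVal, mulVec_smul, dotProduct_smul, smul_dotProduct, smul_eq_mul]
  ring

theorem cast_smul_vec (g : ℤ) (w : Fin n → ℤ) :
    (fun i => ((g • w) i : ℝ)) = (g : ℝ) • fun i => (w i : ℝ) := by
  funext i; simp

/-- An integer strictly below `x` by at most one. -/
theorem exists_int_window (x : ℝ) : ∃ k : ℤ, x - 1 ≤ (k : ℝ) ∧ (k : ℝ) < x := by
  refine ⟨⌈x⌉ - 1, ?_, ?_⟩
  · push_cast
    linarith [Int.le_ceil x]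
  · push_cast
    linarith [Int.ceil_lt_add_one x]

/-- **Small negative values of binary forms.** -/
theorem exists_neg_value_binary {T : Matrix (Fin 2) (Fin 2) ℝ} (hs : T.IsSymm) (hd : T.det ≠ 0)
    (hneg : ∃ x, matVal T x < 0) :
    ∃ v : Fin 2 → ℤ, matVal T (fun i => (v i : ℝ)) < 0 ∧
      -(3 * Real.sqrt |T.det|) ≤ matVal T fun i => (v i : ℝ) := by
  obtain ⟨P, hP, hPd, hPT⟩ := FA.Reduction.exists_majorant hs hd
  obtain ⟨v₀, hv₀, hle⟩ := FA.Reduction.exists_short_vector 1 P hP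
  obtain ⟨g, w, hg, hw, rfl⟩ := FA.Reduction.exists_primitive_smul hv₀
  obtain ⟨U, hU, hUcol⟩ := FA.Reduction.exists_unimodular_col hw
  obtain ⟨V, hV⟩ : ∃ V : Matrix (Fin 2) (Fin 2) ℝ, V = U.map fun z : ℤ => (z : ℝ) := ⟨_, rfl⟩
  have hVd : V.det * V.det = 1 := by
    have : V.det = ((U.det : ℤ) : ℝ) := by
      rw [hV]; exact ((Int.castRingHom ℝ).map_det U).symm
    rw [this]
    rcases Int.isUnit_iff.1 hU with h | h <;> simp [h]
  obtain ⟨S, hS⟩ : ∃ S : Matrix (Fin 2) (Fin 2) ℝ, S = Vᵀ * T * V := ⟨_, rfl⟩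
  have hSd : S.det = T.det := by
    rw [hS, det_mul, det_mul, det_transpose, mul_right_comm, hVd, one_mul]
  obtain ⟨a, ha⟩ : ∃ a, a = S 0 0 := ⟨_, rfl⟩
  obtain ⟨b, hb⟩ : ∃ b, b = S 0 1 := ⟨_, rfl⟩
  obtain ⟨c, hc⟩ : ∃ c, c = S 1 1 := ⟨_, rfl⟩
  have hb' : S 1 0 = b := by
    rw [hb, hS]
    exact (IsSymm.apply (by
      rw [Matrix.IsSymm, transpose_mul, transpose_mul, transpose_transpose, hs.eq,
        Matrix.mul_assoc]) 0 1)
  have hdet : T.det = a * c - b ^ 2 := by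
    rw [← hSd, det_fin_two, hb', ← ha, ← hb, ← hc]; ring
  have hval : ∀ x y : ℝ, matVal T (V *ᵥ ![x, y]) = a * x ^ 2 + 2 * b * x * y + c * y ^ 2 := by
    intro x y
    rw [matVal_mulVec, ← hS]
    simp [matVal, dotProduct, mulVec, Fin.sum_univ_two, hb', ← ha, ← hb, ← hc]
    ring
  have hint : ∀ x y : ℤ, (fun i => ((U *ᵥ ![x, y]) i : ℝ)) = V *ᵥ ![(x : ℝ), (y : ℝ)] := by
    intro x y
    funext i
    rw [hV]
    simp [mulVec, dotProduct, Fin.sum_univ_two]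
  have hfin : ∀ x : ℤ, a * (x : ℝ) ^ 2 + 2 * b * x + c < 0 →
      -(3 * Real.sqrt |T.det|) ≤ a * (x : ℝ) ^ 2 + 2 * b * x + c →
        ∃ v : Fin 2 → ℤ, matVal T (fun i => (v i : ℝ)) < 0 ∧
          -(3 * Real.sqrt |T.det|) ≤ matVal T fun i => (v i : ℝ) := by
    intro x h1 h2
    refine ⟨U *ᵥ ![x, 1], ?_, ?_⟩ <;> rw [hint, hval] <;> push_cast <;>
      simp only [mul_one, one_pow] <;> assumption
  have hwv : matVal T (fun i => (w i : ℝ)) = a := by
    have e : (fun i => (w i : ℝ)) = V *ᵥ ![1, 0] := by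
      funext i
      rw [hV]
      simp [mulVec, dotProduct, Fin.sum_univ_two, hUcol]
    rw [e, hval]
    ring
  have hsq : (0 : ℝ) < Real.sqrt |T.det| := Real.sqrt_pos.2 (abs_pos.2 hd)
  have hasmall : |a| < 2 * Real.sqrt |T.det| := by
    have h1 : |a| ≤ quad P fun i => ((g • w) i : ℝ) := by
      refine le_trans ?_ (hPT _)
      rw [← matVal_eq_quad, cast_smul_vec, matVal_smul, hwv, abs_mul]
      refine le_mul_of_one_le_left (abs_nonneg _) ?_
      rw [abs_of_nonneg (sq_nonneg _)]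
      exact_mod_cast (show (1 : ℤ) ≤ g ^ 2 by nlinarith [sq_pos_of_ne_zero hg])
    obtain ⟨q, hq⟩ : ∃ q, q = quad P fun i => ((g • w) i : ℝ) := ⟨_, rfl⟩
    rw [← hq] at h1 hle
    refine lt_of_le_of_lt h1 (lt_of_pow_lt_pow_left₀ 4 (by positivity) ?_)
    have hs2 : Real.sqrt |T.det| ^ 4 = T.det ^ 2 := by
      rw [show (4 : ℕ) = 2 * 2 from rfl, pow_mul, Real.sq_sqrt (abs_nonneg _), sq_abs]
    rw [mul_pow, hs2]
    rw [hPd, sq_abs] at hle
    norm_num at hle ⊢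
    have : 0 < T.det ^ 2 := by positivity
    linarith
  rcases lt_trichotomy a 0 with h0 | h0 | h0
  · refine ⟨w, by rwa [hwv], ?_⟩
    rw [hwv]
    linarith [neg_abs_le a]
  · -- `2 b x + c`
    have hb0 : b ≠ 0 := fun h => hd (by rw [hdet, h0, h]; ring)
    have hroot : Real.sqrt |T.det| = |b| := by
      rw [hdet, h0, zero_mul, zero_sub, abs_neg, abs_of_nonneg (sq_nonneg _), Real.sqrt_sq_eq_abs]
    obtain ⟨x, hx1, hx2⟩ : ∃ x : ℤ, -(2 * |b|) ≤ 2 * b * x + c ∧ 2 * b * x + c < 0 := by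
      obtain ⟨k, hk1, hk2⟩ := exists_int_window (-c / (2 * |b|))
      have hp : (0 : ℝ) < 2 * |b| := mul_pos two_pos (abs_pos.2 hb0)
      rw [lt_div_iff₀ hp] at hk2
      rw [sub_le_iff_le_add, div_le_iff₀ hp] at hk1
      rcases lt_or_gt_of_ne hb0 with h | h
      · rw [abs_of_neg h] at hk1 hk2 ⊢
        exact ⟨-k, by push_cast; linarith, by push_cast; linarith⟩
      · rw [abs_of_pos h] at hk1 hk2 ⊢
        exact ⟨k, by linarith, by linarith⟩
    refine hfin x ?_ ?_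
    · rw [h0, zero_mul, zero_add]
      exact hx2
    · rw [h0, zero_mul, zero_add, hroot]
      linarith [abs_nonneg b]
  · have hneg' : T.det < 0 := by
      by_contra hnn
      push Not at hnn
      obtain ⟨x, hx⟩ := hneg
      have hVu : IsUnit V.det := isUnit_iff_ne_zero.2 fun h => by simp [h] at hVd
      obtain ⟨z, hz⟩ : ∃ z, z = V⁻¹ *ᵥ x := ⟨_, rfl⟩
      have hxz : x = V *ᵥ ![z 0, z 1] := by
        rw [show ![z 0, z 1] = z by funext i; fin_cases i <;> rfl, hz, mulVec_mulVec,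
          mul_nonsing_inv V hVu, one_mulVec]
      rw [hxz, hval] at hx
      nlinarith [sq_nonneg (a * z 0 + b * z 1), mul_nonneg hnn (sq_nonneg (z 1))]
    obtain ⟨r, hr⟩ : ∃ r, r = Real.sqrt |T.det| / a := ⟨_, rfl⟩
    have har : a * r = Real.sqrt |T.det| := by rw [hr]; field_simp
    have hr2 : 1 / 2 < r := by
      rw [hr, lt_div_iff₀ h0]
      linarith [le_abs_self a]
    obtain ⟨x, hx1, hx2⟩ := exists_int_window (r - b / a)
    obtain ⟨u, hu⟩ : ∃ u, u = (x : ℝ) + b / a := ⟨_, rfl⟩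
    have hu1 : r - 1 ≤ u := by linarith
    have hu2 : u < r := by linarith
    have hvalue : a * (x : ℝ) ^ 2 + 2 * b * x + c = -(a * ((r - u) * (r + u))) := by
      have h : (a * r) ^ 2 = -(a * c - b ^ 2) := by
        rw [har, Real.sq_sqrt (abs_nonneg _), abs_of_neg hneg', hdet]
      rw [hu]
      field_simp
      linarith
    refine hfin x ?_ ?_
    · rw [hvalue, neg_lt_zero]
      exact mul_pos h0 (mul_pos (by linarith) (by linarith))
    · rw [hvalue, neg_le_neg_iff]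
      calc a * ((r - u) * (r + u)) ≤ a * (1 * (2 * r)) :=
            mul_le_mul_of_nonneg_left (mul_le_mul (by linarith) (by linarith) (by linarith)
              zero_le_one) h0.le
        _ = 2 * (a * r) := by ring
        _ ≤ _ := by rw [har]; linarith

/-- **Small positive values give small negative values.** -/
theorem exists_neg_of_pos {A : Mat} (hs : A.IsSymm) (hd : A.det ≠ 0)
    (hneg : ∃ x, matVal A x < 0) {η : ℝ} (hη : 0 < η) :
    ∃ θ : ℝ, 0 < θ ∧ ∀ v : Fin 3 → ℤ, 0 < matVal A (fun i => (v i : ℝ)) →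
      matVal A (fun i => (v i : ℝ)) < θ →
        ∃ u : Fin 3 → ℤ, u ≠ 0 ∧ matVal A (fun i => (u i : ℝ)) < 0 ∧
          -η < matVal A fun i => (u i : ℝ) := by
  have hD : 0 < |A.det| := abs_pos.2 hd
  refine ⟨min (η / 8) ((η / 8) ^ 4 / (9 * |A.det|)), lt_min (by linarith) (by positivity),
    fun v hvpos hvθ => ?_⟩
  have hv : v ≠ 0 := fun h => by simp [h, matVal] at hvpos
  obtain ⟨g, w, hg, hw, rfl⟩ := FA.Reduction.exists_primitive_smul hv
  obtain ⟨U, hU, hUcol⟩ := FA.Reduction.exists_unimodular_col hw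
  obtain ⟨δ, hδ⟩ : ∃ δ, δ = matVal A fun i => (w i : ℝ) := ⟨_, rfl⟩
  rw [cast_smul_vec, matVal_smul, ← hδ] at hvpos hvθ
  have hg1 : (1 : ℝ) ≤ (g : ℝ) ^ 2 := by
    exact_mod_cast (show (1 : ℤ) ≤ g ^ 2 by nlinarith [sq_pos_of_ne_zero hg])
  have hδ0 : 0 < δ := (mul_pos_iff_of_pos_left (by linarith)).1 hvpos
  have hδθ : δ < min (η / 8) ((η / 8) ^ 4 / (9 * |A.det|)) :=
    lt_of_le_of_lt (le_mul_of_one_le_left hδ0.le hg1) hvθ
  rw [lt_min_iff] at hδθ
  obtain ⟨V, hV⟩ : ∃ V : Mat, V = U.map fun z : ℤ => (z : ℝ) := ⟨_, rfl⟩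
  have hVd : V.det * V.det = 1 := by
    have : V.det = ((U.det : ℤ) : ℝ) := by
      rw [hV]; exact ((Int.castRingHom ℝ).map_det U).symm
    rw [this]
    rcases Int.isUnit_iff.1 hU with h | h <;> simp [h]
  obtain ⟨B, hB⟩ : ∃ B : Mat, B = Vᵀ * A * V := ⟨_, rfl⟩
  have hBs : B.IsSymm := hB ▸ isSymm_section hs V
  have hB00 : B 0 0 = δ := by
    have e : (fun i => (w i : ℝ)) = V *ᵥ Pi.single 0 1 := by
      funext i
      rw [hV]
      simp [hUcol]
    rw [hδ, e, matVal_mulVec, ← hB]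
    simp [matVal]
  obtain ⟨l, hl⟩ : ∃ l : Fin 2 → ℝ, l = fun j => B 0 j.succ := ⟨_, rfl⟩
  obtain ⟨R₀, hR₀⟩ : ∃ R₀, R₀ = B.submatrix Fin.succ Fin.succ := ⟨_, rfl⟩
  have hbord : B = bord δ l R₀ := by
    rw [← hB00, hl, hR₀]
    exact FA.Reduction.bord_eq hBs
  obtain ⟨S, hS⟩ : ∃ S, S = R₀ - δ⁻¹ • vecMulVec l l := ⟨_, rfl⟩
  have hsplit : ∀ t x, matVal B (Fin.cons t x) = δ * (t + (l ⬝ᵥ x) / δ) ^ 2 + matVal S x := by
    intro t x
    have e : matVal S x = matVal R₀ x - (l ⬝ᵥ x) ^ 2 / δ := by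
      simp only [hS, matVal, Matrix.sub_mulVec, Matrix.smul_mulVec, vecMulVec_mulVec,
        dotProduct_sub, dotProduct_smul, op_smul_eq_smul, smul_eq_mul, dotProduct_comm x l]
      ring
    rw [e, matVal_eq_quad, matVal_eq_quad, hbord, quad_bord]
    field_simp
    ring
  have hSs : S.IsSymm := by
    ext i j
    simp only [hS, transpose_apply, Matrix.sub_apply, Matrix.smul_apply, vecMulVec_apply, hR₀,
      submatrix_apply, smul_eq_mul]
    rw [hBs.apply, mul_comm (l i)]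
  have hSd : S.det * δ = A.det := by
    have e := FA.Reduction.pow_mul_det_bord δ l R₀
    rw [show δ • R₀ - vecMulVec l l = δ • S by
      rw [hS, smul_sub, smul_smul, mul_inv_cancel₀ hδ0.ne', one_smul], det_smul,
      Fintype.card_fin, ← hbord] at e
    have hBd : B.det = A.det := by
      rw [hB, det_mul, det_mul, det_transpose, mul_right_comm, hVd, one_mul]
    rw [hBd] at e
    exact mul_left_cancel₀ (pow_ne_zero 2 hδ0.ne') (by rw [e]; ring)
  have hSne : S.det ≠ 0 := fun h => hd (by rw [← hSd, h, zero_mul])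
  obtain ⟨y, hy, hylow⟩ := exists_neg_value_binary hSs hSne (by
    obtain ⟨x, hx⟩ := hneg
    have hVu : IsUnit V.det := isUnit_iff_ne_zero.2 fun h => by simp [h] at hVd
    rw [show x = V *ᵥ (V⁻¹ *ᵥ x) by rw [mulVec_mulVec, mul_nonsing_inv V hVu, one_mulVec],
      matVal_mulVec, ← hB, ← Fin.cons_self_tail (V⁻¹ *ᵥ x), hsplit] at hx
    exact ⟨Fin.tail (V⁻¹ *ᵥ x), lt_of_le_of_lt (le_add_of_nonneg_left (by positivity)) hx⟩)
  obtain ⟨r, hr⟩ : ∃ r, r = Real.sqrt (-(matVal S fun i => (y i : ℝ)) / δ) := ⟨_, rfl⟩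
  have hr0 : 0 < r := hr ▸ Real.sqrt_pos.2 (div_pos (neg_pos.2 hy) hδ0)
  have hr2 : δ * r ^ 2 = -(matVal S fun i => (y i : ℝ)) := by
    rw [hr, Real.sq_sqrt (div_pos (neg_pos.2 hy) hδ0).le, mul_div_cancel₀ _ hδ0.ne']
  have hδr : δ * r < η / 8 := by
    have h4 : (δ * r ^ 2) ^ 2 * δ ≤ 9 * |A.det| := by
      rw [hr2, ← hSd, abs_mul, abs_of_pos hδ0, ← mul_assoc]
      refine mul_le_mul_of_nonneg_right ?_ hδ0.le
      calc (-(matVal S fun i => (y i : ℝ))) ^ 2 ≤ (3 * Real.sqrt |S.det|) ^ 2 :=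
            pow_le_pow_left₀ (by linarith) (by linarith) 2
        _ = 9 * |S.det| := by rw [mul_pow, Real.sq_sqrt (abs_nonneg _)]; norm_num
    refine lt_of_pow_lt_pow_left₀ 4 (by linarith) ?_
    calc (δ * r) ^ 4 = δ * ((δ * r ^ 2) ^ 2 * δ) := by ring
      _ ≤ δ * (9 * |A.det|) := mul_le_mul_of_nonneg_left h4 hδ0.le
      _ < _ := (lt_div_iff₀ (by positivity)).1 hδθ.2
  obtain ⟨j, hj, hj1, hj2⟩ : ∃ j : ℕ, 0 < j ∧ 1 / 2 < j * r ∧ (j : ℝ) * r ≤ r + 1 := by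
    refine ⟨⌊(1 : ℝ) / (2 * r)⌋₊ + 1, Nat.succ_pos _, ?_, ?_⟩
    · have h := Nat.lt_floor_add_one ((1 : ℝ) / (2 * r))
      rw [div_lt_iff₀ (by positivity)] at h
      push_cast
      linarith
    · have h := Nat.floor_le (show (0 : ℝ) ≤ 1 / (2 * r) by positivity)
      rw [le_div_iff₀ (by positivity)] at h
      push_cast
      linarith
  obtain ⟨β, hβ⟩ : ∃ β, β = (l ⬝ᵥ fun i => (y i : ℝ)) / δ := ⟨_, rfl⟩
  obtain ⟨k, hk1, hk2⟩ := exists_int_window ((j : ℝ) * r - (j : ℝ) * β)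
  have hcast : (fun i => ((U *ᵥ Fin.cons k ((j : ℤ) • y)) i : ℝ)) =
      V *ᵥ Fin.cons (k : ℝ) ((j : ℝ) • fun i => (y i : ℝ)) := by
    funext i
    rw [hV]
    simp [mulVec, dotProduct, Fin.sum_univ_succ]
  have hval : matVal A (fun i => ((U *ᵥ Fin.cons k ((j : ℤ) • y)) i : ℝ)) =
      -(δ * (((j : ℝ) * r - ((k : ℝ) + j * β)) * ((j : ℝ) * r + ((k : ℝ) + j * β)))) := by
    rw [hcast, matVal_mulVec, ← hB, hsplit, dotProduct_smul, smul_eq_mul, matVal_smul,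
      mul_div_assoc, ← hβ]
    linear_combination ((j : ℝ) ^ 2) * hr2
  have hneg' : matVal A (fun i => ((U *ᵥ Fin.cons k ((j : ℤ) • y)) i : ℝ)) < 0 := by
    rw [hval, neg_lt_zero]
    exact mul_pos hδ0 (mul_pos (by linarith) (by linarith))
  refine ⟨_, fun h => ?_, hneg', ?_⟩
  · rw [h] at hneg'
    simp [matVal] at hneg'
  · rw [hval, neg_lt_neg_iff]
    calc δ * (((j : ℝ) * r - ((k : ℝ) + j * β)) * ((j : ℝ) * r + ((k : ℝ) + j * β)))
        ≤ δ * (1 * (2 * (r + 1))) :=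
          mul_le_mul_of_nonneg_left (mul_le_mul (by linarith) (by linarith) (by linarith)
            zero_le_one) hδ0.le
      _ = 2 * (δ * r) + 2 * δ := by ring
      _ < η := by linarith [hδθ.1]

/-- **Small values of either sign.** -/
theorem exists_small_neg {A : Mat} (hs : A.IsSymm) (hd : A.det ≠ 0)
    (hpos : ∃ x, 0 < matVal A x) (hneg : ∃ x, matVal A x < 0)
    (hirr : ∀ (c : ℝ) (B : Matrix (Fin 3) (Fin 3) ℤ), A ≠ c • B.map (fun z : ℤ => (z : ℝ)))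
    (haniso : ∀ v : Fin 3 → ℤ, v ≠ 0 → matVal A (fun i => (v i : ℝ)) ≠ 0) {η : ℝ} (hη : 0 < η) :
    ∃ u : Fin 3 → ℤ, u ≠ 0 ∧ matVal A (fun i => (u i : ℝ)) < 0 ∧
      -η < matVal A fun i => (u i : ℝ) := by
  obtain ⟨θ, hθ, h⟩ := exists_neg_of_pos hs hd hneg hη
  obtain ⟨v, hv, hlt⟩ : ∃ v : Fin 3 → ℤ, v ≠ 0 ∧
      |matVal A fun i => (v i : ℝ)| < min θ η := by
    by_contra hc
    push Not at hc
    obtain ⟨c, B, hB⟩ := integral_ternary hs hd hpos hneg (lt_min hθ hη) hc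
    exact hirr c B hB
  rw [lt_min_iff] at hlt
  rcases lt_or_gt_of_ne (haniso v hv) with h0 | h0
  · exact ⟨v, hv, h0, (abs_lt.1 hlt.2).1⟩
  · exact h v h0 (abs_lt.1 hlt.1).2

/-- **The values of a ternary form are dense on the positive half line.** -/
theorem exists_near_nonneg {A : Mat} (hs : A.IsSymm) (hd : A.det ≠ 0)
    (hpos : ∃ x, 0 < matVal A x) (hneg : ∃ x, matVal A x < 0)
    (hirr : ∀ (c : ℝ) (B : Matrix (Fin 3) (Fin 3) ℤ), A ≠ c • B.map (fun z : ℤ => (z : ℝ)))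
    (haniso : ∀ v : Fin 3 → ℤ, v ≠ 0 → matVal A (fun i => (v i : ℝ)) ≠ 0) {t : ℝ} (ht : 0 ≤ t)
    {η : ℝ} (hη : 0 < η) :
    ∃ u : Fin 3 → ℤ, u ≠ 0 ∧ |matVal A (fun i => (u i : ℝ)) - t| < η := by
  obtain ⟨u, hu, hu0, huθ⟩ := exists_small_neg (A := -A) hs.neg
    (by rw [det_neg]; simpa using hd)
    (hneg.imp fun x hx => by rw [matVal_neg]; linarith)
    (hpos.imp fun x hx => by rw [matVal_neg]; linarith)
    (fun c B h => hirr (-c) B (by rw [neg_smul, ← h, neg_neg]))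
    (fun v hv => by rw [matVal_neg, neg_ne_zero]; exact haniso v hv)
    (η := min (η / 2) (η ^ 2 / (16 * (t + 1)))) (lt_min (by linarith) (by positivity))
  rw [matVal_neg] at hu0 huθ
  obtain ⟨δ, hδ⟩ : ∃ δ, δ = matVal A fun i => (u i : ℝ) := ⟨_, rfl⟩
  rw [← hδ] at hu0 huθ
  have hδ0 : 0 < δ := by linarith
  obtain ⟨hθ1, hθ2⟩ := lt_min_iff.1 (show δ < _ by linarith [huθ])
  rw [lt_div_iff₀ (by positivity)] at hθ2
  obtain ⟨r, hr⟩ : ∃ r, r = Real.sqrt (t / δ) := ⟨_, rfl⟩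
  have hr0 : 0 ≤ r := hr ▸ Real.sqrt_nonneg _
  have hr2 : δ * r ^ 2 = t := by
    rw [hr, Real.sq_sqrt (div_nonneg ht hδ0.le), mul_div_cancel₀ _ hδ0.ne']
  obtain ⟨k, hk⟩ : ∃ k : ℕ, k = ⌊r⌋₊ + 1 := ⟨_, rfl⟩
  have hk1 : r < k := by rw [hk]; push_cast; exact Nat.lt_floor_add_one r
  have hk2 : (k : ℝ) ≤ r + 1 := by rw [hk]; push_cast; linarith [Nat.floor_le hr0]
  refine ⟨(k : ℤ) • u, smul_ne_zero (by rw [hk]; omega) hu, ?_⟩
  rw [cast_smul_vec, matVal_smul, ← hδ, Int.cast_natCast, ← hr2]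
  have hδr : δ * r < η / 4 := by
    refine lt_of_pow_lt_pow_left₀ 2 (by linarith) ?_
    rw [mul_pow, show δ ^ 2 * r ^ 2 = δ * (δ * r ^ 2) by ring, hr2]
    nlinarith
  have e : (k : ℝ) ^ 2 * δ - δ * r ^ 2 = δ * ((k - r) * (k + r)) := by ring
  rw [e, abs_of_nonneg (mul_nonneg hδ0.le (mul_nonneg (by linarith) (by linarith)))]
  calc δ * (((k : ℝ) - r) * (k + r)) ≤ δ * (1 * (2 * r + 1)) :=
        mul_le_mul_of_nonneg_left (mul_le_mul (by linarith) (by linarith) (by linarith)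
          zero_le_one) hδ0.le
    _ = 2 * (δ * r) + δ := by ring
    _ < η := by linarith

/-- **Dense values.** -/
theorem exists_near {A : Matrix (Fin n) (Fin n) ℝ} (hn : 3 ≤ n) (hs : A.IsSymm) (hd : A.det ≠ 0)
    (hpos : ∃ x, 0 < matVal A x) (hneg : ∃ x, matVal A x < 0)
    (hirr : ∀ (c : ℝ) (B : Matrix (Fin n) (Fin n) ℤ), A ≠ c • B.map (fun z : ℤ => (z : ℝ)))
    (haniso : ∀ v : Fin n → ℤ, v ≠ 0 → matVal A (fun i => (v i : ℝ)) ≠ 0) (t : ℝ) {η : ℝ}
    (hη : 0 < η) :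
    ∃ u : Fin n → ℤ, u ≠ 0 ∧ |matVal A (fun i => (u i : ℝ)) - t| < η := by
  obtain ⟨W, hW, hWirr⟩ := exists_irrational_section hn hs hd hpos hneg hirr
  obtain ⟨T, hT⟩ : ∃ T : Mat,
      T = (W.map fun z : ℤ => (z : ℝ))ᵀ * A * W.map fun z : ℤ => (z : ℝ) := ⟨_, rfl⟩
  obtain ⟨h1, h2, h3⟩ := hW
  rw [← hT] at h1 h2 h3
  have hTs : T.IsSymm := hT ▸ isSymm_section hs _
  have hTp : ∃ x, 0 < matVal T x := ⟨Pi.single 0 1, by simpa [matVal] using h2⟩
  have hTn : ∃ x, matVal T x < 0 := ⟨Pi.single 1 1, by simpa [matVal] using h3⟩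
  have hne : ∀ k : Fin 3 → ℤ, k ≠ 0 → W *ᵥ k ≠ 0 := fun k hk =>
    mulVec_ne_zero_of_section (A := A) ⟨hT ▸ h1, hT ▸ h2, hT ▸ h3⟩ hk
  have hval : ∀ k : Fin 3 → ℤ, matVal T (fun j => (k j : ℝ)) =
      matVal A fun i => ((W *ᵥ k) i : ℝ) := fun k => by rw [matVal_section, hT]
  have hTa : ∀ v : Fin 3 → ℤ, v ≠ 0 → matVal T (fun i => (v i : ℝ)) ≠ 0 := fun v hv => by
    rw [hval]; exact haniso _ (hne v hv)
  have hTirr : ∀ (c : ℝ) (B : Matrix (Fin 3) (Fin 3) ℤ),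
      T ≠ c • B.map (fun z : ℤ => (z : ℝ)) := fun c B => hT ▸ hWirr c B
  rcases le_total 0 t with ht | ht
  · obtain ⟨u, hu, hlt⟩ := exists_near_nonneg hTs h1 hTp hTn hTirr hTa ht hη
    exact ⟨_, hne u hu, hval u ▸ hlt⟩
  · obtain ⟨u, hu, hlt⟩ := exists_near_nonneg (A := -T) hTs.neg
      (by rw [det_neg]; simpa using h1)
      (hTn.imp fun x hx => by rw [matVal_neg]; linarith)
      (hTp.imp fun x hx => by rw [matVal_neg]; linarith)
      (fun c B h => hTirr (-c) B (by rw [neg_smul, ← h, neg_neg]))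
      (fun v hv => by rw [matVal_neg, neg_ne_zero]; exact hTa v hv) (neg_nonneg.2 ht) hη
    refine ⟨_, hne u hu, ?_⟩
    rwa [matVal_neg, hval, neg_sub_neg, abs_sub_comm] at hlt

end FA.Oppenheim
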